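import Mathlib

/-!
# GATE-M / S41-C2 (helper25's elementary proof of `CSPStmt`): Dirichlet + CRT toolkit

Shared number-theoretic helper for `GM/CSP/{Conductor,Square,Final}.lean`: primes in prescribed
unit classes modulo several moduli, on Mathlib's Dirichlet theorem
`Nat.forall_exists_prime_gt_and_modEq`.

* `exists_prime_gt_modEq_finset` : finitely many PAIRWISE COPRIME moduli;
* `exists_prime_gt_modEq_two` : two moduli with COMPATIBLE residues (not necessarily coprime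
  moduli), `exists_prime_gt_modEq_two_coprime`, `exists_prime_gt_modEq_three_coprime`;
* `exists_prime_gt_zmodEq_two` : the same with integer residues;
* `oddPart_primes E` (the product of the odd primes dividing `E`) and
  **`exists_prime_gcd_pred_dvd_two`** : for `M` prime to `2E` and `x` prime to `M` there are
  arbitrarily large primes `p ≡ x mod M` with `gcd (p - 1) E ∣ 2`
  (`p ≡ 3 mod 4`, `p ≡ 2 mod r` for every odd prime `r ∣ E`) — step (ii) of Lemma 2;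
* `exists_prime_one_mod_four` : primes `≡ 1 mod 4` in a class compatible with it, and
  `exists_sq_eq_neg_one_of_prime` (`-1` is a square modulo such a prime).
-/

set_option autoImplicit false

namespace Fermat.Agent.GM.CSP.DirichletCRT

open Nat

/-! ### Pairwise coprime moduli -/

/-- **Dirichlet + CRT**, finitely many pairwise coprime moduli. -/
theorem exists_prime_gt_modEq_finset {ι : Type*} [DecidableEq ι] (t : Finset ι) (m a : ι → ℕ)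
    (hm : ∀ i ∈ t, m i ≠ 0) (hpp : Set.Pairwise (t : Set ι) (Function.onFun Nat.Coprime m))
    (ha : ∀ i ∈ t, (a i).Coprime (m i)) (n : ℕ) :
    ∃ p > n, p.Prime ∧ ∀ i ∈ t, p ≡ a i [MOD m i] := by
  obtain ⟨k, hk⟩ := Nat.chineseRemainderOfFinset a m t hm hpp
  have hprod : (∏ i ∈ t, m i) ≠ 0 := Finset.prod_ne_zero_iff.mpr hm
  have hcop : k.Coprime (∏ i ∈ t, m i) := by
    apply Nat.Coprime.prod_right
    intro i hi
    have h1 : Nat.gcd k (m i) = Nat.gcd (a i) (m i) := (hk i hi).gcd_eq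
    rw [Nat.coprime_iff_gcd_eq_one, h1]
    exact ha i hi
  obtain ⟨p, hpn, hpp', hpk⟩ := Nat.forall_exists_prime_gt_and_modEq n hprod hcop
  refine ⟨p, hpn, hpp', fun i hi => ?_⟩
  exact (hpk.of_dvd (Finset.dvd_prod_of_mem m hi)).trans (hk i hi)

/-! ### Two moduli, compatible residues -/

/-- **Dirichlet + CRT**, two moduli (not necessarily coprime) with compatible residues. -/
theorem exists_prime_gt_modEq_two {m₁ m₂ a₁ a₂ : ℕ} (h₁ : m₁ ≠ 0) (h₂ : m₂ ≠ 0)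
    (hcompat : a₁ ≡ a₂ [MOD Nat.gcd m₁ m₂]) (ha₁ : a₁.Coprime m₁) (ha₂ : a₂.Coprime m₂) (n : ℕ) :
    ∃ p > n, p.Prime ∧ p ≡ a₁ [MOD m₁] ∧ p ≡ a₂ [MOD m₂] := by
  obtain ⟨k, hk₁, hk₂⟩ := Nat.chineseRemainder' hcompat
  have hl : Nat.lcm m₁ m₂ ≠ 0 := Nat.lcm_ne_zero h₁ h₂
  have hc₁ : k.Coprime m₁ := by
    rw [Nat.coprime_iff_gcd_eq_one, hk₁.gcd_eq]; exact ha₁
  have hc₂ : k.Coprime m₂ := by
    rw [Nat.coprime_iff_gcd_eq_one, hk₂.gcd_eq]; exact ha₂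
  have hcop : k.Coprime (Nat.lcm m₁ m₂) :=
    Nat.Coprime.coprime_dvd_right (Nat.lcm_dvd_mul m₁ m₂) (Nat.Coprime.mul_right hc₁ hc₂)
  obtain ⟨p, hpn, hpp, hpk⟩ := Nat.forall_exists_prime_gt_and_modEq n hl hcop
  exact ⟨p, hpn, hpp, (hpk.of_dvd (Nat.dvd_lcm_left m₁ m₂)).trans hk₁,
    (hpk.of_dvd (Nat.dvd_lcm_right m₁ m₂)).trans hk₂⟩

/-- two coprime moduli -/
theorem exists_prime_gt_modEq_two_coprime {m₁ m₂ a₁ a₂ : ℕ} (h₁ : m₁ ≠ 0) (h₂ : m₂ ≠ 0)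
    (hcop : m₁.Coprime m₂) (ha₁ : a₁.Coprime m₁) (ha₂ : a₂.Coprime m₂) (n : ℕ) :
    ∃ p > n, p.Prime ∧ p ≡ a₁ [MOD m₁] ∧ p ≡ a₂ [MOD m₂] := by
  refine exists_prime_gt_modEq_two h₁ h₂ ?_ ha₁ ha₂ n
  rw [Nat.coprime_iff_gcd_eq_one.mp hcop]
  exact Nat.modEq_one

/-- three pairwise coprime moduli -/
theorem exists_prime_gt_modEq_three_coprime {m₁ m₂ m₃ a₁ a₂ a₃ : ℕ} (h₁ : m₁ ≠ 0) (h₂ : m₂ ≠ 0)
    (h₃ : m₃ ≠ 0) (h₁₂ : m₁.Coprime m₂) (h₁₃ : m₁.Coprime m₃) (h₂₃ : m₂.Coprime m₃)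
    (ha₁ : a₁.Coprime m₁) (ha₂ : a₂.Coprime m₂) (ha₃ : a₃.Coprime m₃) (n : ℕ) :
    ∃ p > n, p.Prime ∧ p ≡ a₁ [MOD m₁] ∧ p ≡ a₂ [MOD m₂] ∧ p ≡ a₃ [MOD m₃] := by
  -- combine the first two moduli
  obtain ⟨k, hk₁, hk₂⟩ := Nat.chineseRemainder h₁₂ a₁ a₂
  have hc₁ : k.Coprime m₁ := by
    rw [Nat.coprime_iff_gcd_eq_one, hk₁.gcd_eq]; exact ha₁
  have hc₂ : k.Coprime m₂ := by
    rw [Nat.coprime_iff_gcd_eq_one, hk₂.gcd_eq]; exact ha₂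
  obtain ⟨p, hpn, hpp, hp₁₂, hp₃⟩ := exists_prime_gt_modEq_two_coprime
    (Nat.mul_ne_zero h₁ h₂) h₃ (Nat.Coprime.mul_left h₁₃ h₂₃) (Nat.Coprime.mul_right hc₁ hc₂) ha₃ n
  exact ⟨p, hpn, hpp, (hp₁₂.of_dvd (Nat.dvd_mul_right m₁ m₂)).trans hk₁,
    (hp₁₂.of_dvd (Nat.dvd_mul_left m₂ m₁)).trans hk₂, hp₃⟩

/-- integer residues, two moduli with compatible residues -/
theorem exists_prime_gt_zmodEq_two {m₁ m₂ : ℕ} {a₁ a₂ : ℤ} (h₁ : m₁ ≠ 0) (h₂ : m₂ ≠ 0)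
    (hcompat : a₁ ≡ a₂ [ZMOD (Nat.gcd m₁ m₂ : ℕ)]) (ha₁ : IsCoprime a₁ (m₁ : ℤ))
    (ha₂ : IsCoprime a₂ (m₂ : ℤ)) (n : ℕ) :
    ∃ p > n, p.Prime ∧ (p : ℤ) ≡ a₁ [ZMOD m₁] ∧ (p : ℤ) ≡ a₂ [ZMOD m₂] := by
  -- natural representatives
  have hm₁ : (0 : ℤ) < m₁ := by exact_mod_cast Nat.pos_of_ne_zero h₁
  have hm₂ : (0 : ℤ) < m₂ := by exact_mod_cast Nat.pos_of_ne_zero h₂
  obtain ⟨b₁, hb₁⟩ : ∃ b₁ : ℕ, (b₁ : ℤ) = a₁ % m₁ :=
    ⟨(a₁ % m₁).toNat, Int.toNat_of_nonneg (Int.emod_nonneg _ hm₁.ne')⟩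
  obtain ⟨b₂, hb₂⟩ : ∃ b₂ : ℕ, (b₂ : ℤ) = a₂ % m₂ :=
    ⟨(a₂ % m₂).toNat, Int.toNat_of_nonneg (Int.emod_nonneg _ hm₂.ne')⟩
  have e₁ : (b₁ : ℤ) ≡ a₁ [ZMOD m₁] := by rw [hb₁]; exact Int.mod_modEq _ _
  have e₂ : (b₂ : ℤ) ≡ a₂ [ZMOD m₂] := by rw [hb₂]; exact Int.mod_modEq _ _
  have hg₁ : ((Nat.gcd m₁ m₂ : ℕ) : ℤ) ∣ (m₁ : ℤ) := by exact_mod_cast Nat.gcd_dvd_left m₁ m₂
  have hg₂ : ((Nat.gcd m₁ m₂ : ℕ) : ℤ) ∣ (m₂ : ℤ) := by exact_mod_cast Nat.gcd_dvd_right m₁ m₂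
  have hcompat' : b₁ ≡ b₂ [MOD Nat.gcd m₁ m₂] := by
    rw [← Int.natCast_modEq_iff]
    exact ((e₁.of_dvd hg₁).trans hcompat).trans (e₂.of_dvd hg₂).symm
  have hc₁ : b₁.Coprime m₁ := by
    rw [← Nat.isCoprime_iff_coprime]
    have h := ha₁.add_mul_left_left (-(a₁ / m₁))
    have e : (b₁ : ℤ) = a₁ + (m₁ : ℤ) * -(a₁ / m₁) := by
      rw [hb₁, Int.emod_def]; ring
    rw [e]; exact h
  have hc₂ : b₂.Coprime m₂ := by
    rw [← Nat.isCoprime_iff_coprime]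
    have h := ha₂.add_mul_left_left (-(a₂ / m₂))
    have e : (b₂ : ℤ) = a₂ + (m₂ : ℤ) * -(a₂ / m₂) := by
      rw [hb₂, Int.emod_def]; ring
    rw [e]; exact h
  obtain ⟨p, hpn, hpp, hp₁, hp₂⟩ := exists_prime_gt_modEq_two h₁ h₂ hcompat' hc₁ hc₂ n
  exact ⟨p, hpn, hpp, ((Int.natCast_modEq_iff).mpr hp₁).trans e₁,
    ((Int.natCast_modEq_iff).mpr hp₂).trans e₂⟩

/-! ### Integers: CRT by Bézout -/

/-- CRT over `ℤ` for two coprime moduli -/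
theorem exists_int_modEq_two {m₁ m₂ : ℤ} (hcop : IsCoprime m₁ m₂) (a₁ a₂ : ℤ) :
    ∃ e : ℤ, e ≡ a₁ [ZMOD m₁] ∧ e ≡ a₂ [ZMOD m₂] := by
  obtain ⟨u, v, huv⟩ := hcop
  refine ⟨a₁ * (v * m₂) + a₂ * (u * m₁), ?_, ?_⟩
  · rw [Int.modEq_iff_dvd]
    refine ⟨(a₁ - a₂) * u, ?_⟩
    linear_combination (-a₁) * huv
  · rw [Int.modEq_iff_dvd]
    refine ⟨(a₂ - a₁) * v, ?_⟩
    linear_combination (-a₂) * huv

/-- squares glue: if `D ≡ d² mod m₁` and `D ≡ e₀² mod m₂` with `m₁, m₂` coprime then `D` is a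
square modulo `m₁ m₂` -/
theorem exists_sq_modEq_mul {m₁ m₂ : ℤ} (hcop : IsCoprime m₁ m₂) {D d e₀ : ℤ}
    (h₁ : D ≡ d ^ 2 [ZMOD m₁]) (h₂ : D ≡ e₀ ^ 2 [ZMOD m₂]) :
    ∃ e : ℤ, e ≡ d [ZMOD m₁] ∧ e ≡ e₀ [ZMOD m₂] ∧ D ≡ e ^ 2 [ZMOD m₁ * m₂] := by
  obtain ⟨e, he₁, he₂⟩ := exists_int_modEq_two hcop d e₀
  refine ⟨e, he₁, he₂, ?_⟩
  have k₁ : m₁ ∣ e ^ 2 - D := by
    have := (h₁.trans (he₁.pow 2).symm)
    exact (Int.modEq_iff_dvd.mp this)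
  have k₂ : m₂ ∣ e ^ 2 - D := by
    have := (h₂.trans (he₂.pow 2).symm)
    exact (Int.modEq_iff_dvd.mp this)
  rw [Int.modEq_iff_dvd]
  exact hcop.mul_dvd k₁ k₂

/-! ### `gcd (p - 1) E ∣ 2` -/

/-- the product of the odd primes dividing `E` -/
def oddRad (E : ℕ) : ℕ := ∏ r ∈ E.primeFactors.filter (· ≠ 2), r

theorem oddRad_ne_zero (E : ℕ) : oddRad E ≠ 0 := by
  unfold oddRad
  rw [Finset.prod_ne_zero_iff]
  intro r hr
  exact (Nat.prime_of_mem_primeFactors (Finset.mem_filter.mp hr).1).ne_zero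

theorem oddRad_dvd (E : ℕ) : oddRad E ∣ E := by
  unfold oddRad
  exact (Finset.prod_dvd_prod_of_subset _ _ _ (Finset.filter_subset _ _)).trans
    (Nat.prod_primeFactors_dvd E)

theorem dvd_oddRad {E r : ℕ} (hE : E ≠ 0) (hr : r.Prime) (hrE : r ∣ E) (hr2 : r ≠ 2) :
    r ∣ oddRad E := by
  unfold oddRad
  exact Finset.dvd_prod_of_mem _
    (Finset.mem_filter.mpr ⟨Nat.mem_primeFactors.mpr ⟨hr, hrE, hE⟩, hr2⟩)

theorem oddRad_coprime_two (E : ℕ) : (oddRad E).Coprime 2 := by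
  unfold oddRad
  apply Nat.Coprime.prod_left
  intro r hr
  obtain ⟨h1, h2⟩ := Finset.mem_filter.mp hr
  exact (Nat.coprime_primes (Nat.prime_of_mem_primeFactors h1) Nat.prime_two).mpr h2

/-- **step (ii) of Lemma 2**: for `M` prime to `2 E` and `x` prime to `M` there are arbitrarily
large primes `p ≡ x mod M` with `gcd (p - 1) E ∣ 2` -/
theorem exists_prime_gcd_pred_dvd_two {E M x : ℕ} (hE : E ≠ 0) (hM : M ≠ 0)
    (hM2 : M.Coprime 2) (hME : M.Coprime E) (hx : x.Coprime M) (n : ℕ) :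
    ∃ p > n, p.Prime ∧ p ≡ x [MOD M] ∧ p ≡ 3 [MOD 4] ∧ Nat.gcd (p - 1) E ∣ 2 := by
  have hR := oddRad_ne_zero E
  have hM4 : M.Coprime 4 := by
    have : (4 : ℕ) = 2 ^ 2 := by norm_num
    rw [this]; exact Nat.Coprime.pow_right 2 hM2
  have hMR : M.Coprime (oddRad E) := Nat.Coprime.coprime_dvd_right (oddRad_dvd E) hME
  have h4R : (4 : ℕ).Coprime (oddRad E) := by
    have : (4 : ℕ) = 2 ^ 2 := by norm_num
    rw [this]; exact Nat.Coprime.pow_left 2 (oddRad_coprime_two E).symm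
  have h2R : (2 : ℕ).Coprime (oddRad E) := (oddRad_coprime_two E).symm
  obtain ⟨p, hpn, hpp, hpM, hp4, hpR⟩ := exists_prime_gt_modEq_three_coprime hM
    (by norm_num : (4 : ℕ) ≠ 0) hR hM4 hMR h4R hx (by norm_num : (3 : ℕ).Coprime 4) h2R n
  refine ⟨p, hpn, hpp, hpM, hp4, ?_⟩
  have hp1 : p - 1 + 1 = p := Nat.sub_add_cancel hpp.one_le
  set g := Nat.gcd (p - 1) E with hg
  have hg0 : g ≠ 0 := Nat.gcd_ne_zero_right hE
  have hgp : g ∣ p - 1 := Nat.gcd_dvd_left _ _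
  have hgE : g ∣ E := Nat.gcd_dvd_right _ _
  -- the only prime dividing `g` is `2`
  have hprime : ∀ {r : ℕ}, r.Prime → r ∣ g → r = 2 := by
    intro r hr hrg
    by_contra hr2
    have h1 : r ∣ oddRad E := dvd_oddRad hE hr (hrg.trans hgE) hr2
    have h2 : p ≡ 2 [MOD r] := hpR.of_dvd h1
    have h3 : p ≡ 1 [MOD r] := by
      have : p - 1 ≡ 0 [MOD r] := (Nat.modEq_zero_iff_dvd).mpr (hrg.trans hgp)
      have := this.add_right 1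
      rwa [hp1, zero_add] at this
    have h4 : 1 ≡ 2 [MOD r] := h3.symm.trans h2
    have h5 : r ∣ 2 - 1 := (Nat.modEq_iff_dvd' (by norm_num)).mp h4
    norm_num at h5
    exact hr.one_lt.ne' h5
  have hpow := Nat.eq_prime_pow_of_unique_prime_dvd hg0 (fun {d} hd hdg => hprime hd hdg)
  -- `4 ∤ g`
  have h4g : ¬ 4 ∣ g := by
    intro h
    have h3 : p ≡ 1 [MOD 4] := by
      have : p - 1 ≡ 0 [MOD 4] := (Nat.modEq_zero_iff_dvd).mpr (h.trans hgp)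
      have := this.add_right 1
      rwa [hp1, zero_add] at this
    have : 1 ≡ 3 [MOD 4] := h3.symm.trans hp4
    exact absurd this (by decide)
  rw [hpow]
  rcases Nat.lt_or_ge g.primeFactorsList.length 2 with hk | hk
  · interval_cases g.primeFactorsList.length <;> norm_num
  · exfalso
    apply h4g
    rw [hpow]
    calc (4 : ℕ) = 2 ^ 2 := by norm_num
      _ ∣ 2 ^ g.primeFactorsList.length := pow_dvd_pow 2 hk

/-! ### Primes `≡ 1 mod 4` -/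

/-- primes `≡ 1 mod 4` in a residue class compatible with it -/
theorem exists_prime_one_mod_four {m a : ℕ} (hm : m ≠ 0) (ha : a.Coprime m)
    (hcompat : a ≡ 1 [MOD Nat.gcd m 4]) (n : ℕ) :
    ∃ p > n, p.Prime ∧ p ≡ a [MOD m] ∧ p ≡ 1 [MOD 4] :=
  exists_prime_gt_modEq_two hm (by norm_num) hcompat ha (by norm_num) n

/-- `-1` is a square modulo a prime `≡ 1 mod 4` -/
theorem exists_int_sq_add_one_dvd {p : ℕ} (hp : p.Prime) (h4 : p ≡ 1 [MOD 4]) :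
    ∃ e : ℤ, (p : ℤ) ∣ e ^ 2 + 1 := by
  have : Fact p.Prime := ⟨hp⟩
  have h : p % 4 ≠ 3 := by
    have : p % 4 = 1 := h4
    omega
  obtain ⟨y, hy⟩ := (ZMod.exists_sq_eq_neg_one_iff (p := p)).mpr h
  refine ⟨(y.val : ℤ), ?_⟩
  rw [← ZMod.intCast_zmod_eq_zero_iff_dvd]
  push_cast
  rw [ZMod.natCast_zmod_val, pow_two, ← hy]
  ring

end Fermat.Agent.GM.CSP.DirichletCRT
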