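import Fermat.Agent.GM.CSP.Stmts
import Fermat.Agent.GM.CSP.DirichletCRT

/-!
# GATE-M / S41-(C2): the Theorem of helper25's proof (post 3748) over INTEGER rows, unified form

From `SqRowStmt Φ` (Lemma 3) and "no 2-torsion" we prove `symZ Φ C D = 1` for every coprime integer
row `(C, D)` with `N ∣ C`, `D ≡ 1 mod N`.  Construction (ruling 3776 (S-c)), uniform in `q` and in the
parity of `N`: move `C` to `N l₁` (`l₁` a large prime), `D` to `D₁ ≡ 1 mod 8N`, take `τ` prime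
`≡ (D₁ + D₁⁻¹)/2 mod 4 N l₁` (so `τ ≡ 1 mod 4`), `a = 2τ - D₁`; the square of `(a b; N l₁  D₁)` has
bottom row `(N · 2 τ l₁, D')` with `D'` a square modulo `2 N l₁ τ`.
-/

set_option autoImplicit false

namespace Fermat.Agent.GM.CSP.FinalZ

open Fermat.Agent.GM.Amalgam Fermat.Agent.GM.CSP.Symbol Fermat.Agent.GM.CSP.Stmts
open Fermat.Agent.GM.CSP.DirichletCRT

variable {N q : ℕ} [hq : Fact q.Prime] {A : Type*} [CommGroup A] {Φ : ↥(DeltaQ N q) →* A}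

/-- a prime larger than `|n|` is coprime to `n ≠ 0` -/
theorem isCoprime_prime_of_lt {p : ℕ} (hp : p.Prime) {n : ℤ} (hn : n ≠ 0) (h : n.natAbs < p) :
    IsCoprime (p : ℤ) n := by
  have h1 : Nat.Coprime p n.natAbs := by
    rw [Nat.Prime.coprime_iff_not_dvd hp]
    intro hd
    exact absurd (Nat.le_of_dvd (Int.natAbs_pos.mpr hn) hd) (not_le.mpr h)
  have h2 : IsCoprime ((p : ℕ) : ℤ) ((n.natAbs : ℕ) : ℤ) := Nat.isCoprime_iff_coprime.mpr h1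
  rcases Int.natAbs_eq n with e | e
  · rw [e]; exact h2
  · rw [e]; exact h2.neg_right

/-- Step a : move `C` to `N l₁`, `l₁` a large prime -/
theorem step_a (hΦ : KillsElem Φ) {C D : ℤ} (hC : (N : ℤ) ∣ C) (hcop : IsCoprime C D)
    (hD0 : D ≠ 0) (B : ℕ) :
    ∃ l1 : ℕ, l1.Prime ∧ B < l1 ∧ IsCoprime ((N : ℤ) * l1) D ∧
      symZ Φ ((N : ℤ) * l1) D = symZ Φ C D := by
  obtain ⟨c1, rfl⟩ := hC
  have hc1 : IsCoprime c1 D := hcop.of_mul_left_right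
  have hD0' : D.natAbs ≠ 0 := Int.natAbs_ne_zero.mpr hD0
  have hc1' : IsCoprime c1 ((D.natAbs : ℕ) : ℤ) := by
    rcases Int.natAbs_eq D with e | e
    · rw [← e]; exact hc1
    · have : ((D.natAbs : ℕ) : ℤ) = -D := by omega
      rw [this]; exact hc1.neg_right
  obtain ⟨l1, hl1B, hl1p, hl1⟩ := Nat.forall_exists_prime_gt_and_zmodEq B hD0' hc1'
  have hmod : (l1 : ℤ) ≡ c1 [ZMOD D] := by
    rw [Int.modEq_iff_dvd] at hl1 ⊢
    exact Int.natAbs_dvd.mp hl1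
  have hmod' : (N : ℤ) * l1 ≡ (N : ℤ) * c1 [ZMOD (N : ℤ) * D] := hmod.mul_left'
  exact ⟨l1, hl1p, hl1B, isCoprime_of_modEq_left hcop hmod',
    symZ_modEq_left hΦ (Dvd.intro _ rfl) hcop hmod'⟩

/-- Step b + doubling : the row `(N l₁, D)` -/
theorem step_b (hΦ : KillsElem Φ) (hN : 0 < N) (h3 : SqRowStmt Φ)
    (h2 : ∀ a : A, a ^ 2 = 1 → a = 1) {l1 : ℕ} (hl1 : l1.Prime) {D : ℤ}
    (hl8 : 8 * N < l1) (hlD : (D ^ 2 + 1).natAbs < l1)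
    (hcop : IsCoprime ((N : ℤ) * l1) D) (hD1 : D ≡ 1 [ZMOD (N : ℤ)]) :
    symZ Φ ((N : ℤ) * l1) D = 1 := by
  have hNz : (N : ℤ) ≠ 0 := by exact_mod_cast hN.ne'
  have hl1z : (l1 : ℤ) ≠ 0 := by exact_mod_cast hl1.ne_zero
  have hCdvd : (N : ℤ) ∣ (N : ℤ) * l1 := Dvd.intro _ rfl
  -- coprimality of l1 with 8N
  have h8N : IsCoprime (l1 : ℤ) (8 * (N : ℤ)) := by
    apply isCoprime_prime_of_lt hl1 (by positivity)
    have : (8 * (N : ℤ)).natAbs = 8 * N := by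
      rw [Int.natAbs_mul]; simp
    rw [this]; exact hl8
  -- B1 : D1 ≡ 1 mod 8N, D1 ≡ D mod l1
  obtain ⟨D1, hD1a, hD1b⟩ := exists_int_modEq_two h8N.symm 1 D
  -- B2 : D1 ≡ D mod N l1
  have hD1N : D1 ≡ 1 [ZMOD (N : ℤ)] := hD1a.of_dvd (Dvd.intro_left _ rfl)
  have hNl1 : IsCoprime (N : ℤ) (l1 : ℤ) := (h8N.of_mul_right_right).symm
  have hD1D : D1 ≡ D [ZMOD (N : ℤ) * l1] := by
    rw [Int.modEq_iff_dvd]
    have k1 : (N : ℤ) ∣ D - D1 := Int.modEq_iff_dvd.mp (hD1N.trans hD1.symm)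
    have k2 : (l1 : ℤ) ∣ D - D1 := Int.modEq_iff_dvd.mp hD1b
    exact hNl1.mul_dvd k1 k2
  have hs1 : symZ Φ ((N : ℤ) * l1) D1 = symZ Φ ((N : ℤ) * l1) D :=
    symZ_modEq_right hΦ hCdvd hcop hD1D
  have hcop1 : IsCoprime ((N : ℤ) * l1) D1 := isCoprime_of_modEq_right hcop hD1D
  rw [← hs1]
  -- B4 : inverse a0 of D1 mod 8 N l1
  have hD1_8N : IsCoprime D1 (8 * (N : ℤ)) := by
    obtain ⟨k, hk⟩ := Int.modEq_iff_dvd.mp hD1a
    -- 1 - D1 = 8N k  (modEq_iff_dvd : n ∣ b - a for a ≡ b)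
    exact ⟨1, k, by linear_combination -hk⟩
  have hD1_l1 : IsCoprime D1 (l1 : ℤ) := (hcop1.of_mul_left_right).symm
  have hD1_all : IsCoprime D1 (8 * (N : ℤ) * l1) := hD1_8N.mul_right hD1_l1
  obtain ⟨a0, u, ha0⟩ := hD1_all
  -- a0 * D1 + u * (8 N l1) = 1
  -- B5 : a0 ≡ 1 mod 8N, t0
  obtain ⟨k1, hk1⟩ := Int.modEq_iff_dvd.mp hD1a
  -- 1 - D1 = 8N k1
  have ha0_1 : a0 + D1 - 2 = 8 * (N : ℤ) * (a0 * k1 - u * l1 - k1) := by
    linear_combination a0 * hk1 + ha0 - hk1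
  -- t0 := 1 + 4 N K,  2 t0 = a0 + D1
  set K : ℤ := a0 * k1 - u * l1 - k1 with hK
  set t0 : ℤ := 1 + 4 * (N : ℤ) * K with ht0
  have h2t0 : 2 * t0 = a0 + D1 := by rw [ht0]; linear_combination -ha0_1
  -- B6 : t0 coprime to 4 N l1
  have ht0_4N : IsCoprime t0 (4 * (N : ℤ)) := ⟨1, -K, by rw [ht0]; ring⟩
  have ht0_l1 : IsCoprime t0 (l1 : ℤ) := by
    have hpz : Prime (l1 : ℤ) := Nat.prime_iff_prime_int.mp hl1
    rw [isCoprime_comm, Prime.coprime_iff_not_dvd hpz]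
    intro hd
    -- l1 ∣ 2 t0 D1 = a0 D1 + D1^2 ≡ 1 + D1^2
    have h1 : (l1 : ℤ) ∣ 1 + D1 ^ 2 := by
      have e : 1 + D1 ^ 2 = 2 * t0 * D1 + u * (8 * (N : ℤ)) * l1 := by
        rw [h2t0]; linear_combination -ha0
      rw [e]
      exact dvd_add (Dvd.dvd.mul_right (Dvd.dvd.mul_left hd 2) D1) (Dvd.intro_left _ rfl)
    have h2' : (l1 : ℤ) ∣ D ^ 2 + 1 := by
      have hsq : D1 ^ 2 ≡ D ^ 2 [ZMOD (l1 : ℤ)] := hD1b.pow 2
      have := (Int.modEq_iff_dvd.mp hsq)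
      have e : D ^ 2 + 1 = (D ^ 2 - D1 ^ 2) + (1 + D1 ^ 2) := by ring
      rw [e]; exact dvd_add this h1
    have hpos : D ^ 2 + 1 ≠ 0 := by positivity
    have h3' : l1 ∣ (D ^ 2 + 1).natAbs := Int.natCast_dvd.mp h2'
    exact absurd (Nat.le_of_dvd (Int.natAbs_pos.mpr hpos) h3') (not_le.mpr hlD)
  have ht0_all : IsCoprime t0 (((4 * N * l1 : ℕ)) : ℤ) := by
    push_cast
    exact ht0_4N.mul_right ht0_l1
  -- B7 : the prime τ
  have hmod_ne : 4 * N * l1 ≠ 0 := by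
    have := hl1.ne_zero
    positivity
  obtain ⟨τ, hτB, hτp, hτ⟩ :=
    Nat.forall_exists_prime_gt_and_zmodEq (2 * N * l1) hmod_ne ht0_all
  have hτ' : (τ : ℤ) ≡ t0 [ZMOD 4 * (N : ℤ) * l1] := by
    have e : (((4 * N * l1 : ℕ)) : ℤ) = 4 * (N : ℤ) * l1 := by push_cast; ring
    rw [e] at hτ; exact hτ
  -- τ ≡ 1 mod 4
  have hτ4 : τ ≡ 1 [MOD 4] := by
    rw [← Int.natCast_modEq_iff]
    have h1 : (τ : ℤ) ≡ t0 [ZMOD 4] := hτ'.of_dvd ⟨(N : ℤ) * l1, by ring⟩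
    have h2' : t0 ≡ 1 [ZMOD 4] := by
      rw [Int.modEq_iff_dvd]; exact ⟨-((N : ℤ) * K), by rw [ht0]; ring⟩
    exact_mod_cast h1.trans h2'
  -- B8 : a, b
  obtain ⟨k2, hk2⟩ := Int.modEq_iff_dvd.mp hτ'
  -- t0 - τ = 4 N l1 k2
  set a : ℤ := 2 * τ - D1 with ha
  set b : ℤ := 8 * (-u - k2 * D1) with hb
  have hdet : a * D1 - b * ((N : ℤ) * l1) = 1 := by
    rw [ha, hb]
    linear_combination ha0 + D1 * h2t0 + (-2 * D1) * hk2
  -- B9 : doubling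
  have hdbl := symZ_double (Φ := Φ) hΦ hdet hCdvd
  have haD : a + D1 = 2 * τ := by rw [ha]; ring
  rw [haD] at hdbl
  -- B10 : the new row
  set m : ℤ := 2 * τ * l1 with hm
  set D' : ℤ := 2 * τ * D1 - 1 with hD'
  have hτz : (τ : ℤ) ≠ 0 := by exact_mod_cast hτp.ne_zero
  have hm0 : m ≠ 0 := by rw [hm]; positivity
  have hNm : (N : ℤ) * m = 2 * τ * ((N : ℤ) * l1) := by rw [hm]; ring
  have hcopD' : IsCoprime ((N : ℤ) * m) D' := by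
    refine ⟨-(2 * τ * b), 2 * τ * a - 1, ?_⟩
    rw [hNm, hD']
    have e : (2 * (τ : ℤ)) = a + D1 := haD.symm
    linear_combination (2 * (τ : ℤ)) ^ 2 * hdet - (2 * (τ : ℤ)) * e
  have hD'eq : D' = D1 ^ 2 + b * ((N : ℤ) * l1) := by
    rw [hD']
    have e : (2 * (τ : ℤ)) = a + D1 := haD.symm
    rw [e]; linear_combination hdet
  have hD'1 : D' ≡ 1 [ZMOD (N : ℤ)] := by
    rw [hD'eq]
    have h1 : D1 ^ 2 ≡ 1 [ZMOD (N : ℤ)] := by simpa using hD1N.pow 2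
    have h2' : b * ((N : ℤ) * l1) ≡ 0 [ZMOD (N : ℤ)] := by
      rw [Int.modEq_zero_iff_dvd]; exact ⟨b * l1, by ring⟩
    simpa using h1.add h2'
  -- square modulo (2 N l1) * τ
  have hsq1 : D' ≡ D1 ^ 2 [ZMOD 2 * (N : ℤ) * l1] := by
    rw [hD'eq, Int.modEq_iff_dvd]
    exact ⟨-(4 * (-u - k2 * D1)), by rw [hb]; ring⟩
  obtain ⟨ι, hι⟩ := exists_int_sq_add_one_dvd hτp hτ4
  have hsq2 : D' ≡ ι ^ 2 [ZMOD (τ : ℤ)] := by
    rw [Int.modEq_iff_dvd]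
    obtain ⟨w, hw⟩ := hι
    exact ⟨w - 2 * D1, by rw [hD']; linear_combination hw⟩
  have hcopτ : IsCoprime (2 * (N : ℤ) * l1) (τ : ℤ) := by
    apply (isCoprime_prime_of_lt hτp (by positivity) _).symm
    have : (2 * (N : ℤ) * l1).natAbs = 2 * N * l1 := by
      rw [Int.natAbs_mul, Int.natAbs_mul]; simp
    rw [this]; exact hτB
  obtain ⟨e, -, -, he⟩ := exists_sq_modEq_mul hcopτ hsq1 hsq2
  have hmod : (N : ℤ) * m = 2 * (N : ℤ) * l1 * τ := by rw [hm]; ring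
  rw [← hmod] at he
  have hfin := h3 m D' e hm0 hcopD' hD'1 he
  -- conclude
  have e1 : 2 * (τ : ℤ) * ((N : ℤ) * l1) = (N : ℤ) * m := hNm.symm
  rw [e1] at hdbl
  rw [hfin] at hdbl
  exact h2 _ hdbl.symm

/-- **Theorem (integer rows)** : the symbol vanishes on coprime integer rows with `D ≡ 1 mod N` -/
theorem symZ_eq_one_of_sqRow (hΦ : KillsElem Φ) (hN : 0 < N) (h3 : SqRowStmt Φ)
    (h2 : ∀ a : A, a ^ 2 = 1 → a = 1) {C D : ℤ} (hC : (N : ℤ) ∣ C) (hcop : IsCoprime C D)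
    (hD1 : D ≡ 1 [ZMOD (N : ℤ)]) : symZ Φ C D = 1 := by
  by_cases hD0 : D = 0
  · -- then C is a unit, N = 1 ... move D to D + C
    subst hD0
    have hCu : IsUnit C := by
      obtain ⟨u, v, huv⟩ := hcop
      exact IsUnit.of_mul_eq_one u (by linear_combination huv)
    have hmod : (1 : ℤ) ≡ 0 [ZMOD C] := by
      rw [Int.modEq_zero_iff_dvd]; exact hCu.dvd
    have := symZ_modEq_right (Φ := Φ) hΦ hC hcop hmod
    rw [← this]
    exact symZ_one hΦ hC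
  · obtain ⟨l1, hl1p, hl1B, hcop1, hs⟩ :=
      step_a (Φ := Φ) hΦ hC hcop hD0 (8 * N + (D ^ 2 + 1).natAbs)
    rw [← hs]
    exact step_b hΦ hN h3 h2 hl1p (by omega) (by omega) hcop1 hD1

end Fermat.Agent.GM.CSP.FinalZ
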