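import Fermat.Agent.GM.CSP.Symbol

/-!
# GATE-M / S41-(C2) CSP, part INTROW (helper33): the integer-row API for the symbol

Everything in helper25's proof of `CSPStmt` (board 3748) can be stated over `ℤ`; this file
translates `Symbol.lean` to integer rows (casts `ℤ → ℚ`).

* `intCast_mem_NZq`, `isRow_int`;
* `(R1Z)` `sym_congr_right`, `(R2Z)` `sym_congr_left`, `(R3Z)` `sym_mul_qpow`,
  `(R2+R3)` `sym_congr_left_qpow` (the step of the conductor lemma);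
* `(B)` `sym_int_one`, `sym_int_of_dvd_sub_one`;
* `(CH)` `sym_double` (Cayley–Hamilton doubling for integer matrices);
* `exists_int_congr`, `int_dvd_of_mem_NZq`, `isCoprime_of_isRow_int`;
* `(NORM)` `exists_int_row` : every row `(c,d)` of `Γ0(N)[1/q]` with `d ≡ 1 mod N` has the symbol
  of a coprime integer row `(N l, d')`, `d' ≡ 1 mod N`;
* `map_eq_one_of_int_sym` : CSP from the vanishing of the symbol on coprime integer rows.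
-/

set_option autoImplicit false

namespace Fermat.Agent.GM.CSP.IntRow

open Matrix Matrix.SpecialLinearGroup
open scoped MatrixGroups
open Fermat.Agent.GM.Amalgam Fermat.Agent.GM.CSP.Symbol

variable {N q : ℕ} [hq : Fact q.Prime]

/-! ### integer rows -/

theorem intCast_mem_NZq {c : ℤ} (hc : (N : ℤ) ∣ c) : (c : ℚ) ∈ NZq q N := by
  obtain ⟨k, rfl⟩ := hc
  exact ⟨(k : ℚ), intCast_mem_Zq q k, by push_cast; ring⟩

theorem isRow_int {c d : ℤ} (hc : (N : ℤ) ∣ c) (h : IsCoprime c d) :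
    IsRow N q (c : ℚ) (d : ℚ) := by
  obtain ⟨u, v, huv⟩ := h
  refine isRow_iff.2 ⟨intCast_mem_NZq hc, intCast_mem_Zq q d, (v : ℚ), intCast_mem_Zq q v,
    ((-u : ℤ) : ℚ), intCast_mem_Zq q _, ?_⟩
  have : ((u * c + v * d : ℤ) : ℚ) = 1 := by rw [huv]; simp
  push_cast at this ⊢
  linarith

section Sym

variable {A : Type*} [CommGroup A] {Φ : ↥(DeltaQ N q) →* A}

/-- (R1Z) `s(c, d') = s(c, d)` if `d' ≡ d mod c` -/
theorem sym_congr_right (hΦ : KillsElem Φ) {c d d' : ℤ} (hr : IsRow N q (c : ℚ) (d : ℚ))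
    (h : c ∣ d' - d) :
    IsRow N q (c : ℚ) (d' : ℚ) ∧ sym Φ (c : ℚ) (d' : ℚ) = sym Φ (c : ℚ) (d : ℚ) := by
  obtain ⟨t, ht⟩ := h
  have key := sym_add_mul_right (Φ := Φ) hΦ hr (intCast_mem_Zq q t)
  have e : (d : ℚ) + (t : ℚ) * (c : ℚ) = (d' : ℚ) := by
    have : (d' : ℚ) - d = c * t := by exact_mod_cast ht
    linarith
  rwa [e] at key

/-- (R2Z) `s(c', d) = s(c, d)` if `c' ≡ c mod N d` -/
theorem sym_congr_left (hΦ : KillsElem Φ) {c c' d : ℤ} (hr : IsRow N q (c : ℚ) (d : ℚ))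
    (h : (N : ℤ) * d ∣ c' - c) :
    IsRow N q (c' : ℚ) (d : ℚ) ∧ sym Φ (c' : ℚ) (d : ℚ) = sym Φ (c : ℚ) (d : ℚ) := by
  obtain ⟨t, ht⟩ := h
  have hmem : (N : ℚ) * (t : ℚ) ∈ NZq q N := ⟨(t : ℚ), intCast_mem_Zq q t, rfl⟩
  have key := sym_add_mul_left (Φ := Φ) hΦ hr hmem
  have e : (c : ℚ) + (N : ℚ) * (t : ℚ) * (d : ℚ) = (c' : ℚ) := by
    have : (c' : ℚ) - c = (N : ℚ) * d * t := by exact_mod_cast ht
    linarith
  rwa [e] at key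

/-- (R3Z) `s(c q^(2k), d) = s(c, d)` -/
theorem sym_mul_qpow (hΦ : KillsElem Φ) {c d : ℤ} (hr : IsRow N q (c : ℚ) (d : ℚ)) (k : ℕ) :
    IsRow N q ((c * (q : ℤ) ^ (2 * k) : ℤ) : ℚ) (d : ℚ) ∧
      sym Φ ((c * (q : ℤ) ^ (2 * k) : ℤ) : ℚ) (d : ℚ) = sym Φ (c : ℚ) (d : ℚ) := by
  have key := sym_sq (Φ := Φ) hΦ hr ((isUnitZq_q (q := q)).pow k)
  have e : ((q : ℚ) ^ k) ^ 2 * (c : ℚ) = ((c * (q : ℤ) ^ (2 * k) : ℤ) : ℚ) := by
    push_cast; ring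
  rwa [e] at key

/-- (R2+R3) the step of the conductor lemma: `s(c', d) = s(c, d)` if `c' ≡ c q^(2k) mod N d` -/
theorem sym_congr_left_qpow (hΦ : KillsElem Φ) {c c' d : ℤ} (hr : IsRow N q (c : ℚ) (d : ℚ))
    (k : ℕ) (h : (N : ℤ) * d ∣ c' - c * (q : ℤ) ^ (2 * k)) :
    IsRow N q (c' : ℚ) (d : ℚ) ∧ sym Φ (c' : ℚ) (d : ℚ) = sym Φ (c : ℚ) (d : ℚ) := by
  obtain ⟨r1, e1⟩ := sym_mul_qpow (Φ := Φ) hΦ hr k
  obtain ⟨r2, e2⟩ := sym_congr_left (Φ := Φ) hΦ r1 h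
  exact ⟨r2, e2.trans e1⟩

/-- (B) `s(c, 1) = 1` -/
theorem sym_int_one (hΦ : KillsElem Φ) {c : ℤ} (hc : (N : ℤ) ∣ c) :
    sym Φ (c : ℚ) ((1 : ℤ) : ℚ) = 1 := by
  have hmem : (c : ℚ) ∈ NZq q N := intCast_mem_NZq hc
  have key := sym_eq' hΦ ⟨lowerQ (c : ℚ), lowerQ_mem_DeltaQ hmem⟩ (c := (c : ℚ))
    (d := ((1 : ℤ) : ℚ)) (by simp [lowerQ]) (by simp [lowerQ])
  rw [key, hΦ.lower _ hmem]

/-- (B') `s(c, d) = 1` if `d ≡ 1 mod c` -/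
theorem sym_int_of_dvd_sub_one (hΦ : KillsElem Φ) {c d : ℤ} (hc : (N : ℤ) ∣ c)
    (h : c ∣ d - 1) : sym Φ (c : ℚ) (d : ℚ) = 1 := by
  have hr : IsRow N q (c : ℚ) ((1 : ℤ) : ℚ) := isRow_int hc isCoprime_one_right
  rw [(sym_congr_right (Φ := Φ) hΦ hr h).2, sym_int_one hΦ hc]

/-- (CH) Cayley–Hamilton doubling for an integer matrix `(a b; c d) ∈ Γ0(N)`:
`s((a+d) c, (a+d) d - 1) = s(c,d)²` -/
theorem sym_double (hΦ : KillsElem Φ) {a b c d : ℤ} (hc : (N : ℤ) ∣ c)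
    (hdet : a * d - b * c = 1) :
    IsRow N q (((a + d) * c : ℤ) : ℚ) (((a + d) * d - 1 : ℤ) : ℚ) ∧
      sym Φ (((a + d) * c : ℤ) : ℚ) (((a + d) * d - 1 : ℤ) : ℚ) =
        sym Φ (c : ℚ) (d : ℚ) ^ 2 := by
  have hdetQ : (a : ℚ) * d - b * c = 1 := by exact_mod_cast hdet
  let x : ↥(DeltaQ N q) := ⟨mkQ a b c d hdetQ, mkQ_mem hdetQ (intCast_mem_Zq q a)
    (intCast_mem_Zq q b) (intCast_mem_NZq hc) (intCast_mem_Zq q d)⟩
  have x00 : (x : SLQ) 0 0 = a := by simp [x]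
  have x10 : (x : SLQ) 1 0 = c := by simp [x]
  have x11 : (x : SLQ) 1 1 = d := by simp [x]
  obtain ⟨e10, e11⟩ := pow_row (x : SLQ) 1
  have c2 : ∀ t : ℚ, cheb t (1 + 1) = t := fun t => by
    show cheb t (0 + 2) = t
    rw [cheb_succ_succ]; simp
  rw [c2, x00, x11, x10] at e10
  rw [c2, cheb_one, x00, x11] at e11
  have f10 : ((x ^ 2 : ↥(DeltaQ N q)) : SLQ) 1 0 = (((a + d) * c : ℤ) : ℚ) := by
    show ((x : SLQ) ^ (1 + 1)) 1 0 = _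
    rw [e10]; push_cast; ring
  have f11 : ((x ^ 2 : ↥(DeltaQ N q)) : SLQ) 1 1 = (((a + d) * d - 1 : ℤ) : ℚ) := by
    show ((x : SLQ) ^ (1 + 1)) 1 1 = _
    rw [e11]; push_cast; ring
  refine ⟨⟨x ^ 2, f10, f11⟩, ?_⟩
  rw [sym_eq' hΦ (x ^ 2) f10 f11, map_pow, ← sym_eq' hΦ x x10 x11]

end Sym

/-! ### from `ℤ[1/q]` to `ℤ` -/

/-- every element of `ℤ[1/q]` is congruent to an integer modulo an integer prime to `q` -/
theorem exists_int_congr {y : ℚ} (hy : y ∈ Zq q) {M : ℤ} (hM : IsCoprime M (q : ℤ)) :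
    ∃ y' : ℤ, ∃ t ∈ Zq q, y = y' + t * M := by
  obtain ⟨k, m, rfl⟩ := hy
  obtain ⟨u, v, h⟩ := hM.pow_right (n := k)
  have hq0 : (q : ℚ) ^ k ≠ 0 := pow_ne_zero _ (Nat.cast_ne_zero.2 hq.out.ne_zero)
  refine ⟨m * v, (m * u : ℤ) / (q : ℚ) ^ k, div_pow_mem_Zq q _ k, ?_⟩
  have hQ : (u : ℚ) * M + v * (q : ℚ) ^ k = 1 := by exact_mod_cast h
  push_cast
  field_simp
  linear_combination (-(m : ℚ)) * hQ

theorem isCoprime_N_q (hqN : ¬ q ∣ N) : IsCoprime (N : ℤ) (q : ℤ) := by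
  have : Nat.Coprime q N := (Nat.Prime.coprime_iff_not_dvd hq.out).2 hqN
  exact (Nat.isCoprime_iff_coprime.2 this).symm

/-- an integer in `N ℤ[1/q]` is divisible by `N` (`q ∤ N`) -/
theorem int_dvd_of_mem_NZq (hqN : ¬ q ∣ N) {z : ℤ} (h : (z : ℚ) ∈ NZq q N) : (N : ℤ) ∣ z := by
  obtain ⟨k, m, hNm, hz⟩ := mem_NZq_iff.1 h
  have hq0 : (q : ℚ) ^ k ≠ 0 := pow_ne_zero _ (Nat.cast_ne_zero.2 hq.out.ne_zero)
  have e : z * (q : ℤ) ^ k = m := by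
    have : (z : ℚ) * (q : ℚ) ^ k = m := by rw [hz]; field_simp
    exact_mod_cast this
  have hdvd : (N : ℤ) ∣ z * (q : ℤ) ^ k := e ▸ hNm
  exact ((isCoprime_N_q hqN).pow_right (n := k)).dvd_of_dvd_mul_right hdvd

/-- an integer row of `Γ0(N)[1/q]` whose first entry is prime to `q` is coprime over `ℤ` -/
theorem isCoprime_of_isRow_int {c d : ℤ} (hr : IsRow N q (c : ℚ) (d : ℚ))
    (hcq : IsCoprime c (q : ℤ)) : IsCoprime c d := by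
  obtain ⟨-, -, a, ⟨ka, ma, rfl⟩, b, ⟨kb, mb, rfl⟩, h⟩ := isRow_iff.1 hr
  have hq0 : (q : ℚ) ≠ 0 := Nat.cast_ne_zero.2 hq.out.ne_zero
  have hZ : ma * (q : ℤ) ^ kb * d - mb * (q : ℤ) ^ ka * c = (q : ℤ) ^ (ka + kb) := by
    have : (ma : ℚ) * (q : ℚ) ^ kb * d - mb * (q : ℚ) ^ ka * c = (q : ℚ) ^ (ka + kb) := by
      rw [pow_add]
      field_simp at h
      linear_combination h
    exact_mod_cast this
  obtain ⟨u, v, huv⟩ := hcq.pow_right (n := ka + kb)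
  refine ⟨u - v * (mb * (q : ℤ) ^ ka), v * (ma * (q : ℤ) ^ kb), ?_⟩
  linear_combination huv + v * hZ

/-- the `q`-part of a nonzero integer -/
theorem exists_qpart {n : ℤ} (hn : n ≠ 0) :
    ∃ (e : ℕ) (n0 : ℤ), n = (q : ℤ) ^ e * n0 ∧ IsCoprime n0 (q : ℤ) := by
  have hqp : Prime (q : ℤ) := Nat.prime_iff_prime_int.1 hq.out
  have hfin : FiniteMultiplicity (q : ℤ) n :=
    Int.finiteMultiplicity_iff.2 ⟨by simpa using hq.out.ne_one, hn⟩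
  obtain ⟨n0, h1, h2⟩ := hfin.exists_eq_pow_mul_and_not_dvd
  exact ⟨_, n0, h1, ((hqp.irreducible.coprime_iff_not_dvd).2 h2).symm⟩

section Norm

variable {A : Type*} [CommGroup A] {Φ : ↥(DeltaQ N q) →* A}

/-- **(NORM)** every row `(c,d)` with `d ≡ 1 mod N` has the symbol of a coprime integer row
`(N l, d')` with `d' ≡ 1 mod N` -/
theorem exists_int_row (hΦ : KillsElem Φ) (hqN : ¬ q ∣ N) {c d : ℚ}
    (hr : IsRow N q c d) (hd : d - 1 ∈ NZq q N) :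
    ∃ l d' : ℤ, l ≠ 0 ∧ IsCoprime ((N : ℤ) * l) d' ∧ (N : ℤ) ∣ d' - 1 ∧
      sym Φ c d = sym Φ (((N : ℤ) * l : ℤ) : ℚ) (d' : ℚ) := by
  -- WLOG `d ≠ 0`
  wlog hd0 : d ≠ 0 generalizing d
  · rw [not_not] at hd0
    have hc : c ∈ NZq q N := (isRow_iff.1 hr).1
    obtain ⟨r1, e1⟩ := sym_add_mul_right (Φ := Φ) hΦ hr (Zq q).one_mem
    have hc0 : c ≠ 0 := by
      rintro rfl
      obtain ⟨-, -, a, -, b, -, h⟩ := isRow_iff.1 hr
      rw [hd0] at h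
      simp at h
    have hd' : d + 1 * c - 1 ∈ NZq q N := by
      have : d + 1 * c - 1 = (d - 1) + c := by ring
      rw [this]
      exact (NZq q N).add_mem hd hc
    obtain ⟨l, d', h1, h2, h3, h4⟩ := this r1 hd' (by rw [hd0]; simpa using hc0)
    exact ⟨l, d', h1, h2, h3, e1 ▸ h4⟩
  have hq0 : (q : ℚ) ≠ 0 := Nat.cast_ne_zero.2 hq.out.ne_zero
  obtain ⟨hc, hdZ, -⟩ := isRow_iff.1 hr
  obtain ⟨c0, hc0, rfl⟩ := hc
  -- `d = q^e n0 / q^j`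
  obtain ⟨j, n, rfl⟩ := hdZ
  have hn : n ≠ 0 := by
    rintro rfl
    simp at hd0
  obtain ⟨e, n0, rfl, hn0⟩ := exists_qpart (q := q) hn
  -- Step A: an integer `l ≡ c0 mod n0`, prime to `q`
  obtain ⟨l1, t1, ht1, hl1⟩ := exists_int_congr hc0 hn0
  obtain ⟨l, t, ht, hl, hlq⟩ : ∃ (l : ℤ) (t : ℚ), t ∈ Zq q ∧ c0 = l + t * n0 ∧
      IsCoprime l (q : ℤ) := by
    have hqp : Prime (q : ℤ) := Nat.prime_iff_prime_int.1 hq.out
    by_cases hdv : (q : ℤ) ∣ l1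
    · refine ⟨l1 + n0, t1 - 1, (Zq q).sub_mem ht1 (Zq q).one_mem, ?_, ?_⟩
      · rw [hl1]; push_cast; ring
      · refine ((hqp.irreducible.coprime_iff_not_dvd).2 fun h => ?_).symm
        have : (q : ℤ) ∣ n0 := by
          have := dvd_sub h hdv
          simpa using this
        exact (hqp.irreducible.coprime_iff_not_dvd).1 hn0.symm this
    · exact ⟨l1, t1, ht1, hl1, ((hqp.irreducible.coprime_iff_not_dvd).2 hdv).symm⟩
  have hl0 : l ≠ 0 := by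
    rintro rfl
    have := hlq.isUnit_of_dvd' (dvd_zero _) (dvd_refl _)
    exact (Nat.prime_iff_prime_int.1 hq.out).not_isUnit this
  -- `(N c0, d) → (N l, d)` by (R2)
  set d : ℚ := ((q : ℤ) ^ e * n0 : ℤ) / (q : ℚ) ^ j with hddef
  have hn0Q : (n0 : ℚ) ≠ 0 := by
    intro h
    apply hn
    have : n0 = 0 := by exact_mod_cast h
    rw [this, mul_zero]
  have hy : -((N : ℚ) * (t * ((q : ℚ) ^ j / (q : ℚ) ^ e))) ∈ NZq q N := by
    refine (NZq q N).neg_mem ⟨_, (Zq q).mul_mem ht ?_, rfl⟩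
    have : (q : ℚ) ^ j / (q : ℚ) ^ e = ((q : ℤ) ^ j : ℤ) / (q : ℚ) ^ e := by push_cast; rfl
    rw [this]
    exact div_pow_mem_Zq q _ e
  obtain ⟨r1, e1⟩ := sym_add_mul_left (Φ := Φ) hΦ hr hy
  have a1 : (N : ℚ) * c0 + -((N : ℚ) * (t * ((q : ℚ) ^ j / (q : ℚ) ^ e))) * d =
      (((N : ℤ) * l : ℤ) : ℚ) := by
    rw [hddef, hl]
    push_cast
    field_simp
    ring
  rw [a1] at r1 e1
  -- Step B: `d → d'` integer by (R1)
  have hNl : IsCoprime ((N : ℤ) * l) (q : ℤ) := (isCoprime_N_q hqN).mul_left hlq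
  obtain ⟨d', t2, ht2, hd'⟩ := exists_int_congr (q := q) (y := d)
    (div_pow_mem_Zq q _ j) hNl
  obtain ⟨r2, e2⟩ := sym_add_mul_right (Φ := Φ) hΦ r1 ((Zq q).neg_mem ht2)
  have a2 : d + -t2 * (((N : ℤ) * l : ℤ) : ℚ) = (d' : ℚ) := by
    rw [hd']; ring
  rw [a2] at r2 e2
  refine ⟨l, d', hl0, isCoprime_of_isRow_int r2 hNl, ?_, ?_⟩
  · apply int_dvd_of_mem_NZq (q := q) hqN
    have : ((d' - 1 : ℤ) : ℚ) = (d - 1) + (-(t2 * l)) * (N : ℚ) := by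
      rw [hd']; push_cast; ring
    rw [this]
    refine (NZq q N).add_mem hd ?_
    rw [mul_comm]
    exact ⟨_, (Zq q).neg_mem ((Zq q).mul_mem ht2 (intCast_mem_Zq q l)), rfl⟩
  · rw [← e1, ← e2]

/-- CSP from the vanishing of the symbol on coprime integer rows -/
theorem map_eq_one_of_int_sym (hΦ : KillsElem Φ) (hqN : ¬ q ∣ N)
    (h : ∀ l d : ℤ, l ≠ 0 → IsCoprime ((N : ℤ) * l) d → (N : ℤ) ∣ d - 1 →
      sym Φ (((N : ℤ) * l : ℤ) : ℚ) (d : ℚ) = 1)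
    (x : ↥(DeltaQ N q)) (hx : (x : SLQ) 1 1 - 1 ∈ NZq q N) : Φ x = 1 := by
  refine map_eq_one_of_sym hΦ (fun c d hr hd => ?_) x hx
  obtain ⟨l, d', h1, h2, h3, h4⟩ := exists_int_row (Φ := Φ) hΦ hqN hr hd
  rw [h4]
  exact h l d' h1 h2 h3

end Norm

end Fermat.Agent.GM.CSP.IntRow
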