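import Mathlib

/-!
# GATE-M / S41-C2 (helper25's elementary proof of `CSPStmt`): pure number theory for Lemma 2,
items (b) and (c) of helper95's split 3776 (twin of `GM/CSP/SqPrimeNT.lean`; Mathlib only)

* `exists_exponent` (b): if `gcd o1 o2 ∣ 2` there is `j ≥ s`, `2 ≤ j`, `j ≡ 2 [MOD o1]`, `o2 ∣ j`;
* `pow_pred_modEq_one`, `pow_pred_eq_one`, `orderOf_dvd_pred` (c): if `l ^ 2 ≡ 1 [MOD N]` and `l2` is
  an odd prime not dividing `N * l`, then `l ^ (l2 - 1) ≡ 1 [MOD N * l2]`, hence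
  `orderOf (l : ZMod (N * l2)) ∣ l2 - 1`;
* `orderOf_dvd_totient` : `orderOf (l : ZMod n) ∣ φ n` for `l` prime to `n`;
* `pow_eq_of_modEq_orderOf` : `(l : ZMod n) ^ j = (l : ZMod n) ^ j'` if `j ≡ j' [MOD orderOf]`, and the
  integer form `pow_modEq_of_modEq_orderOf`;
* `gcd_pred_dvd_two` : `l2 ≡ -1 [MOD 4 * P]` gives `gcd (l2 - 1) P ∣ 2` (simplification (S-a)).
-/

set_option autoImplicit false

namespace Fermat.Agent.GM.CSP.SqPrimeNT2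

open Nat

/-! ### (b) the exponent -/

/-- **(b)** two periodicities with `gcd ∣ 2`: an exponent `j ≥ s`, `j ≥ 2`, `j ≡ 2 mod o1`,
`o2 ∣ j`. -/
theorem exists_exponent (o1 o2 s : ℕ) (h1 : 0 < o1) (h2 : 0 < o2) (hg : Nat.gcd o1 o2 ∣ 2) :
    ∃ j : ℕ, s ≤ j ∧ 2 ≤ j ∧ j ≡ 2 [MOD o1] ∧ o2 ∣ j := by
  have hcompat : 2 ≡ 0 [MOD Nat.gcd o1 o2] := (Nat.modEq_zero_iff_dvd).2 hg
  obtain ⟨k, hk1, hk2⟩ := Nat.chineseRemainder' hcompat
  refine ⟨k + (s + 2) * (o1 * o2), ?_, ?_, ?_, ?_⟩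
  · have : 1 ≤ o1 * o2 := Nat.mul_pos h1 h2
    nlinarith
  · have : 1 ≤ o1 * o2 := Nat.mul_pos h1 h2
    nlinarith
  · have : k + (s + 2) * (o1 * o2) ≡ k + 0 [MOD o1] := by
      apply Nat.ModEq.add_left
      rw [Nat.modEq_zero_iff_dvd]
      exact Dvd.dvd.mul_left (Dvd.intro _ rfl) _
    exact (this.trans (by rw [add_zero])).trans hk1
  · have hk : o2 ∣ k := (Nat.modEq_zero_iff_dvd).1 hk2
    exact dvd_add hk (Dvd.dvd.mul_left (Dvd.intro_left _ rfl) _)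

/-! ### (c) the order of `l` modulo `N * l2` -/

/-- `l ^ (l2 - 1) ≡ 1 mod N * l2` if `l² ≡ 1 mod N` and `l2` is an odd prime not dividing `N * l` -/
theorem pow_pred_modEq_one {N l l2 : ℕ} (hl2 : l2.Prime) (h2 : l2 ≠ 2) (hN : ¬ l2 ∣ N)
    (hl : ¬ l2 ∣ l) (hsq : l ^ 2 ≡ 1 [MOD N]) : l ^ (l2 - 1) ≡ 1 [MOD N * l2] := by
  have hcop : Nat.Coprime N l2 := ((Nat.Prime.coprime_iff_not_dvd hl2).2 hN).symm
  rw [← Nat.modEq_and_modEq_iff_modEq_mul hcop]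
  constructor
  · -- `l2 - 1` is even
    obtain ⟨k, hk⟩ : ∃ k, l2 - 1 = 2 * k := by
      rcases hl2.eq_two_or_odd with h | h
      · exact absurd h h2
      · refine ⟨(l2 - 1) / 2, ?_⟩
        have := Nat.div_add_mod l2 2
        omega
    rw [hk, pow_mul]
    simpa using hsq.pow k
  · have hc : Nat.Coprime l l2 := ((Nat.Prime.coprime_iff_not_dvd hl2).2 hl).symm
    have := Nat.ModEq.pow_totient hc
    rwa [Nat.totient_prime hl2] at this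

/-- the same in `ZMod (N * l2)` -/
theorem pow_pred_eq_one {N l l2 : ℕ} (hl2 : l2.Prime) (h2 : l2 ≠ 2) (hN : ¬ l2 ∣ N)
    (hl : ¬ l2 ∣ l) (hsq : l ^ 2 ≡ 1 [MOD N]) : ((l : ℕ) : ZMod (N * l2)) ^ (l2 - 1) = 1 := by
  have h := pow_pred_modEq_one hl2 h2 hN hl hsq
  have := (ZMod.natCast_eq_natCast_iff _ _ _).2 h
  simpa using this

/-- **(c)** `orderOf (l : ZMod (N * l2)) ∣ l2 - 1` -/
theorem orderOf_dvd_pred {N l l2 : ℕ} (hl2 : l2.Prime) (h2 : l2 ≠ 2) (hN : ¬ l2 ∣ N)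
    (hl : ¬ l2 ∣ l) (hsq : l ^ 2 ≡ 1 [MOD N]) : orderOf ((l : ℕ) : ZMod (N * l2)) ∣ l2 - 1 :=
  orderOf_dvd_of_pow_eq_one (pow_pred_eq_one hl2 h2 hN hl hsq)

/-- `orderOf (l : ZMod n) ∣ φ n` for `l` prime to `n` -/
theorem orderOf_dvd_totient {n l : ℕ} (hc : Nat.Coprime l n) :
    orderOf ((l : ℕ) : ZMod n) ∣ Nat.totient n := by
  apply orderOf_dvd_of_pow_eq_one
  have := (ZMod.natCast_eq_natCast_iff _ _ _).2 (Nat.ModEq.pow_totient hc)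
  simpa using this

/-- the order is positive for `l` prime to `n ≠ 0` -/
theorem orderOf_pos_of_coprime {n l : ℕ} (hn : n ≠ 0) (hc : Nat.Coprime l n) :
    0 < orderOf ((l : ℕ) : ZMod n) := by
  have h := orderOf_dvd_totient hc
  have hpos : 0 < Nat.totient n := Nat.totient_pos.2 (Nat.pos_of_ne_zero hn)
  exact Nat.pos_of_dvd_of_pos h hpos

/-! ### periodicity of `j ↦ l ^ j` -/

/-- `(l : ZMod n) ^ j` only depends on `j` modulo the order -/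
theorem pow_eq_of_modEq_orderOf {n : ℕ} (x : ZMod n) {j j' : ℕ} (h : j ≡ j' [MOD orderOf x]) :
    x ^ j = x ^ j' := by
  rw [← pow_mod_orderOf x j, ← pow_mod_orderOf x j']
  exact congrArg (x ^ ·) h

/-- integer form: `l ^ j ≡ l ^ j' mod n` if `j ≡ j' mod orderOf (l : ZMod n)` -/
theorem pow_modEq_of_modEq_orderOf {n l : ℕ} {j j' : ℕ}
    (h : j ≡ j' [MOD orderOf ((l : ℕ) : ZMod n)]) : (l : ℤ) ^ j ≡ (l : ℤ) ^ j' [ZMOD (n : ℤ)] := by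
  have h1 := pow_eq_of_modEq_orderOf ((l : ℕ) : ZMod n) h
  have h2 : ((l ^ j : ℕ) : ZMod n) = ((l ^ j' : ℕ) : ZMod n) := by push_cast; exact h1
  have h3 := (ZMod.natCast_eq_natCast_iff _ _ _).1 h2
  have := Int.natCast_modEq_iff.2 h3
  simpa using this

/-- `l ^ j ≡ 1 mod n` if the order divides `j` -/
theorem pow_modEq_one_of_orderOf_dvd {n l j : ℕ} (h : orderOf ((l : ℕ) : ZMod n) ∣ j) :
    (l : ℤ) ^ j ≡ 1 [ZMOD (n : ℤ)] := by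
  have h0 : j ≡ 0 [MOD orderOf ((l : ℕ) : ZMod n)] := (Nat.modEq_zero_iff_dvd).2 h
  simpa using pow_modEq_of_modEq_orderOf (n := n) (l := l) h0

/-! ### (S-a) the gcd condition -/

/-- if `l2 ≡ -1 mod 4 P` (i.e. `4 P ∣ l2 + 1`) then `gcd (l2 - 1) P ∣ 2` -/
theorem gcd_pred_dvd_two {l2 P : ℕ} (h1 : 1 ≤ l2) (h : 4 * P ∣ l2 + 1) :
    Nat.gcd (l2 - 1) P ∣ 2 := by
  have hP : P ∣ l2 + 1 := Dvd.dvd.trans (Dvd.intro_left 4 rfl) h
  have hg1 : Nat.gcd (l2 - 1) P ∣ l2 - 1 := Nat.gcd_dvd_left _ _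
  have hg2 : Nat.gcd (l2 - 1) P ∣ l2 + 1 := (Nat.gcd_dvd_right _ _).trans hP
  have : l2 + 1 - (l2 - 1) = 2 := by omega
  rw [← this]
  exact Nat.dvd_sub hg2 hg1

/-- and `l2 % 4 = 3` -/
theorem mod_four_of_dvd {l2 P : ℕ} (h : 4 * P ∣ l2 + 1) : l2 % 4 = 3 := by
  have h4 : 4 ∣ l2 + 1 := Dvd.dvd.trans (Dvd.intro _ rfl) h
  omega

end Fermat.Agent.GM.CSP.SqPrimeNT2
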