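import Fermat.Agent.GM.CSP.Stmts
import Fermat.Agent.GM.CSP.DirichletCRT
import Fermat.Agent.GM.CSP.SqPrimeNT2

/-!
# GATE-M / S41-(C2) CSP, F2 in the frozen `Stmts` shape (helper21, twin): Lemma 2 of helper25's
proof (board 3748, with simplification (S-a) of 3776)

`sqPrime_of_conductor : KillsElem Φ → 0 < N → ConductorStmt Φ → SqPrimeStmt Φ`.

For `l` an odd prime, `l ∤ N m`, `l` prime to `P = φ(N |m|)`, `l² ≡ 1 mod N`, and `s` the conductor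
exponent of `l`: choose a prime `l2 ≡ m mod l^s`, `l2 ≡ -1 mod 4 P`, `l2 > N, l`.  Then
`o1 = ord_{N|m|}(l) ∣ P`, `o2 = ord_{N l2}(l) ∣ l2 - 1`, `gcd(o1,o2) ∣ gcd(P, l2 - 1) ∣ 2`, so there
is `j ≥ s` with `j ≡ 2 mod o1`, `o2 ∣ j`, and
`s(N m, l²) = s(N m, l^j) = s(N l2, l^j) = s(N l2, 1) = 1`.
-/

set_option autoImplicit false

namespace Fermat.Agent.GM.CSP.SqPrimeZ

open Fermat.Agent.GM.Amalgam Fermat.Agent.GM.CSP.Symbol Fermat.Agent.GM.CSP.Stmts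
open Fermat.Agent.GM.CSP.DirichletCRT Fermat.Agent.GM.CSP.SqPrimeNT2

variable {N q : ℕ} [hq : Fact q.Prime] {A : Type*} [CommGroup A] {Φ : ↥(DeltaQ N q) →* A}

/-- a prime not dividing an integer is coprime to it, with powers -/
theorem isCoprime_pow_of_not_dvd {l : ℕ} (hl : l.Prime) {z : ℤ} (h : ¬ (l : ℤ) ∣ z) (j : ℕ) :
    IsCoprime z ((l : ℤ) ^ j) := by
  have hp : Prime (l : ℤ) := Nat.prime_iff_prime_int.mp hl
  exact (((Irreducible.coprime_iff_not_dvd hp.irreducible).2 h).pow_left).symm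

/-- divisibility by `N * m` and by `N * |m|` agree -/
theorem modEq_mul_of_modEq_natAbs {N : ℕ} {m a b : ℤ}
    (h : a ≡ b [ZMOD ((N * m.natAbs : ℕ) : ℤ)]) : a ≡ b [ZMOD (N : ℤ) * m] := by
  rw [Int.modEq_iff_dvd] at h ⊢
  have e : ((N * m.natAbs : ℕ) : ℤ) = (N : ℤ) * |m| := by
    push_cast; rfl
  rw [e] at h
  rcases abs_choice m with hm | hm
  · rwa [hm] at h
  · rw [hm] at h
    have : (N : ℤ) * m ∣ (N : ℤ) * -m := ⟨-1, by ring⟩
    exact this.trans h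

/-- **Lemma 2 (SQ)** in the frozen shape. -/
theorem sqPrime_of_conductor (hΦ : KillsElem Φ) (hN : 0 < N) (hcond : ConductorStmt Φ) :
    SqPrimeStmt Φ := by
  intro m l hm hl hl2 hlq hlNm hlP hsq
  have hp : Prime (l : ℤ) := Nat.prime_iff_prime_int.mp hl
  -- `l ∤ N`, `l ∤ m`
  have hlN : ¬ l ∣ N := by
    intro h
    exact hlNm (Dvd.dvd.mul_right (Int.natCast_dvd_natCast.2 h) m)
  have hlm : ¬ (l : ℤ) ∣ m := fun h => hlNm (Dvd.dvd.mul_left h _)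
  obtain ⟨s, hs1, hs⟩ := hcond l hl hl2 hlq hlN
  -- the modulus `n = N |m|`
  set n : ℕ := N * m.natAbs with hn
  have hmabs : m.natAbs ≠ 0 := Int.natAbs_ne_zero.2 hm
  have hn0 : n ≠ 0 := Nat.mul_ne_zero hN.ne' hmabs
  set P : ℕ := Nat.totient n with hP
  have hP0 : 0 < P := Nat.totient_pos.2 (Nat.pos_of_ne_zero hn0)
  -- `l` is prime to `n`
  have hln : Nat.Coprime l n := by
    rw [Nat.Prime.coprime_iff_not_dvd hl]
    intro h
    rcases (Nat.Prime.dvd_mul hl).1 h with h | h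
    · exact hlN h
    · exact hlm (Int.natCast_dvd.2 h)
  -- the auxiliary prime
  have hl4P : Nat.Coprime (l ^ s) (4 * P) := by
    apply Nat.Coprime.pow_left
    apply Nat.Coprime.mul_right
    · have : (4 : ℕ) = 2 ^ 2 := by norm_num
      rw [this]
      exact Nat.Coprime.pow_right 2 ((Nat.coprime_primes hl Nat.prime_two).2 hl2)
    · exact hlP
  have hgcd : Nat.gcd (l ^ s) (4 * P) = 1 := hl4P
  obtain ⟨l2, hl2big, hl2p, hl2m, hl2P⟩ := exists_prime_gt_zmodEq_two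
    (m₁ := l ^ s) (m₂ := 4 * P) (a₁ := m) (a₂ := -1)
    (pow_ne_zero _ hl.ne_zero) (Nat.mul_ne_zero (by norm_num) hP0.ne')
    (by rw [hgcd]; simp [Int.modEq_one])
    (by push_cast; exact isCoprime_pow_of_not_dvd hl hlm s)
    (isCoprime_one_left.neg_left) (N + l)
  have hl2N : ¬ l2 ∣ N := fun h => absurd (Nat.le_of_dvd hN h) (by omega)
  have hl2l : ¬ l2 ∣ l := fun h => absurd (Nat.le_of_dvd hl.pos h) (by omega)
  -- `4 P ∣ l2 + 1`
  have h4P : 4 * P ∣ l2 + 1 := by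
    have h1 := Int.modEq_iff_dvd.1 hl2P.symm
    -- `(4P : ℤ) ∣ l2 - (-1)`
    have h2 : ((4 * P : ℕ) : ℤ) ∣ ((l2 + 1 : ℕ) : ℤ) := by
      push_cast
      have : (l2 : ℤ) - -1 = (l2 : ℤ) + 1 := by ring
      rw [this] at h1
      push_cast at h1
      exact h1
    exact Int.natCast_dvd_natCast.1 h2
  have hl2odd : l2 ≠ 2 := by
    have := mod_four_of_dvd h4P
    omega
  have hg2 : Nat.gcd (l2 - 1) P ∣ 2 := gcd_pred_dvd_two hl2p.one_le h4P
  -- the two orders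
  set o1 := orderOf ((l : ℕ) : ZMod n) with ho1
  set o2 := orderOf ((l : ℕ) : ZMod (N * l2)) with ho2
  have ho1P : o1 ∣ P := orderOf_dvd_totient hln
  have ho1pos : 0 < o1 := orderOf_pos_of_coprime hn0 hln
  have ho2d : o2 ∣ l2 - 1 := orderOf_dvd_pred hl2p hl2odd hl2N hl2l hsq
  have ho2pos : 0 < o2 := by
    apply orderOf_pos_of_coprime (Nat.mul_ne_zero hN.ne' hl2p.ne_zero)
    rw [Nat.Prime.coprime_iff_not_dvd hl]
    intro h
    rcases (Nat.Prime.dvd_mul hl).1 h with h | h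
    · exact hlN h
    · have := (Nat.prime_dvd_prime_iff_eq hl hl2p).1 h
      omega
  have hgo : Nat.gcd o1 o2 ∣ 2 :=
    (Nat.dvd_gcd ((Nat.gcd_dvd_right o1 o2).trans ho2d)
      ((Nat.gcd_dvd_left o1 o2).trans ho1P)).trans hg2
  obtain ⟨j, hsj, -, hj1, hj2⟩ := exists_exponent o1 o2 s ho1pos ho2pos hgo
  -- step 1: `s(N m, l²) = s(N m, l^j)`
  have hNdvd : (N : ℤ) ∣ (N : ℤ) * m := Dvd.intro _ rfl
  have hcop2 : IsCoprime ((N : ℤ) * m) ((l : ℤ) ^ 2) := isCoprime_pow_of_not_dvd hl hlNm 2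
  have e1 : symZ Φ ((N : ℤ) * m) ((l : ℤ) ^ j) = symZ Φ ((N : ℤ) * m) ((l : ℤ) ^ 2) :=
    symZ_modEq_right hΦ hNdvd hcop2
      (modEq_mul_of_modEq_natAbs (pow_modEq_of_modEq_orderOf (n := n) (l := l) hj1))
  -- step 2: conductor lemma, `s(N l2, l^j) = s(N m, l^j)`
  have e2 : symZ Φ ((N : ℤ) * (l2 : ℤ)) ((l : ℤ) ^ j) = symZ Φ ((N : ℤ) * m) ((l : ℤ) ^ j) :=
    hs j hsj m (l2 : ℤ) hlm hl2m
  -- step 3: `s(N l2, l^j) = s(N l2, 1) = 1`
  have hNdvd2 : (N : ℤ) ∣ (N : ℤ) * (l2 : ℤ) := Dvd.intro _ rfl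
  have e3 : symZ Φ ((N : ℤ) * (l2 : ℤ)) ((l : ℤ) ^ j) = symZ Φ ((N : ℤ) * (l2 : ℤ)) 1 := by
    apply symZ_modEq_right hΦ hNdvd2 isCoprime_one_right
    have := pow_modEq_one_of_orderOf_dvd (n := N * l2) (l := l) hj2
    push_cast at this
    exact this
  rw [← e1, ← e2, e3]
  exact symZ_one hΦ hNdvd2

end Fermat.Agent.GM.CSP.SqPrimeZ
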