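import Fermat.Agent.GM.CSP.Stmts
import Mathlib.NumberTheory.LSeries.PrimesInAP

/-!
# GATE-M / S41-(C2): Lemma 3 (SQ') of helper25's proof (post 3748) in the frozen `Stmts` shape

`sqRow_of_sqPrime : SqPrimeStmt Φ → SqRowStmt Φ` : if `D ≡ 1 mod N` is a square modulo `N m` then
`s(N m, D) = 1`.  One application of Dirichlet's theorem: a large prime `l ≡ e mod N |m|`.
-/

set_option autoImplicit false

namespace Fermat.Agent.GM.CSP.SqRow

open Fermat.Agent.GM.Amalgam Fermat.Agent.GM.CSP.Symbol Fermat.Agent.GM.CSP.Stmts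

variable {N q : ℕ} [hq : Fact q.Prime] {A : Type*} [CommGroup A] {Φ : ↥(DeltaQ N q) →* A}

/-- **Lemma 3 (SQ')** in the frozen shape -/
theorem sqRow_of_sqPrime (hΦ : KillsElem Φ) (hN : 0 < N) (h2 : SqPrimeStmt Φ) : SqRowStmt Φ := by
  intro m D e hm hcop hD1 hsq
  set n : ℕ := N * m.natAbs with hn
  have hmabs : m.natAbs ≠ 0 := Int.natAbs_ne_zero.2 hm
  have hn0 : n ≠ 0 := Nat.mul_ne_zero hN.ne' hmabs
  -- `(n : ℤ) = ± N m`
  have hnabs : ((N : ℤ) * m).natAbs = n := by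
    rw [Int.natAbs_mul, Int.natAbs_natCast]
  have hdvd_iff : ∀ z : ℤ, (n : ℤ) ∣ z ↔ (N : ℤ) * m ∣ z := by
    intro z
    rw [← hnabs]; exact Int.natAbs_dvd
  -- `e` is coprime to `N m`
  have hecop0 : IsCoprime ((N : ℤ) * m) e := by
    have h1 : IsCoprime ((N : ℤ) * m) (e ^ 2) := by
      obtain ⟨t, ht⟩ := Int.modEq_iff_dvd.mp hsq
      -- e^2 - D = N m t
      have : e ^ 2 = D + t * ((N : ℤ) * m) := by linarith
      rw [this]
      exact (IsCoprime.add_mul_right_right_iff).2 hcop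
    exact (IsCoprime.pow_right_iff (by norm_num : 0 < 2)).mp h1
  have hecop : IsCoprime e ((n : ℕ) : ℤ) := by
    rcases Int.natAbs_eq ((N : ℤ) * m) with h | h
    · rw [← hnabs, ← h]; exact hecop0.symm
    · have : ((((N : ℤ) * m).natAbs : ℕ) : ℤ) = -((N : ℤ) * m) := by omega
      rw [← hnabs, this]; exact hecop0.symm.neg_right
  obtain ⟨l, hlB, hlp, hl⟩ :=
    Nat.forall_exists_prime_gt_and_zmodEq (2 + q + n + Nat.totient n) hn0 hecop
  have hl2 : l ≠ 2 := by omega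
  have hlq : l ≠ q := by omega
  have hmod : (l : ℤ) ≡ e [ZMOD (N : ℤ) * m] := by
    rw [Int.modEq_iff_dvd] at hl ⊢
    exact (hdvd_iff _).mp hl
  have hsqmod : (l : ℤ) ^ 2 ≡ D [ZMOD (N : ℤ) * m] := (hmod.pow 2).trans hsq.symm
  -- l ∤ N m
  have hlNm : ¬ (l : ℤ) ∣ (N : ℤ) * m := by
    intro h
    have h' : l ∣ ((N : ℤ) * m).natAbs := Int.natCast_dvd.mp h
    rw [hnabs] at h'
    exact absurd (Nat.le_of_dvd (Nat.pos_of_ne_zero hn0) h') (by omega)
  -- l coprime to φ(n)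
  have hlφ : Nat.Coprime l (Nat.totient n) := by
    rw [Nat.Prime.coprime_iff_not_dvd hlp]
    intro h
    have hpos : 0 < Nat.totient n := Nat.totient_pos.mpr (Nat.pos_of_ne_zero hn0)
    exact absurd (Nat.le_of_dvd hpos h) (by omega)
  -- l^2 ≡ 1 mod N
  have hl1 : l ^ 2 ≡ 1 [MOD N] := by
    rw [← Int.natCast_modEq_iff]
    push_cast
    exact (hsqmod.of_dvd (Dvd.intro _ rfl)).trans hD1
  have hfin := h2 m l hm hlp hl2 hlq hlNm hlφ hl1
  rw [← hfin]
  exact (symZ_modEq_right hΦ (Dvd.intro _ rfl) hcop hsqmod).symm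

end Fermat.Agent.GM.CSP.SqRow
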