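import Fermat.Agent.GM.CSP.ConductorThm
import Fermat.Agent.GM.CSP.SqPrimeZ
import Fermat.Agent.GM.CSP.SqRow
import Fermat.Agent.GM.CSP.FinalZ
import Fermat.Agent.GM.CSP.IntRow
import Fermat.Agent.GM.Ihara.IharaAsm

/-!
# GATE-M / S41-(C2): the congruence subgroup property `CSPStmt` of `Γ0(N)[1/q]` — ASSEMBLY

helper25's elementary proof (post 3748): Lemma 0 (`LiftExp`, helper25) ⟹ Lemma 1 (`conductorStmt`,
helper57/helper25) ⟹ Lemma 2 (`sqPrime_of_conductor`, helper21) ⟹ Lemma 3 (`sqRow_of_sqPrime`)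
⟹ Theorem on integer rows (`symZ_eq_one_of_sqRow`) ⟹ all rows (`map_eq_one_of_int_sym`, helper33)
⟹ `CSPStmt N q A` for every commutative group `A` without `2`-torsion, in particular
`A = Multiplicative (ZMod p)`, `p` an odd prime.
-/

set_option autoImplicit false

namespace Fermat.Agent.GM.CSP.Main

open Fermat.Agent.GM.Amalgam Fermat.Agent.GM.CSP.Symbol Fermat.Agent.GM.CSP.Stmts
open Fermat.Agent.GM.Ihara

variable {N q : ℕ} [hq : Fact q.Prime]

/-- the symbol of a homomorphism killing the elementary matrices vanishes on every row with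
`d ≡ 1 mod N` (target without `2`-torsion) -/
theorem map_eq_one_of_killsElem {A : Type*} [CommGroup A] (h2 : ∀ a : A, a ^ 2 = 1 → a = 1)
    (hN : 0 < N) (hqN : ¬ q ∣ N) {Φ : ↥(DeltaQ N q) →* A} (hΦ : KillsElem Φ)
    (x : ↥(DeltaQ N q)) (hx : (x : SLQ) 1 1 - 1 ∈ NZq q N) : Φ x = 1 := by
  have hcond : ConductorStmt Φ := Conductor.conductorStmt hΦ
  have hsqp : SqPrimeStmt Φ := SqPrimeZ.sqPrime_of_conductor hΦ hN hcond
  have hsqr : SqRowStmt Φ := SqRow.sqRow_of_sqPrime hΦ hN hsqp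
  refine IntRow.map_eq_one_of_int_sym hΦ hqN (fun l d _ hcop hd => ?_) x hx
  have hd' : d ≡ 1 [ZMOD (N : ℤ)] := (Int.modEq_iff_dvd.mpr (by
    have : (N : ℤ) ∣ -(d - 1) := (dvd_neg).mpr hd
    simpa using this))
  exact FinalZ.symZ_eq_one_of_sqRow hΦ hN hsqr h2 (Dvd.intro _ rfl) hcop hd'

/-- **CSP** for targets without `2`-torsion -/
theorem cspStmt_of_no_two_torsion {A : Type*} [CommGroup A] (h2 : ∀ a : A, a ^ 2 = 1 → a = 1)
    (hN : 0 < N) (hqN : ¬ q ∣ N) : CSPStmt N q A := by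
  intro Φ hU hL h hh
  exact map_eq_one_of_killsElem h2 hN hqN ⟨hU, hL⟩ h hh

/-- **(C2)** : `CSPStmt N q (Multiplicative (ZMod p))`, `p` an odd prime -/
theorem cspStmt {p : ℕ} (hp : p.Prime) (hp2 : p ≠ 2) (hN : 0 < N) (hqN : ¬ q ∣ N) :
    CSPStmt N q (Multiplicative (ZMod p)) := by
  haveI : Fact p.Prime := ⟨hp⟩
  refine cspStmt_of_no_two_torsion (fun a ha => ?_) hN hqN
  have h1 : (2 : ℕ) • Multiplicative.toAdd a = 0 := by
    have := congrArg Multiplicative.toAdd ha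
    simpa using this
  have h2' : (2 : ZMod p) * Multiplicative.toAdd a = 0 := by
    rw [← h1]; simp [two_mul, two_nsmul]
  have h2ne : (2 : ZMod p) ≠ 0 := by
    intro h
    have : ((2 : ℕ) : ZMod p) = 0 := by exact_mod_cast h
    rw [ZMod.natCast_eq_zero_iff] at this
    have := (Nat.prime_dvd_prime_iff_eq hp Nat.prime_two).mp this
    exact hp2 this
  have h3 : Multiplicative.toAdd a = 0 := by
    rcases mul_eq_zero.mp h2' with h | h
    · exact absurd h h2ne
    · exact h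
  have : a = Multiplicative.ofAdd (Multiplicative.toAdd a) := rfl
  rw [this, h3]; rfl

end Fermat.Agent.GM.CSP.Main
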