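import Fermat.Agent.GM.Amalgam.Elementary

/-!
# GATE-M / S41-(C2) CSP, part SYMBOL (helper33): the bottom-row symbol of a homomorphism
`Φ : Γ0(N)[1/q] → A` (`A` commutative) killing the elementary matrices of level `N`

Model = helper65's `GM/Amalgam`: `SLQ = SL₂(ℚ)`, `DeltaQ N q = Γ0(N)[1/q]`, `Zq q = ℤ[1/q]`,
`NZq q N = N ℤ[1/q]`, `upperQ t = (1 t; 0 1)`, `lowerQ t = (1 0; t 1)`.

* `KillsElem Φ` : `Φ` kills `upperQ t` (`t ∈ ℤ[1/q]`) and `lowerQ t` (`t ∈ N ℤ[1/q]`);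
* `map_eq_of_row` : `Φ x` depends only on the bottom row of `x`;
* `IsRow N q c d`, `sym Φ c d`, `sym_eq`, `sym_eq'` : the symbol `s(c,d)`;
* `(R1)` `sym_add_mul_right`, `(R2)` `sym_add_mul_left`, units: `IsUnitZq`, `dgQ`, `chi`,
  `sym_unit_left`, `sym_unit_right`, `sym_sq` (`s(u²c,d) = s(c,d)`), `chi_mul`;
* `(V1)` `sym_of_unit_mod`, `(I4)` `chi_eq_one`, `(V2)` `sym_eq_one_of_unit_mod`;
* `sym_inv`, `(DIA)` `sym_div`, `sym_dia`, `(SPA)` `sym_mul`, `sym_spa`;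
* Cayley–Hamilton power trick: `cheb`, `pow_row`, `sym_pow`;
* reductions: `map_eq_one_of_sym`, `map_eq_of_sym` (CSP from vanishing of the symbol on
  `d ≡ 1 mod N`).
-/

set_option autoImplicit false

namespace Fermat.Agent.GM.CSP.Symbol

open Matrix Matrix.SpecialLinearGroup
open scoped MatrixGroups
open Fermat.Agent.GM.Amalgam

variable {N q : ℕ} [hq : Fact q.Prime]

/-! ### matrix helpers -/

theorem detQ (x : SLQ) : x 0 0 * x 1 1 - x 0 1 * x 1 0 = 1 := by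
  have := x.det_coe
  rwa [Matrix.det_fin_two] at this

theorem ext4 {x y : SLQ} (h00 : x 0 0 = y 0 0) (h01 : x 0 1 = y 0 1) (h10 : x 1 0 = y 1 0)
    (h11 : x 1 1 = y 1 1) : x = y := by
  apply Matrix.SpecialLinearGroup.ext
  intro i j
  fin_cases i <;> fin_cases j
  · exact h00
  · exact h01
  · exact h10
  · exact h11

theorem mkQ_mem {a b c d : ℚ} (h : a * d - b * c = 1) (ha : a ∈ Zq q) (hb : b ∈ Zq q)
    (hc : c ∈ NZq q N) (hd : d ∈ Zq q) : mkQ a b c d h ∈ DeltaQ N q := by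
  refine ⟨fun i j => ?_, hc⟩
  fin_cases i <;> fin_cases j
  · exact ha
  · exact hb
  · exact NZq_le_Zq hc
  · exact hd

theorem entry_mem (x : ↥(DeltaQ N q)) (i j : Fin 2) : (x : SLQ) i j ∈ Zq q := x.2.1 i j

theorem entry10_mem (x : ↥(DeltaQ N q)) : (x : SLQ) 1 0 ∈ NZq q N := x.2.2

/-- bottom row of a product -/
theorem mul_row (x y : SLQ) :
    (x * y) 1 0 = x 1 0 * y 0 0 + x 1 1 * y 1 0 ∧ (x * y) 1 1 = x 1 0 * y 0 1 + x 1 1 * y 1 1 :=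
  ⟨(mul_entries x y).2.2.1, (mul_entries x y).2.2.2⟩

/-- bottom row of `x * y⁻¹` -/
theorem mul_inv_row (x y : SLQ) :
    (x * y⁻¹) 1 0 = x 1 1 * y 1 0 * (-1) + x 1 0 * y 1 1 ∧
      (x * y⁻¹) 1 1 = x 1 1 * y 0 0 - x 1 0 * y 0 1 := by
  obtain ⟨e10, e11⟩ := mul_row x y⁻¹
  obtain ⟨i00, i01, i10, i11⟩ := inv_entries y
  refine ⟨?_, ?_⟩
  · rw [e10, i00, i10]; ring
  · rw [e11, i01, i11]; ring

/-! ### the hypothesis and the bottom-row lemma -/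

section Hom

variable {A : Type*} [CommGroup A] (Φ : ↥(DeltaQ N q) →* A)

/-- `Φ` kills the elementary matrices of level `N` -/
structure KillsElem : Prop where
  upper : ∀ (t : ℚ) (ht : t ∈ Zq q), Φ ⟨upperQ t, upperQ_mem_DeltaQ ht⟩ = 1
  lower : ∀ (t : ℚ) (ht : t ∈ NZq q N), Φ ⟨lowerQ t, lowerQ_mem_DeltaQ ht⟩ = 1

variable {Φ}

/-- **`Φ x` depends only on the bottom row of `x`** -/
theorem map_eq_of_row (hΦ : KillsElem Φ) (x y : ↥(DeltaQ N q))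
    (h10 : (x : SLQ) 1 0 = (y : SLQ) 1 0) (h11 : (x : SLQ) 1 1 = (y : SLQ) 1 1) :
    Φ x = Φ y := by
  obtain ⟨t, ht⟩ : ∃ t : ℚ, t = (y : SLQ) 0 1 * (x : SLQ) 0 0 - (y : SLQ) 0 0 * (x : SLQ) 0 1 :=
    ⟨_, rfl⟩
  have htZ : t ∈ Zq q := by
    rw [ht]
    exact (Zq q).sub_mem ((Zq q).mul_mem (entry_mem y 0 1) (entry_mem x 0 0))
      ((Zq q).mul_mem (entry_mem y 0 0) (entry_mem x 0 1))
  have e : y = ⟨upperQ t, upperQ_mem_DeltaQ htZ⟩ * x := by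
    apply Subtype.ext
    obtain ⟨e00, e01, e10, e11⟩ := mul_entries (upperQ t) (x : SLQ)
    have dx := detQ (x : SLQ)
    have dy := detQ (y : SLQ)
    apply ext4
    · show (y : SLQ) 0 0 = (upperQ t * (x : SLQ)) 0 0
      rw [e00]
      simp only [upperQ, mkQ_00, mkQ_01]
      rw [ht, h10]
      rw [h10, h11] at dx
      linear_combination ((x : SLQ) 0 0) * dy - ((y : SLQ) 0 0) * dx
    · show (y : SLQ) 0 1 = (upperQ t * (x : SLQ)) 0 1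
      rw [e01]
      simp only [upperQ, mkQ_00, mkQ_01]
      rw [ht, h11]
      rw [h10, h11] at dx
      linear_combination ((x : SLQ) 0 1) * dy - ((y : SLQ) 0 1) * dx
    · show (y : SLQ) 1 0 = (upperQ t * (x : SLQ)) 1 0
      rw [e10]
      simp only [upperQ, mkQ_10, mkQ_11]
      rw [h10]; ring
    · show (y : SLQ) 1 1 = (upperQ t * (x : SLQ)) 1 1
      rw [e11]
      simp only [upperQ, mkQ_10, mkQ_11]
      rw [h11]; ring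
  rw [e, map_mul, hΦ.upper t htZ, one_mul]

end Hom

/-! ### the symbol -/

/-- `(c, d)` is the bottom row of an element of `Γ0(N)[1/q]` -/
def IsRow (N q : ℕ) [Fact q.Prime] (c d : ℚ) : Prop :=
  ∃ x : ↥(DeltaQ N q), (x : SLQ) 1 0 = c ∧ (x : SLQ) 1 1 = d

theorem isRow_of (x : ↥(DeltaQ N q)) : IsRow N q ((x : SLQ) 1 0) ((x : SLQ) 1 1) := ⟨x, rfl, rfl⟩

theorem isRow_iff {c d : ℚ} :
    IsRow N q c d ↔ c ∈ NZq q N ∧ d ∈ Zq q ∧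
      ∃ a ∈ Zq q, ∃ b ∈ Zq q, a * d - b * c = 1 := by
  constructor
  · rintro ⟨x, rfl, rfl⟩
    exact ⟨entry10_mem x, entry_mem x 1 1, _, entry_mem x 0 0, _, entry_mem x 0 1, detQ _⟩
  · rintro ⟨hc, hd, a, ha, b, hb, h⟩
    exact ⟨⟨mkQ a b c d h, mkQ_mem h ha hb hc hd⟩, rfl, rfl⟩

section Sym

variable {A : Type*} [CommGroup A]

open Classical in
/-- the symbol `s(c,d) = Φ(any element with bottom row (c,d))` (`1` if there is none) -/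
noncomputable def sym (Φ : ↥(DeltaQ N q) →* A) (c d : ℚ) : A :=
  if h : IsRow N q c d then Φ h.choose else 1

variable {Φ : ↥(DeltaQ N q) →* A}

theorem sym_eq' (hΦ : KillsElem Φ) (x : ↥(DeltaQ N q)) {c d : ℚ} (hc : (x : SLQ) 1 0 = c)
    (hd : (x : SLQ) 1 1 = d) : sym Φ c d = Φ x := by
  have h : IsRow N q c d := ⟨x, hc, hd⟩
  unfold sym
  rw [dif_pos h]
  exact map_eq_of_row hΦ _ _ (h.choose_spec.1.trans hc.symm) (h.choose_spec.2.trans hd.symm)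

theorem sym_eq (hΦ : KillsElem Φ) (x : ↥(DeltaQ N q)) :
    sym Φ ((x : SLQ) 1 0) ((x : SLQ) 1 1) = Φ x := sym_eq' hΦ x rfl rfl

theorem sym_zero_one (hΦ : KillsElem Φ) : sym Φ 0 1 = 1 := by
  have := sym_eq' hΦ (1 : ↥(DeltaQ N q)) (c := 0) (d := 1) rfl rfl
  rw [this, map_one]

/-! ### (R1), (R2) -/

/-- (R1) `s(c, d + t c) = s(c, d)`, `t ∈ ℤ[1/q]` -/
theorem sym_add_mul_right (hΦ : KillsElem Φ) {c d t : ℚ} (hr : IsRow N q c d) (ht : t ∈ Zq q) :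
    IsRow N q c (d + t * c) ∧ sym Φ c (d + t * c) = sym Φ c d := by
  obtain ⟨x, rfl, rfl⟩ := hr
  obtain ⟨e10, e11⟩ := mul_row (x : SLQ) (upperQ t)
  have h10 : ((x * ⟨upperQ t, upperQ_mem_DeltaQ ht⟩ : ↥(DeltaQ N q)) : SLQ) 1 0 =
      (x : SLQ) 1 0 := by
    show ((x : SLQ) * upperQ t) 1 0 = _
    rw [e10]; simp only [upperQ, mkQ_00, mkQ_10]; ring
  have h11 : ((x * ⟨upperQ t, upperQ_mem_DeltaQ ht⟩ : ↥(DeltaQ N q)) : SLQ) 1 1 =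
      (x : SLQ) 1 1 + t * (x : SLQ) 1 0 := by
    show ((x : SLQ) * upperQ t) 1 1 = _
    rw [e11]; simp only [upperQ, mkQ_01, mkQ_11]; ring
  refine ⟨⟨_, h10, h11⟩, ?_⟩
  rw [sym_eq' hΦ _ h10 h11, sym_eq hΦ x, map_mul, hΦ.upper t ht, mul_one]

/-- (R2) `s(c + t d, d) = s(c, d)`, `t ∈ N ℤ[1/q]` -/
theorem sym_add_mul_left (hΦ : KillsElem Φ) {c d t : ℚ} (hr : IsRow N q c d)
    (ht : t ∈ NZq q N) :
    IsRow N q (c + t * d) d ∧ sym Φ (c + t * d) d = sym Φ c d := by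
  obtain ⟨x, rfl, rfl⟩ := hr
  obtain ⟨e10, e11⟩ := mul_row (x : SLQ) (lowerQ t)
  have h10 : ((x * ⟨lowerQ t, lowerQ_mem_DeltaQ ht⟩ : ↥(DeltaQ N q)) : SLQ) 1 0 =
      (x : SLQ) 1 0 + t * (x : SLQ) 1 1 := by
    show ((x : SLQ) * lowerQ t) 1 0 = _
    rw [e10]; simp only [lowerQ, mkQ_00, mkQ_10]; ring
  have h11 : ((x * ⟨lowerQ t, lowerQ_mem_DeltaQ ht⟩ : ↥(DeltaQ N q)) : SLQ) 1 1 =
      (x : SLQ) 1 1 := by
    show ((x : SLQ) * lowerQ t) 1 1 = _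
    rw [e11]; simp only [lowerQ, mkQ_01, mkQ_11]; ring
  refine ⟨⟨_, h10, h11⟩, ?_⟩
  rw [sym_eq' hΦ _ h10 h11, sym_eq hΦ x, map_mul, hΦ.lower t ht, mul_one]

/-! ### units -/

/-- `u` is a unit of `ℤ[1/q]` -/
def IsUnitZq (q : ℕ) [Fact q.Prime] (u : ℚ) : Prop := u ∈ Zq q ∧ u⁻¹ ∈ Zq q ∧ u ≠ 0

theorem isUnitZq_one : IsUnitZq q 1 := ⟨(Zq q).one_mem, by simp, one_ne_zero⟩

theorem isUnitZq_neg_one : IsUnitZq q (-1) :=
  ⟨(Zq q).neg_mem (Zq q).one_mem, by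
    have : ((-1 : ℚ))⁻¹ = -1 := by norm_num
    rw [this]; exact (Zq q).neg_mem (Zq q).one_mem, by norm_num⟩

theorem isUnitZq_q : IsUnitZq q (q : ℚ) :=
  ⟨by simp, ⟨1, 1, by simp⟩, q_ne_zero q⟩

theorem IsUnitZq.inv {u : ℚ} (hu : IsUnitZq q u) : IsUnitZq q u⁻¹ :=
  ⟨hu.2.1, by rw [inv_inv]; exact hu.1, inv_ne_zero hu.2.2⟩

theorem IsUnitZq.mul {u v : ℚ} (hu : IsUnitZq q u) (hv : IsUnitZq q v) : IsUnitZq q (u * v) :=
  ⟨(Zq q).mul_mem hu.1 hv.1, by rw [mul_inv]; exact (Zq q).mul_mem hu.2.1 hv.2.1,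
    mul_ne_zero hu.2.2 hv.2.2⟩

theorem IsUnitZq.pow {u : ℚ} (hu : IsUnitZq q u) (k : ℕ) : IsUnitZq q (u ^ k) := by
  induction k with
  | zero => simpa using isUnitZq_one
  | succ k ih => rw [pow_succ]; exact ih.mul hu

theorem IsUnitZq.neg {u : ℚ} (hu : IsUnitZq q u) : IsUnitZq q (-u) := by
  have := isUnitZq_neg_one.mul hu
  simpa using this

/-- `diag(u⁻¹, u)` -/
def dgQ (u : ℚ) (hu : u ≠ 0) : SLQ := mkQ u⁻¹ 0 0 u (by rw [inv_mul_cancel₀ hu]; ring)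

theorem dgQ_mem {u : ℚ} (hu : IsUnitZq q u) : dgQ u hu.2.2 ∈ DeltaQ N q :=
  mkQ_mem _ hu.2.1 (Zq q).zero_mem (NZq q N).zero_mem hu.1

/-- the restriction of the symbol to the diagonal: `χ(u) = s(0,u) = Φ(diag(u⁻¹,u))` -/
noncomputable def chi (Φ : ↥(DeltaQ N q) →* A) (u : ℚ) : A := sym Φ 0 u

theorem chi_eq (hΦ : KillsElem Φ) {u : ℚ} (hu : IsUnitZq q u) :
    chi Φ u = Φ ⟨dgQ u hu.2.2, dgQ_mem hu⟩ :=
  sym_eq' hΦ ⟨dgQ u hu.2.2, dgQ_mem hu⟩ rfl rfl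

theorem isRow_zero_unit {u : ℚ} (hu : IsUnitZq q u) : IsRow N q 0 u :=
  ⟨⟨dgQ u hu.2.2, dgQ_mem hu⟩, rfl, rfl⟩

/-- `s(u c, u d) = χ(u) s(c, d)` (left multiplication by `diag(u⁻¹,u)`) -/
theorem sym_unit_left (hΦ : KillsElem Φ) {c d u : ℚ} (hr : IsRow N q c d) (hu : IsUnitZq q u) :
    IsRow N q (u * c) (u * d) ∧ sym Φ (u * c) (u * d) = chi Φ u * sym Φ c d := by
  obtain ⟨x, rfl, rfl⟩ := hr
  obtain ⟨e10, e11⟩ := mul_row (dgQ u hu.2.2) (x : SLQ)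
  have h10 : ((⟨dgQ u hu.2.2, dgQ_mem hu⟩ * x : ↥(DeltaQ N q)) : SLQ) 1 0 =
      u * (x : SLQ) 1 0 := by
    show (dgQ u hu.2.2 * (x : SLQ)) 1 0 = _
    rw [e10]; simp only [dgQ, mkQ_10, mkQ_11]; ring
  have h11 : ((⟨dgQ u hu.2.2, dgQ_mem hu⟩ * x : ↥(DeltaQ N q)) : SLQ) 1 1 =
      u * (x : SLQ) 1 1 := by
    show (dgQ u hu.2.2 * (x : SLQ)) 1 1 = _
    rw [e11]; simp only [dgQ, mkQ_10, mkQ_11]; ring
  refine ⟨⟨_, h10, h11⟩, ?_⟩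
  rw [sym_eq' hΦ _ h10 h11, sym_eq hΦ x, map_mul, chi_eq hΦ hu]

/-- `s(c u⁻¹, d u) = s(c, d) χ(u)` (right multiplication by `diag(u⁻¹,u)`) -/
theorem sym_unit_right (hΦ : KillsElem Φ) {c d u : ℚ} (hr : IsRow N q c d)
    (hu : IsUnitZq q u) :
    IsRow N q (c * u⁻¹) (d * u) ∧ sym Φ (c * u⁻¹) (d * u) = sym Φ c d * chi Φ u := by
  obtain ⟨x, rfl, rfl⟩ := hr
  obtain ⟨e10, e11⟩ := mul_row (x : SLQ) (dgQ u hu.2.2)
  have h10 : ((x * ⟨dgQ u hu.2.2, dgQ_mem hu⟩ : ↥(DeltaQ N q)) : SLQ) 1 0 =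
      (x : SLQ) 1 0 * u⁻¹ := by
    show ((x : SLQ) * dgQ u hu.2.2) 1 0 = _
    rw [e10]; simp only [dgQ, mkQ_00, mkQ_10]; ring
  have h11 : ((x * ⟨dgQ u hu.2.2, dgQ_mem hu⟩ : ↥(DeltaQ N q)) : SLQ) 1 1 =
      (x : SLQ) 1 1 * u := by
    show ((x : SLQ) * dgQ u hu.2.2) 1 1 = _
    rw [e11]; simp only [dgQ, mkQ_01, mkQ_11]; ring
  refine ⟨⟨_, h10, h11⟩, ?_⟩
  rw [sym_eq' hΦ _ h10 h11, sym_eq hΦ x, map_mul, chi_eq hΦ hu]

theorem chi_one (hΦ : KillsElem Φ) : chi Φ 1 = 1 := sym_zero_one hΦ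

/-- `χ` is multiplicative on the units of `ℤ[1/q]` -/
theorem chi_mul (hΦ : KillsElem Φ) {u v : ℚ} (hu : IsUnitZq q u) (hv : IsUnitZq q v) :
    chi Φ (u * v) = chi Φ u * chi Φ v := by
  have h := (sym_unit_left (Φ := Φ) hΦ (isRow_zero_unit (N := N) hv) hu).2
  rw [mul_zero] at h
  exact h

/-- (R3) `s(u² c, d) = s(c, d)` (conjugation by `diag(u⁻¹,u)`, commutative target) -/
theorem sym_sq (hΦ : KillsElem Φ) {c d u : ℚ} (hr : IsRow N q c d) (hu : IsUnitZq q u) :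
    IsRow N q (u ^ 2 * c) d ∧ sym Φ (u ^ 2 * c) d = sym Φ c d := by
  obtain ⟨h1, e1⟩ := sym_unit_left (Φ := Φ) hΦ hr hu
  obtain ⟨h2, e2⟩ := sym_unit_right (Φ := Φ) hΦ h1 hu.inv
  have hu0 := hu.2.2
  have a1 : u * c * u⁻¹⁻¹ = u ^ 2 * c := by rw [inv_inv]; ring
  have a2 : u * d * u⁻¹ = d := by field_simp
  rw [a1, a2] at h2 e2
  refine ⟨h2, ?_⟩
  rw [e2, e1]
  have : chi Φ u * chi Φ u⁻¹ = 1 := by
    rw [← chi_mul hΦ hu hu.inv, mul_inv_cancel₀ hu0, chi_one hΦ]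
  calc chi Φ u * sym Φ c d * chi Φ u⁻¹ = sym Φ c d * (chi Φ u * chi Φ u⁻¹) := by
        rw [mul_comm (chi Φ u) (sym Φ c d), mul_assoc]
    _ = sym Φ c d := by rw [this, mul_one]

/-! ### (V1), (I4), (V2) -/

/-- the row `(c, u)`, `u` a unit -/
theorem sym_unit_col (hΦ : KillsElem Φ) {c u : ℚ} (hc : c ∈ NZq q N) (hu : IsUnitZq q u) :
    IsRow N q c u ∧ sym Φ c u = chi Φ u := by
  have h0 := isRow_zero_unit (N := N) hu
  have ht : c * u⁻¹ ∈ NZq q N := mul_mem_NZq_right hc hu.2.1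
  obtain ⟨h1, e1⟩ := sym_add_mul_left (Φ := Φ) hΦ h0 ht
  have a1 : 0 + c * u⁻¹ * u = c := by
    rw [zero_add, mul_assoc, inv_mul_cancel₀ hu.2.2, mul_one]
  rw [a1] at h1 e1
  exact ⟨h1, e1⟩

/-- (V1) `s(c,d) = χ(u)` if `d ≡ u mod c` with `u` a unit -/
theorem sym_of_unit_mod (hΦ : KillsElem Φ) {c d u t : ℚ} (hr : IsRow N q c d)
    (hu : IsUnitZq q u) (ht : t ∈ Zq q) (hd : d = u + t * c) : sym Φ c d = chi Φ u := by
  have hc : c ∈ NZq q N := (isRow_iff.1 hr).1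
  obtain ⟨h1, e1⟩ := sym_unit_col (Φ := Φ) hΦ hc hu
  obtain ⟨-, e2⟩ := sym_add_mul_right (Φ := Φ) hΦ h1 ht
  rw [← hd] at e2
  rw [e2, e1]

/-- (I4) `χ(u) = 1` for units `u ≡ 1 mod N` -/
theorem chi_eq_one (hΦ : KillsElem Φ) {u : ℚ} (hu : IsUnitZq q u) (h1 : u - 1 ∈ NZq q N) :
    chi Φ u = 1 := by
  have hu0 := hu.2.2
  -- (0,u) → ((u-1)u, u) → ((u-1)u, 1) → (0,1)
  obtain ⟨r1, e1⟩ := sym_add_mul_left (Φ := Φ) hΦ (isRow_zero_unit (N := N) hu) h1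
  have ht : -u⁻¹ ∈ Zq q := (Zq q).neg_mem hu.2.1
  obtain ⟨r2, e2⟩ := sym_add_mul_right (Φ := Φ) hΦ r1 ht
  have a2 : u + -u⁻¹ * (0 + (u - 1) * u) = 1 := by field_simp; ring
  rw [a2] at r2 e2
  have ht3 : -(0 + (u - 1) * u) ∈ NZq q N :=
    (NZq q N).neg_mem (by rw [zero_add]; exact mul_mem_NZq_right h1 hu.1)
  obtain ⟨-, e3⟩ := sym_add_mul_left (Φ := Φ) hΦ r2 ht3
  have a3 : 0 + (u - 1) * u + -(0 + (u - 1) * u) * 1 = 0 := by ring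
  rw [a3] at e3
  unfold chi
  rw [← e1, ← e2, ← e3, sym_zero_one hΦ]

/-- the row `(N u, d)`, `d ≡ 1 mod N`, `u` a unit -/
theorem sym_unit_row (hΦ : KillsElem Φ) {d u : ℚ} (hr : IsRow N q ((N : ℚ) * u) d)
    (hu : IsUnitZq q u) (hd : d - 1 ∈ NZq q N) : sym Φ ((N : ℚ) * u) d = 1 := by
  have hu0 := hu.2.2
  obtain ⟨s, hs, hds⟩ := hd
  -- d + t (N u) = 1 with t = - s / u
  have ht : -(s * u⁻¹) ∈ Zq q := (Zq q).neg_mem ((Zq q).mul_mem hs hu.2.1)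
  obtain ⟨r1, e1⟩ := sym_add_mul_right (Φ := Φ) hΦ hr ht
  have a1 : d + -(s * u⁻¹) * ((N : ℚ) * u) = 1 := by
    have : d = 1 + N * s := by linear_combination hds
    rw [this]; field_simp; ring
  rw [a1] at r1 e1
  have hNu : (N : ℚ) * u ∈ NZq q N := ⟨u, hu.1, rfl⟩
  obtain ⟨-, e2⟩ := sym_add_mul_left (Φ := Φ) hΦ r1 ((NZq q N).neg_mem hNu)
  have a2 : (N : ℚ) * u + -((N : ℚ) * u) * 1 = 0 := by ring
  rw [a2] at e2
  rw [← e1, ← e2, sym_zero_one hΦ]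

/-- (V2) `s(c,d) = 1` if `d ≡ 1 mod N` and `c ≡ N u mod N d` with `u` a unit -/
theorem sym_eq_one_of_unit_mod (hΦ : KillsElem Φ) {c d u t : ℚ} (hr : IsRow N q c d)
    (hu : IsUnitZq q u) (hd : d - 1 ∈ NZq q N) (ht : t ∈ NZq q N)
    (hc : c = (N : ℚ) * u + t * d) : sym Φ c d = 1 := by
  obtain ⟨r1, e1⟩ := sym_add_mul_left (Φ := Φ) hΦ hr ((NZq q N).neg_mem ht)
  have a1 : c + -t * d = (N : ℚ) * u := by rw [hc]; ring
  rw [a1] at r1 e1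
  rw [← e1]
  exact sym_unit_row hΦ r1 hu hd

/-! ### inverse, (DIA), (SPA) -/

theorem sym_inv (hΦ : KillsElem Φ) (x : ↥(DeltaQ N q)) :
    sym Φ (-(x : SLQ) 1 0) ((x : SLQ) 0 0) = (sym Φ ((x : SLQ) 1 0) ((x : SLQ) 1 1))⁻¹ := by
  obtain ⟨-, -, i10, i11⟩ := inv_entries (x : SLQ)
  have := sym_eq' hΦ x⁻¹ (c := -(x : SLQ) 1 0) (d := (x : SLQ) 0 0) i10 i11
  rw [this, map_inv, sym_eq hΦ x]

/-- general quotient formula: the bottom row of `x y⁻¹` -/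
theorem sym_div (hΦ : KillsElem Φ) (x y : ↥(DeltaQ N q)) :
    sym Φ ((x : SLQ) 1 1 * (y : SLQ) 1 0 * (-1) + (x : SLQ) 1 0 * (y : SLQ) 1 1)
        ((x : SLQ) 1 1 * (y : SLQ) 0 0 - (x : SLQ) 1 0 * (y : SLQ) 0 1) =
      sym Φ ((x : SLQ) 1 0) ((x : SLQ) 1 1) / sym Φ ((y : SLQ) 1 0) ((y : SLQ) 1 1) := by
  obtain ⟨e10, e11⟩ := mul_inv_row (x : SLQ) (y : SLQ)
  have := sym_eq' hΦ (x * y⁻¹) e10 e11
  rw [this, map_mul, map_inv, sym_eq hΦ x, sym_eq hΦ y, div_eq_mul_inv]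

/-- (DIA) same `d`: `s(c₁,d) / s(c₂,d) = s(d e, 1 - b₂ e)`, `e = c₁ - c₂`, `b₂` the upper right
entry of the representative of `(c₂,d)` -/
theorem sym_dia (hΦ : KillsElem Φ) (x y : ↥(DeltaQ N q)) (hd : (x : SLQ) 1 1 = (y : SLQ) 1 1) :
    sym Φ ((y : SLQ) 1 1 * ((x : SLQ) 1 0 - (y : SLQ) 1 0))
        (1 - (y : SLQ) 0 1 * ((x : SLQ) 1 0 - (y : SLQ) 1 0)) =
      sym Φ ((x : SLQ) 1 0) ((y : SLQ) 1 1) / sym Φ ((y : SLQ) 1 0) ((y : SLQ) 1 1) := by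
  have h := sym_div hΦ x y
  rw [hd] at h
  have dy := detQ (y : SLQ)
  have a1 : (y : SLQ) 1 1 * (y : SLQ) 1 0 * (-1) + (x : SLQ) 1 0 * (y : SLQ) 1 1 =
      (y : SLQ) 1 1 * ((x : SLQ) 1 0 - (y : SLQ) 1 0) := by ring
  have a2 : (y : SLQ) 1 1 * (y : SLQ) 0 0 - (x : SLQ) 1 0 * (y : SLQ) 0 1 =
      1 - (y : SLQ) 0 1 * ((x : SLQ) 1 0 - (y : SLQ) 1 0) := by linear_combination dy
  rw [a1, a2] at h
  exact h

/-- general product formula: the bottom row of `x y` -/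
theorem sym_mul (hΦ : KillsElem Φ) (x y : ↥(DeltaQ N q)) :
    sym Φ ((x : SLQ) 1 0 * (y : SLQ) 0 0 + (x : SLQ) 1 1 * (y : SLQ) 1 0)
        ((x : SLQ) 1 0 * (y : SLQ) 0 1 + (x : SLQ) 1 1 * (y : SLQ) 1 1) =
      sym Φ ((x : SLQ) 1 0) ((x : SLQ) 1 1) * sym Φ ((y : SLQ) 1 0) ((y : SLQ) 1 1) := by
  obtain ⟨e10, e11⟩ := mul_row (x : SLQ) (y : SLQ)
  have := sym_eq' hΦ (x * y) e10 e11
  rw [this, map_mul, sym_eq hΦ x, sym_eq hΦ y]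

/-- (SPA) same `c`: `s(c,d) s(c,d') = s(c k, k d' - 1)`, `k = a' + d`, `a'` the upper left entry
of the representative of `(c,d')` -/
theorem sym_spa (hΦ : KillsElem Φ) (x y : ↥(DeltaQ N q)) (hc : (x : SLQ) 1 0 = (y : SLQ) 1 0) :
    sym Φ ((y : SLQ) 1 0 * ((y : SLQ) 0 0 + (x : SLQ) 1 1))
        (((y : SLQ) 0 0 + (x : SLQ) 1 1) * (y : SLQ) 1 1 - 1) =
      sym Φ ((y : SLQ) 1 0) ((x : SLQ) 1 1) * sym Φ ((y : SLQ) 1 0) ((y : SLQ) 1 1) := by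
  have h := sym_mul hΦ x y
  rw [hc] at h
  have dy := detQ (y : SLQ)
  have a1 : (y : SLQ) 1 0 * (y : SLQ) 0 0 + (x : SLQ) 1 1 * (y : SLQ) 1 0 =
      (y : SLQ) 1 0 * ((y : SLQ) 0 0 + (x : SLQ) 1 1) := by ring
  have a2 : (y : SLQ) 1 0 * (y : SLQ) 0 1 + (x : SLQ) 1 1 * (y : SLQ) 1 1 =
      ((y : SLQ) 0 0 + (x : SLQ) 1 1) * (y : SLQ) 1 1 - 1 := by linear_combination -dy
  rw [a1, a2] at h
  exact h

/-! ### the Cayley–Hamilton power trick -/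

/-- `y_0 = 0, y_1 = 1, y_{m+2} = t y_{m+1} - y_m` (Chebyshev `U_{m-1}(t/2)`) -/
def cheb (t : ℚ) : ℕ → ℚ
  | 0 => 0
  | 1 => 1
  | (m + 2) => t * cheb t (m + 1) - cheb t m

@[simp] theorem cheb_zero (t : ℚ) : cheb t 0 = 0 := rfl
@[simp] theorem cheb_one (t : ℚ) : cheb t 1 = 1 := rfl
theorem cheb_succ_succ (t : ℚ) (m : ℕ) : cheb t (m + 2) = t * cheb t (m + 1) - cheb t m := rfl

/-- bottom row of `x ^ (m+1)` : `(y_{m+1} c, y_{m+1} d - y_m)`, `t = tr x` -/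
theorem pow_row (x : SLQ) (m : ℕ) :
    (x ^ (m + 1)) 1 0 = cheb (x 0 0 + x 1 1) (m + 1) * x 1 0 ∧
      (x ^ (m + 1)) 1 1 = cheb (x 0 0 + x 1 1) (m + 1) * x 1 1 - cheb (x 0 0 + x 1 1) m := by
  induction m with
  | zero => simp
  | succ m ih =>
    obtain ⟨i10, i11⟩ := ih
    obtain ⟨e10, e11⟩ := mul_row (x ^ (m + 1)) x
    have dx := detQ x
    rw [pow_succ x (m + 1)]
    refine ⟨?_, ?_⟩
    · rw [e10, i10, i11, cheb_succ_succ]; ring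
    · rw [e11, i10, i11, cheb_succ_succ]
      linear_combination (-(cheb (x 0 0 + x 1 1) (m + 1))) * dx

/-- **power trick**: `s(c,d)^(m+1) = s(y_{m+1} c, y_{m+1} d - y_m)` -/
theorem sym_pow (hΦ : KillsElem Φ) (x : ↥(DeltaQ N q)) (m : ℕ) :
    sym Φ (cheb ((x : SLQ) 0 0 + (x : SLQ) 1 1) (m + 1) * (x : SLQ) 1 0)
        (cheb ((x : SLQ) 0 0 + (x : SLQ) 1 1) (m + 1) * (x : SLQ) 1 1 -
          cheb ((x : SLQ) 0 0 + (x : SLQ) 1 1) m) =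
      sym Φ ((x : SLQ) 1 0) ((x : SLQ) 1 1) ^ (m + 1) := by
  obtain ⟨e10, e11⟩ := pow_row (x : SLQ) m
  have := sym_eq' hΦ (x ^ (m + 1)) e10 e11
  rw [this, map_pow, sym_eq hΦ x]

/-! ### reductions -/

/-- CSP in symbol form implies CSP: if the symbol vanishes on all rows with `d ≡ 1 mod N`, then
`Φ` kills `Γ1(N)[1/q]` -/
theorem map_eq_one_of_sym (hΦ : KillsElem Φ)
    (h : ∀ c d : ℚ, IsRow N q c d → d - 1 ∈ NZq q N → sym Φ c d = 1)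
    (x : ↥(DeltaQ N q)) (hx : (x : SLQ) 1 1 - 1 ∈ NZq q N) : Φ x = 1 := by
  rw [← sym_eq hΦ x]
  exact h _ _ (isRow_of x) hx

/-- ... and then `Φ x` depends only on `d mod N` -/
theorem map_eq_of_sym (hΦ : KillsElem Φ)
    (h : ∀ c d : ℚ, IsRow N q c d → d - 1 ∈ NZq q N → sym Φ c d = 1)
    (x y : ↥(DeltaQ N q)) (hxy : (x : SLQ) 1 1 - (y : SLQ) 1 1 ∈ NZq q N) : Φ x = Φ y := by
  obtain ⟨-, e11⟩ := mul_inv_row (x : SLQ) (y : SLQ)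
  have dy := detQ (y : SLQ)
  have hmem : ((x * y⁻¹ : ↥(DeltaQ N q)) : SLQ) 1 1 - 1 ∈ NZq q N := by
    show ((x : SLQ) * (y : SLQ)⁻¹) 1 1 - 1 ∈ NZq q N
    rw [e11]
    have e : (x : SLQ) 1 1 * (y : SLQ) 0 0 - (x : SLQ) 1 0 * (y : SLQ) 0 1 - 1 =
        ((x : SLQ) 1 1 - (y : SLQ) 1 1) * (y : SLQ) 0 0 + (y : SLQ) 0 1 * (y : SLQ) 1 0 -
          (x : SLQ) 1 0 * (y : SLQ) 0 1 := by linear_combination dy
    rw [e]
    exact (NZq q N).sub_mem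
      ((NZq q N).add_mem (mul_mem_NZq_right hxy (entry_mem y 0 0))
        (mul_mem_NZq_left (entry_mem y 0 1) (entry10_mem y)))
      (mul_mem_NZq_right (entry10_mem x) (entry_mem y 0 1))
  have := map_eq_one_of_sym hΦ h (x * y⁻¹) hmem
  rw [map_mul, map_inv, mul_inv_eq_one] at this
  exact this

end Sym

end Fermat.Agent.GM.CSP.Symbol
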