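/-
GATE-M / S41-C2 (helper67; HEDGE of helper25's F0 + Lemma 1 of board post 3748): the CONDUCTOR
LEMMA for the bottom-row symbol of `Γ0(N)[1/q]`.

* `lift_exp` (Lemma 0, pure number theory): `l` an odd prime, `w ≡ 1 mod l`, `w ≠ 1`,
  `s = v_l(w - 1)`; then for `j ≥ s` every `x ≡ 1 mod l^s` is `≡ w^k mod l^j` for some `k`
  (lifting the exponent: `v_l(w^{l^a} - 1) = s + a`).
* `cond_of_killsElem` (Lemma 1): for an odd prime `l ∤ N q` there is `s` such that for all `j ≥ s`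
  the symbol `s(N x, l^j)` depends on the integer `x` (prime to `l`) only modulo `l^s`
  — in the pinned shape `Cond` of helper17 (board 3762) / `CondHyp` of helper4 (board 3761).
  This is the only place where the infinite unit group `q^ℤ` enters: `x' ≡ x · (q^{(l-1)k})² mod l^j`,
  then (R2) and (R3) of `GM/CSP/Symbol.lean`.
-/
import Fermat.Agent.GM.CSP.Symbol

set_option autoImplicit false

namespace Fermat.Agent.GM.CSP.CondHedge

open Fermat.Agent.GM.Amalgam Fermat.Agent.GM.CSP.Symbol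

/-! ### Lemma 0 -/

/-- `(1 + t)^n ≡ 1 + n t` modulo `t²`, in the form used below -/
theorem sq_dvd_pow_sub_one_sub (W : ℤ) (n : ℕ) :
    (W - 1) ^ 2 ∣ W ^ n - 1 - n * (W - 1) := by
  induction n with
  | zero => simp
  | succ n ih =>
    obtain ⟨c, hc⟩ := ih
    refine ⟨W * c + n, ?_⟩
    have : W ^ (n + 1) - 1 - ((n + 1 : ℕ) : ℤ) * (W - 1) =
        W * (W ^ n - 1 - n * (W - 1)) + n * (W - 1) ^ 2 := by
      push_cast; ring
    rw [this, hc]; ring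

/-- **Lemma 0** (lifting the exponent, in the form of successive approximation). -/
theorem lift_exp {l : ℕ} (hl : l.Prime) (hl2 : l ≠ 2) {w : ℤ} (hw1 : (l : ℤ) ∣ w - 1)
    (hw : w ≠ 1) :
    ∃ s : ℕ, 1 ≤ s ∧ ∀ j : ℕ, s ≤ j → ∀ x : ℤ, (l : ℤ) ^ s ∣ x - 1 →
      ∃ k : ℕ, (l : ℤ) ^ j ∣ x - w ^ k := by
  have hlZ : Prime (l : ℤ) := Nat.prime_iff_prime_int.1 hl
  have hodd : Odd l := hl.odd_of_ne_two hl2
  have hw0 : w - 1 ≠ 0 := sub_ne_zero.2 hw
  have hfin : FiniteMultiplicity (l : ℤ) (w - 1) :=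
    Int.finiteMultiplicity_iff.2 ⟨by
      simpa using hl.ne_one, hw0⟩
  have hlw : ¬ (l : ℤ) ∣ w := by
    intro h
    have h1 : (l : ℤ) ∣ 1 := by
      have := dvd_sub h hw1
      simpa using this
    exact hlZ.not_isUnit (isUnit_of_dvd_one h1)
  set s := multiplicity (l : ℤ) (w - 1) with hs
  have hes : emultiplicity (l : ℤ) (w - 1) = s := hfin.emultiplicity_eq_multiplicity
  have hs1 : 1 ≤ s := by
    have : (l : ℤ) ^ 1 ∣ w - 1 := by simpa using hw1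
    exact (hfin.pow_dvd_iff_le_multiplicity).1 this
  -- LTE
  have hlte : ∀ a : ℕ, emultiplicity (l : ℤ) (w ^ l ^ a - 1) = ((s + a : ℕ) : ℕ∞) := by
    intro a
    have h := emultiplicity_pow_prime_pow_sub_pow_prime_pow (x := w) (y := 1) hlZ hodd
      (by simpa using hw1) hlw a
    rw [one_pow, hes] at h
    rw [h]; push_cast; rfl
  refine ⟨s, hs1, ?_⟩
  intro j hj
  induction j, hj using Nat.le_induction with
  | base =>
    intro x hx
    exact ⟨0, by simpa using hx⟩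
  | succ j hj ih =>
    intro x hx
    obtain ⟨k, hk⟩ := ih x hx
    obtain ⟨m, hm⟩ := hk
    -- `W = w^{l^{j-s}} = 1 + l^j v`, `l ∤ v`
    have hja : s + (j - s) = j := Nat.add_sub_cancel' hj
    have hW := hlte (j - s)
    rw [hja] at hW
    obtain ⟨hWd, hWn⟩ := emultiplicity_eq_coe.1 hW
    obtain ⟨v, hv⟩ := hWd
    have hlv : ¬ (l : ℤ) ∣ v := by
      rintro ⟨v', rfl⟩
      apply hWn
      refine ⟨v', ?_⟩
      rw [hv, pow_succ]; ring
    set W := w ^ l ^ (j - s) with hWdef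
    have : Fact l.Prime := ⟨hl⟩
    have hvbar : ((v : ℤ) : ZMod l) ≠ 0 := by
      rwa [Ne, ZMod.intCast_zmod_eq_zero_iff_dvd]
    -- choose `n` with `n v ≡ m mod l`
    set n : ℕ := (((m : ℤ) : ZMod l) / ((v : ℤ) : ZMod l)).val with hn
    have hncast : ((n : ℕ) : ZMod l) = ((m : ℤ) : ZMod l) / ((v : ℤ) : ZMod l) := by
      rw [hn, ZMod.natCast_zmod_val]
    have hwbar : ((w : ℤ) : ZMod l) = 1 := by
      have : (((w - 1 : ℤ)) : ZMod l) = 0 := (ZMod.intCast_zmod_eq_zero_iff_dvd _ _).2 hw1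
      push_cast at this
      exact sub_eq_zero.1 this
    have hdiv : (l : ℤ) ∣ m - w ^ k * (n * v) := by
      rw [← ZMod.intCast_zmod_eq_zero_iff_dvd]
      push_cast
      rw [hwbar, one_pow, one_mul, hncast, div_mul_cancel₀ _ hvbar, sub_self]
    obtain ⟨r, hr⟩ := hdiv
    -- `W^n = 1 + n (W - 1) + (W-1)^2 c`
    obtain ⟨c, hc⟩ := sq_dvd_pow_sub_one_sub W n
    have hj1 : 1 ≤ j := le_trans hs1 hj
    refine ⟨k + n * l ^ (j - s), ?_⟩
    have hpow : w ^ (k + n * l ^ (j - s)) = w ^ k * W ^ n := by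
      rw [pow_add, mul_comm n, pow_mul]
    rw [hpow]
    have hWn' : W ^ n = 1 + n * (W - 1) + (W - 1) ^ 2 * c := by linarith
    -- `2 j = (j + 1) + (j - 1)`
    obtain ⟨j', rfl⟩ : ∃ j', j = j' + 1 := ⟨j - 1, by omega⟩
    refine ⟨r - w ^ k * ((l : ℤ) ^ j' * v ^ 2 * c), ?_⟩
    have hx' : x = w ^ k + (l : ℤ) ^ (j' + 1) * m := by linarith
    have hm' : m = w ^ k * (n * v) + (l : ℤ) * r := by linarith
    rw [hx', hWn', hv, hm']
    ring

/-! ### Lemma 1 -/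

variable {N q : ℕ} [hq : Fact q.Prime]
variable {A : Type*} [CommGroup A] {Φ : ↥(DeltaQ N q) →* A}

/-- an integer row `(N x, d)` with `N x`, `d` coprime is a bottom row of `Γ0(N)[1/q]` -/
theorem isRow_of_isCoprime {x d : ℤ} (h : IsCoprime ((N : ℤ) * x) d) :
    IsRow N q ((N : ℚ) * x) (d : ℚ) := by
  rw [isRow_iff]
  obtain ⟨a, b, hab⟩ := h
  refine ⟨⟨(x : ℚ), intCast_mem_Zq q x, rfl⟩, intCast_mem_Zq q d, (b : ℚ), intCast_mem_Zq q b,
    (-a : ℚ), ?_, ?_⟩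
  · have := intCast_mem_Zq q (-a)
    rwa [Int.cast_neg] at this
  · have h1 : ((a * ((N : ℤ) * x) + b * d : ℤ) : ℚ) = 1 := by rw [hab]; simp
    push_cast at h1
    linarith

/-- **Lemma 1 (conductor lemma)**, in the pinned shape `Cond N q Φ` of the consumers. -/
theorem cond_of_killsElem (hΦ : KillsElem Φ) :
    ∀ l : ℕ, l.Prime → l ≠ 2 → ¬ l ∣ N * q → ∃ s : ℕ, ∀ j : ℕ, s ≤ j → ∀ x x' : ℤ,
      ¬ (l : ℤ) ∣ x → ¬ (l : ℤ) ∣ x' → ((l : ℤ) ^ s ∣ x' - x) →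
        sym Φ ((N : ℚ) * x') ((l : ℚ) ^ j) = sym Φ ((N : ℚ) * x) ((l : ℚ) ^ j) := by
  intro l hl hl2 hlNq
  have hlZ : Prime (l : ℤ) := Nat.prime_iff_prime_int.1 hl
  have hlN : ¬ l ∣ N := fun h => hlNq (Dvd.dvd.mul_right h q)
  have hlq : ¬ l ∣ q := fun h => hlNq (Dvd.dvd.mul_left h N)
  have hq2 : 2 ≤ q := hq.out.two_le
  -- the unit square `w = q^{2(l-1)}`
  set w : ℤ := (q : ℤ) ^ (2 * (l - 1)) with hw
  have hcop : IsCoprime (q : ℤ) (l : ℤ) := by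
    rw [Int.isCoprime_iff_gcd_eq_one, Int.gcd_natCast_natCast]
    exact (Nat.coprime_primes hq.out hl).2 (fun h => hlq (h ▸ dvd_rfl))
  have hw1 : (l : ℤ) ∣ w - 1 := by
    have h1 : (q : ℤ) ^ (l - 1) ≡ 1 [ZMOD (l : ℤ)] := Int.ModEq.pow_card_sub_one_eq_one hl hcop
    have h2 : ((q : ℤ) ^ (l - 1)) ^ 2 ≡ 1 ^ 2 [ZMOD (l : ℤ)] := h1.pow 2
    rw [hw, mul_comm 2, pow_mul]
    have := h2.symm.dvd
    simpa using this
  have hwne : w ≠ 1 := by
    have hl3 : 2 ≤ l := hl.two_le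
    have hexp : 2 * (l - 1) ≠ 0 := by omega
    have : (1 : ℤ) < w := by
      rw [hw]
      exact one_lt_pow₀ (by exact_mod_cast hq2) hexp
    exact this.ne'
  obtain ⟨s, -, hlift⟩ := lift_exp hl hl2 hw1 hwne
  refine ⟨s, ?_⟩
  intro j hj x x' hx hx' hxx
  -- inverse of `x` modulo `l^j`
  have hcx : IsCoprime ((l : ℤ) ^ j) x := ((hlZ.coprime_iff_not_dvd).2 hx).pow_left
  obtain ⟨a, z, haz⟩ := hcx
  have hsj : (l : ℤ) ^ s ∣ (l : ℤ) ^ j := pow_dvd_pow _ hj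
  have h1 : (l : ℤ) ^ s ∣ x' * z - 1 := by
    have : x' * z - 1 = (x' - x) * z - a * (l : ℤ) ^ j := by linarith
    rw [this]
    exact dvd_sub (Dvd.dvd.mul_right hxx z) (Dvd.dvd.mul_left hsj a)
  obtain ⟨k, y1, hy1⟩ := hlift j hj (x' * z) h1
  -- `x' = x w^k + y0 l^j`
  have hx'eq : x' = x * w ^ k + (x' * a + x * y1) * (l : ℤ) ^ j := by
    have e1 : x' * z = w ^ k + (l : ℤ) ^ j * y1 := by linarith
    have e2 : z * x = 1 - a * (l : ℤ) ^ j := by linarith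
    calc x' = x' * (a * (l : ℤ) ^ j + z * x) := by rw [haz, mul_one]
      _ = x' * a * (l : ℤ) ^ j + (x' * z) * x := by ring
      _ = x' * a * (l : ℤ) ^ j + (w ^ k + (l : ℤ) ^ j * y1) * x := by rw [e1]
      _ = x * w ^ k + (x' * a + x * y1) * (l : ℤ) ^ j := by ring
  set y0 : ℤ := x' * a + x * y1 with hy0
  -- the unit
  set u : ℚ := (q : ℚ) ^ ((l - 1) * k) with hu
  have huU : IsUnitZq q u := (isUnitZq_q (q := q)).pow _
  have hu2 : u ^ 2 = ((w ^ k : ℤ) : ℚ) := by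
    rw [hu, hw]
    push_cast
    rw [← pow_mul, ← pow_mul]
    congr 1
    ring
  -- the row `(N x, l^j)`
  have hcN : IsCoprime ((N : ℤ) * x) ((l : ℤ) ^ j) := by
    have hN' : IsCoprime (N : ℤ) (l : ℤ) := by
      refine ((hlZ.coprime_iff_not_dvd).2 ?_).symm
      intro h
      exact hlN (by exact_mod_cast h)
    have hx'' : IsCoprime x (l : ℤ) := ((hlZ.coprime_iff_not_dvd).2 hx).symm
    exact (hN'.mul_left hx'').pow_right
  have hrow : IsRow N q ((N : ℚ) * x) ((l : ℚ) ^ j) := by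
    have := isRow_of_isCoprime (N := N) (q := q) hcN
    simpa using this
  obtain ⟨hrow2, e2⟩ := sym_sq (Φ := Φ) hΦ hrow huU
  have hy0mem : (N : ℚ) * (y0 : ℚ) ∈ NZq q N := ⟨(y0 : ℚ), intCast_mem_Zq q y0, rfl⟩
  obtain ⟨-, e3⟩ := sym_add_mul_left (Φ := Φ) hΦ hrow2 hy0mem
  have hkey : (N : ℚ) * (x' : ℚ) =
      u ^ 2 * ((N : ℚ) * x) + (N : ℚ) * (y0 : ℚ) * (l : ℚ) ^ j := by
    rw [hu2]
    have h3 : (x' : ℚ) = ((x * w ^ k + y0 * (l : ℤ) ^ j : ℤ) : ℚ) := by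
      rw [← hx'eq]
    rw [h3]
    push_cast
    ring
  rw [hkey, e3, e2]

end Fermat.Agent.GM.CSP.CondHedge
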