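/-
GATE-M / S41-(C2) CSP, part LIFTEXP (helper25): the `l`-adic Lemma 0 of the CSP proof (board 3748).

For an odd prime `l` and an integer `w ≡ 1 mod l`, `w ≠ 1`, with `s = v_l(w - 1) ≥ 1`:
for every `j ≥ s`, every integer `x ≡ 1 mod l^s` is congruent to a power `w^k` modulo `l^j`
(`powers_of_w_fill`: the closure of `⟨w⟩` in `ℤ_l^×` is `1 + l^s ℤ_l`).

* `one_add_pow_modEq`  : `(1 + a)^n ≡ 1 + n a mod a²`;
* `exists_pow_modEq`   : the lemma, `s` given by `l^s ∣ w - 1`, `¬ l^(s+1) ∣ w - 1`;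
* `exists_exponent`    : existence of such an `s ≥ 1` for `w = q^(2(l-1))`, `l ∤ q`, `q ≥ 2`;
* `exists_unit_sq_modEq` : the form used by the conductor lemma: for `j ≥ s` and integers
  `x x'` prime to `l` with `x' ≡ x mod l^s` there is `k` with
  `x' ≡ x * (q^((l-1)k))^2 mod l^j`.
-/
import Mathlib

set_option autoImplicit false

namespace Fermat.Agent.GM.CSP.LiftExp

/-- `(1 + a)^n ≡ 1 + n a mod a²` -/
theorem one_add_pow_modEq (a : ℤ) (n : ℕ) : a ^ 2 ∣ (1 + a) ^ n - (1 + n * a) := by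
  induction n with
  | zero => simp
  | succ n ih =>
    obtain ⟨k, hk⟩ := ih
    refine ⟨k * (1 + a) + n, ?_⟩
    rw [pow_succ]
    push_cast
    linear_combination (1 + a) * hk

/-- **Lemma 0** : for `j ≥ s`, every `x ≡ 1 mod l^s` is a power of `w` modulo `l^j`. -/
theorem exists_pow_modEq {l : ℕ} (hl : l.Prime) (hodd : Odd l) {w : ℤ} {s : ℕ} (hs1 : 1 ≤ s)
    (hdvd : (l : ℤ) ^ s ∣ w - 1) (hndvd : ¬ (l : ℤ) ^ (s + 1) ∣ w - 1) :
    ∀ j, s ≤ j → ∀ x : ℤ, (l : ℤ) ^ s ∣ x - 1 → ∃ k : ℕ, (l : ℤ) ^ j ∣ x - w ^ k := by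
  have : Fact l.Prime := ⟨hl⟩
  have hlw1 : (l : ℤ) ∣ w - 1 := dvd_trans (dvd_pow_self _ (by omega)) hdvd
  have hlw : ¬ (l : ℤ) ∣ w := by
    intro h
    have h1 : (l : ℤ) ∣ 1 := by
      have := dvd_sub h hlw1
      simpa using this
    exact hl.one_lt.ne' (by exact_mod_cast Int.eq_one_of_dvd_one (by positivity) h1)
  have hw1 : ((w : ℤ) : ZMod l) = 1 := by
    have := (ZMod.intCast_zmod_eq_zero_iff_dvd (w - 1) l).2 hlw1
    push_cast at this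
    exact sub_eq_zero.mp this
  intro j hj
  induction j, hj using Nat.le_induction with
  | base =>
    intro x hx
    exact ⟨0, by simpa using hx⟩
  | succ j hj ih =>
    intro x hx
    obtain ⟨k, m, hm⟩ := ih x hx
    -- `W = w^(l^(j-s)) = 1 + l^j v`, `l ∤ v`
    have hW : emultiplicity (l : ℤ) (w ^ (l ^ (j - s)) - 1 ^ (l ^ (j - s))) = (j : ℕ) := by
      rw [Int.emultiplicity_pow_sub_pow hl hodd hlw1 hlw,
        emultiplicity_eq_of_dvd_of_not_dvd hdvd hndvd,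
        emultiplicity_pow_self_of_prime (Nat.prime_iff.mp hl)]
      norm_cast
      omega
    rw [one_pow] at hW
    obtain ⟨⟨v, hv⟩, hv'⟩ := emultiplicity_eq_coe.mp hW
    have hlv : ¬ (l : ℤ) ∣ v := by
      rintro ⟨v', rfl⟩
      exact hv' ⟨v', by rw [hv, pow_succ]; ring⟩
    have hv0 : ((v : ℤ) : ZMod l) ≠ 0 := fun h =>
      hlv ((ZMod.intCast_zmod_eq_zero_iff_dvd v l).1 h)
    -- the exponent
    obtain ⟨n, hn⟩ : ∃ n : ℕ, ((n : ℕ) : ZMod l) = (m : ZMod l) * ((v : ℤ) : ZMod l)⁻¹ :=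
      ⟨((m : ZMod l) * ((v : ℤ) : ZMod l)⁻¹).val, ZMod.natCast_zmod_val _⟩
    obtain ⟨e, he⟩ := one_add_pow_modEq ((l : ℤ) ^ j * v) n
    have hj1 : 1 ≤ j := le_trans hs1 hj
    refine ⟨k + n * l ^ (j - s), ?_⟩
    have hWn : w ^ (n * l ^ (j - s)) = (1 + (l : ℤ) ^ j * v) ^ n := by
      rw [mul_comm n, pow_mul]
      congr 1
      linear_combination hv
    -- `x - w^(k + n l^(j-s)) = l^j * (m - w^k * (n v + l^j v² e))`
    have key : x - w ^ (k + n * l ^ (j - s)) =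
        (l : ℤ) ^ j * (m - w ^ k * (n * v + (l : ℤ) ^ j * v ^ 2 * e)) := by
      rw [pow_add, hWn]
      have h1 : (1 + (l : ℤ) ^ j * v) ^ n =
          1 + n * ((l : ℤ) ^ j * v) + ((l : ℤ) ^ j * v) ^ 2 * e := by linear_combination he
      rw [h1]
      linear_combination hm
    rw [key, pow_succ]
    apply mul_dvd_mul_left
    apply (ZMod.intCast_zmod_eq_zero_iff_dvd _ l).1
    push_cast
    rw [hw1, one_pow, one_mul, hn]
    have hl0 : ((l : ℕ) : ZMod l) = 0 := ZMod.natCast_self l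
    have hlj : ((l : ℕ) : ZMod l) ^ j = 0 := by
      rw [hl0, zero_pow (by omega)]
    rw [hlj, zero_mul, zero_mul, add_zero, mul_assoc, inv_mul_cancel₀ hv0, mul_one, sub_self]

/-- existence of the exponent `s ≥ 1` for `w = q^(2(l-1))` -/
theorem exists_exponent {l q : ℕ} (hl : l.Prime) (hq : 2 ≤ q) (hlq : ¬ l ∣ q) :
    ∃ s : ℕ, 1 ≤ s ∧ (l : ℤ) ^ s ∣ ((q : ℤ) ^ (2 * (l - 1)) - 1) ∧
      ¬ (l : ℤ) ^ (s + 1) ∣ ((q : ℤ) ^ (2 * (l - 1)) - 1) := by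
  have hl2 : 2 ≤ l := hl.two_le
  have hne : ((q : ℤ) ^ (2 * (l - 1)) - 1) ≠ 0 := by
    have h1 : (1 : ℤ) < (q : ℤ) ^ (2 * (l - 1)) := by
      apply one_lt_pow₀
      · exact_mod_cast hq
      · omega
    omega
  have hfin : FiniteMultiplicity (l : ℤ) ((q : ℤ) ^ (2 * (l - 1)) - 1) := by
    rw [Int.finiteMultiplicity_iff]
    refine ⟨?_, hne⟩
    simp only [Int.natAbs_natCast]
    exact hl.one_lt.ne'
  have hdvd : (l : ℤ) ∣ ((q : ℤ) ^ (2 * (l - 1)) - 1) := by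
    have hcop : IsCoprime (q : ℤ) (l : ℤ) := by
      rw [Int.isCoprime_iff_gcd_eq_one]
      simp only [Int.gcd_natCast_natCast]
      exact Nat.Coprime.symm ((Nat.Prime.coprime_iff_not_dvd hl).2 hlq)
    have h := Int.ModEq.pow_card_sub_one_eq_one hl hcop
    have h2 : (q : ℤ) ^ (2 * (l - 1)) ≡ 1 [ZMOD l] := by
      rw [mul_comm, pow_mul]
      simpa using h.pow 2
    exact (Int.modEq_iff_dvd.mp h2.symm)
  refine ⟨multiplicity (l : ℤ) ((q : ℤ) ^ (2 * (l - 1)) - 1), ?_, pow_multiplicity_dvd _ _, ?_⟩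
  · exact multiplicity_pos_of_dvd hdvd
  · exact hfin.not_pow_dvd_of_multiplicity_lt (Nat.lt_succ_self _)

/-- the form used by the conductor lemma -/
theorem exists_unit_sq_modEq {l q : ℕ} (hl : l.Prime) (hodd : Odd l) {s : ℕ} (hs1 : 1 ≤ s)
    (hdvd : (l : ℤ) ^ s ∣ ((q : ℤ) ^ (2 * (l - 1)) - 1))
    (hndvd : ¬ (l : ℤ) ^ (s + 1) ∣ ((q : ℤ) ^ (2 * (l - 1)) - 1))
    {j : ℕ} (hj : s ≤ j) {x x' : ℤ} (hx : ¬ (l : ℤ) ∣ x) (hxx : (l : ℤ) ^ s ∣ x' - x) :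
    ∃ k : ℕ, (l : ℤ) ^ j ∣ x' - x * ((q : ℤ) ^ ((l - 1) * k)) ^ 2 := by
  -- an inverse `x₁` of `x` modulo `l^j`
  have hcop : IsCoprime x ((l : ℤ) ^ j) := by
    apply IsCoprime.pow_right
    exact ((Nat.prime_iff_prime_int.mp hl).coprime_iff_not_dvd.2 hx).symm
  obtain ⟨x₁, b, hb⟩ := hcop
  -- `x₁ x ≡ 1 mod l^j`, so `x₁ x' ≡ 1 mod l^s`
  have h1 : (l : ℤ) ^ s ∣ x₁ * x' - 1 := by
    have e : x₁ * x' - 1 = x₁ * (x' - x) - b * (l : ℤ) ^ j := by linear_combination hb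
    rw [e]
    exact dvd_sub (dvd_mul_of_dvd_right hxx _) (dvd_mul_of_dvd_right (pow_dvd_pow _ hj) _)
  obtain ⟨k, hk⟩ := exists_pow_modEq hl hodd hs1 hdvd hndvd j hj (x₁ * x') h1
  refine ⟨k, ?_⟩
  have e : x' - x * ((q : ℤ) ^ ((l - 1) * k)) ^ 2 =
      x * (x₁ * x' - ((q : ℤ) ^ (2 * (l - 1))) ^ k) + (b * x') * (l : ℤ) ^ j := by
    have e2 : ((q : ℤ) ^ ((l - 1) * k)) ^ 2 = ((q : ℤ) ^ (2 * (l - 1))) ^ k := by
      rw [← pow_mul, ← pow_mul]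
      congr 1
      ring
    rw [e2]
    linear_combination (-x') * hb
  rw [e]
  exact dvd_add (dvd_mul_of_dvd_right hk _) (dvd_mul_left _ _)

end Fermat.Agent.GM.CSP.LiftExp
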