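import Fermat.Agent.GM.CSP.Symbol

/-!
# GATE-M / S41-(C2) CSP: frozen interfaces for the formalisation of helper25's proof (post 3748)

`symZ Φ C D` is the bottom-row symbol of `Γ0(N)[1/q]` on INTEGER rows.  This file contains the
integer-row API (`isRowZ`, `symZ_modEq_right`, `symZ_modEq_left`, `symZ_qpow_sq`, `symZ_one`,
`symZ_double`) and the three intermediate statements `ConductorStmt`, `SqPrimeStmt`, `SqRowStmt`.
-/

set_option autoImplicit false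

namespace Fermat.Agent.GM.CSP.Stmts

open Matrix Matrix.SpecialLinearGroup
open scoped MatrixGroups
open Fermat.Agent.GM.Amalgam Fermat.Agent.GM.CSP.Symbol

variable {N q : ℕ} [hq : Fact q.Prime] {A : Type*} [CommGroup A]

/-- the symbol on integer rows -/
noncomputable def symZ (Φ : ↥(DeltaQ N q) →* A) (C D : ℤ) : A := sym Φ (C : ℚ) (D : ℚ)

theorem symZ_def (Φ : ↥(DeltaQ N q) →* A) (C D : ℤ) : symZ Φ C D = sym Φ (C : ℚ) (D : ℚ) := rfl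

theorem intCast_mem_NZq {C : ℤ} (hC : (N : ℤ) ∣ C) : (C : ℚ) ∈ NZq q N := by
  obtain ⟨m, rfl⟩ := hC
  exact ⟨(m : ℚ), intCast_mem_Zq q m, by push_cast; ring⟩

/-- a coprime integer row with `N ∣ C` is a row of `Γ0(N)[1/q]` -/
theorem isRowZ {C D : ℤ} (hC : (N : ℤ) ∣ C) (h : IsCoprime C D) : IsRow N q (C : ℚ) (D : ℚ) := by
  obtain ⟨u, v, huv⟩ := h
  -- u * C + v * D = 1 ; take a = v, b = -u
  refine isRow_iff.2 ⟨intCast_mem_NZq hC, intCast_mem_Zq q D, (v : ℚ), intCast_mem_Zq q v,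
    ((-u : ℤ) : ℚ), intCast_mem_Zq q (-u), ?_⟩
  have : ((u * C + v * D : ℤ) : ℚ) = 1 := by rw [huv]; simp
  push_cast at this ⊢
  linear_combination this

variable {Φ : ↥(DeltaQ N q) →* A}

/-- (R1) on integer rows -/
theorem symZ_modEq_right (hΦ : KillsElem Φ) {C D D' : ℤ} (hC : (N : ℤ) ∣ C)
    (hcop : IsCoprime C D) (h : D' ≡ D [ZMOD C]) : symZ Φ C D' = symZ Φ C D := by
  obtain ⟨t, ht⟩ := (Int.modEq_iff_dvd.1 h.symm)
  -- D' - D = C * t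
  have e : (D' : ℚ) = (D : ℚ) + (t : ℚ) * (C : ℚ) := by
    have : D' = D + t * C := by linarith
    rw [this]; push_cast; ring
  unfold symZ
  rw [e]
  exact (sym_add_mul_right hΦ (isRowZ hC hcop) (intCast_mem_Zq q t)).2

theorem isCoprime_of_modEq_right {C D D' : ℤ} (hcop : IsCoprime C D) (h : D' ≡ D [ZMOD C]) :
    IsCoprime C D' := by
  obtain ⟨t, ht⟩ := (Int.modEq_iff_dvd.1 h.symm)
  have : D' = D + t * C := by linarith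
  rw [this]
  exact (IsCoprime.add_mul_right_right_iff).2 hcop |>.symm.symm

/-- (R2) on integer rows -/
theorem symZ_modEq_left (hΦ : KillsElem Φ) {C C' D : ℤ} (hC : (N : ℤ) ∣ C)
    (hcop : IsCoprime C D) (h : C' ≡ C [ZMOD (N : ℤ) * D]) : symZ Φ C' D = symZ Φ C D := by
  obtain ⟨t, ht⟩ := (Int.modEq_iff_dvd.1 h.symm)
  -- C' - C = N * D * t
  have e : (C' : ℚ) = (C : ℚ) + ((N : ℚ) * (t : ℚ)) * (D : ℚ) := by
    have : C' = C + (N : ℤ) * t * D := by linarith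
    rw [this]; push_cast; ring
  unfold symZ
  rw [e]
  exact (sym_add_mul_left hΦ (isRowZ hC hcop) ⟨(t : ℚ), intCast_mem_Zq q t, rfl⟩).2

theorem isCoprime_of_modEq_left {C C' D : ℤ} (hcop : IsCoprime C D)
    (h : C' ≡ C [ZMOD (N : ℤ) * D]) : IsCoprime C' D := by
  obtain ⟨t, ht⟩ := (Int.modEq_iff_dvd.1 h.symm)
  have : C' = C + ((N : ℤ) * t) * D := by linarith
  rw [this]
  exact (IsCoprime.add_mul_right_left_iff).2 hcop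

theorem dvd_of_modEq_left {C C' D : ℤ} (hC : (N : ℤ) ∣ C) (h : C' ≡ C [ZMOD (N : ℤ) * D]) :
    (N : ℤ) ∣ C' := by
  obtain ⟨t, ht⟩ := (Int.modEq_iff_dvd.1 h.symm)
  have : C' = C + (N : ℤ) * (D * t) := by linarith
  rw [this]
  exact dvd_add hC (Dvd.intro _ rfl)

/-- (R3) with the unit `q ^ k` -/
theorem symZ_qpow_sq (hΦ : KillsElem Φ) {C D : ℤ} (hr : IsRow N q (C : ℚ) (D : ℚ)) (k : ℕ) :
    symZ Φ ((q : ℤ) ^ (2 * k) * C) D = symZ Φ C D := by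
  have hu : IsUnitZq q ((q : ℚ) ^ k) := (isUnitZq_q (q := q)).pow k
  have := (sym_sq (Φ := Φ) hΦ hr hu).2
  unfold symZ
  have e : (((q : ℤ) ^ (2 * k) * C : ℤ) : ℚ) = ((q : ℚ) ^ k) ^ 2 * (C : ℚ) := by
    push_cast; rw [← pow_mul, mul_comm k 2]
  rw [e, this]

theorem isRow_qpow_sq (Φ : ↥(DeltaQ N q) →* A) (hΦ : KillsElem Φ) {C D : ℤ}
    (hr : IsRow N q (C : ℚ) (D : ℚ)) (k : ℕ) :
    IsRow N q ((((q : ℤ) ^ (2 * k) * C : ℤ)) : ℚ) (D : ℚ) := by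
  have hu : IsUnitZq q ((q : ℚ) ^ k) := (isUnitZq_q (q := q)).pow k
  have := (sym_sq (Φ := Φ) hΦ hr hu).1
  have e : (((q : ℤ) ^ (2 * k) * C : ℤ) : ℚ) = ((q : ℚ) ^ k) ^ 2 * (C : ℚ) := by
    push_cast; rw [← pow_mul, mul_comm k 2]
  rw [e]; exact this

/-- (B) `s(C, 1) = 1` -/
theorem symZ_one (hΦ : KillsElem Φ) {C : ℤ} (hC : (N : ℤ) ∣ C) : symZ Φ C 1 = 1 := by
  have := (sym_unit_col (Φ := Φ) hΦ (intCast_mem_NZq (q := q) hC) (isUnitZq_one (q := q))).2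
  unfold symZ
  rw [Int.cast_one, this, chi_one hΦ]

/-- (CH) doubling on an integer matrix `(a b; C D)` -/
theorem symZ_double (hΦ : KillsElem Φ) {a b C D : ℤ} (hdet : a * D - b * C = 1)
    (hC : (N : ℤ) ∣ C) :
    symZ Φ ((a + D) * C) ((a + D) * D - 1) = symZ Φ C D ^ 2 := by
  have hdetQ : (a : ℚ) * (D : ℚ) - (b : ℚ) * (C : ℚ) = 1 := by exact_mod_cast hdet
  set x : ↥(DeltaQ N q) := ⟨mkQ (a : ℚ) (b : ℚ) (C : ℚ) (D : ℚ) hdetQ,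
    mkQ_mem hdetQ (intCast_mem_Zq q a) (intCast_mem_Zq q b) (intCast_mem_NZq hC)
      (intCast_mem_Zq q D)⟩ with hx
  have h := sym_pow (Φ := Φ) hΦ x 1
  have h00 : (x : SLQ) 0 0 = (a : ℚ) := rfl
  have h10 : (x : SLQ) 1 0 = (C : ℚ) := rfl
  have h11 : (x : SLQ) 1 1 = (D : ℚ) := rfl
  rw [h00, h10, h11] at h
  have c2 : cheb ((a : ℚ) + (D : ℚ)) (1 + 1) = (a : ℚ) + (D : ℚ) := by
    rw [cheb_succ_succ]; simp
  rw [c2, cheb_one] at h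
  unfold symZ
  have e1 : (((a + D) * C : ℤ) : ℚ) = ((a : ℚ) + (D : ℚ)) * (C : ℚ) := by push_cast; ring
  have e2 : (((a + D) * D - 1 : ℤ) : ℚ) = ((a : ℚ) + (D : ℚ)) * (D : ℚ) - 1 := by push_cast; ring
  rw [e1, e2, h]

/-! ### the three intermediate statements -/

/-- Lemma 1 (conductor lemma) -/
def ConductorStmt (Φ : ↥(DeltaQ N q) →* A) : Prop :=
  ∀ l : ℕ, l.Prime → l ≠ 2 → l ≠ q → ¬ l ∣ N →
    ∃ s : ℕ, 1 ≤ s ∧ ∀ j : ℕ, s ≤ j → ∀ x x' : ℤ, ¬ (l : ℤ) ∣ x →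
      x' ≡ x [ZMOD (l : ℤ) ^ s] →
      symZ Φ ((N : ℤ) * x') ((l : ℤ) ^ j) = symZ Φ ((N : ℤ) * x) ((l : ℤ) ^ j)

/-- Lemma 2 (SQ) -/
def SqPrimeStmt (Φ : ↥(DeltaQ N q) →* A) : Prop :=
  ∀ (m : ℤ) (l : ℕ), m ≠ 0 → l.Prime → l ≠ 2 → l ≠ q → ¬ (l : ℤ) ∣ (N : ℤ) * m →
    Nat.Coprime l (Nat.totient (N * m.natAbs)) → l ^ 2 ≡ 1 [MOD N] →
    symZ Φ ((N : ℤ) * m) ((l : ℤ) ^ 2) = 1

/-- Lemma 3 (SQ') -/
def SqRowStmt (Φ : ↥(DeltaQ N q) →* A) : Prop :=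
  ∀ (m D e : ℤ), m ≠ 0 → IsCoprime ((N : ℤ) * m) D → D ≡ 1 [ZMOD (N : ℤ)] →
    D ≡ e ^ 2 [ZMOD (N : ℤ) * m] → symZ Φ ((N : ℤ) * m) D = 1

end Fermat.Agent.GM.CSP.Stmts
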