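import Fermat.Agent.GM.CSP.Conductor
import Fermat.Agent.GM.CSP.LiftExp
import Fermat.Agent.GM.CSP.Stmts

/-!
# GATE-M / S41-(C2) CSP, (F1) CONDUCTOR, unconditional (helper57)

Lemma 1 (conductor lemma) of helper25's proof (board 3748) with Lemma 0 (`LiftExp`, helper25)
plugged into `Conductor.condHyp_of_lift`:

* `liftHyp_of_exponent` : helper25's `exists_pow_modEq` is the binder `LiftHyp`;
* `sym_conductor` : Lemma 1 in helper25's announced shape (board 3777), explicit exponent `s`;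
* `exists_condHyp` : `∃ s ≥ 1, CondHyp Φ l s` (helper4's shape, board 3761);
* `conductorStmt` : `Stmts.ConductorStmt Φ` (helper95's frozen interface, board 3776).
-/

set_option autoImplicit false

namespace Fermat.Agent.GM.CSP.Conductor

open Fermat.Agent.GM.Amalgam Fermat.Agent.GM.CSP.Symbol

/-- helper25's Lemma 0 is the binder `LiftHyp`. -/
theorem liftHyp_of_exponent {q l s : ℕ} (hl : l.Prime) (hodd : Odd l) (hs1 : 1 ≤ s)
    (hdvd : (l : ℤ) ^ s ∣ ((q : ℤ) ^ (2 * (l - 1)) - 1))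
    (hndvd : ¬ (l : ℤ) ^ (s + 1) ∣ ((q : ℤ) ^ (2 * (l - 1)) - 1)) : LiftHyp q l s :=
  fun j x hj hx => LiftExp.exists_pow_modEq hl hodd hs1 hdvd hndvd j hj x hx

theorem not_dvd_of_pow_dvd_sub {l s : ℕ} (hs1 : 1 ≤ s) {x x' : ℤ} (hx : ¬ (l : ℤ) ∣ x)
    (hxx : (l : ℤ) ^ s ∣ x' - x) : ¬ (l : ℤ) ∣ x' := by
  intro h
  have h1 : (l : ℤ) ∣ x' - x := dvd_trans (dvd_pow_self _ (by omega)) hxx
  exact hx (by simpa using dvd_sub h h1)

variable {N q : ℕ} [hq : Fact q.Prime] {A : Type*} [CommGroup A]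

variable {Φ : ↥(DeltaQ N q) →* A}

/-- **Lemma 1** in the shape announced by helper25 (board 3777). -/
theorem sym_conductor (hΦ : KillsElem Φ) {l s : ℕ} (hl : l.Prime) (hodd : Odd l)
    (hlN : ¬ l ∣ N) (hs1 : 1 ≤ s)
    (hdvd : (l : ℤ) ^ s ∣ ((q : ℤ) ^ (2 * (l - 1)) - 1))
    (hndvd : ¬ (l : ℤ) ^ (s + 1) ∣ ((q : ℤ) ^ (2 * (l - 1)) - 1))
    {j : ℕ} (hj : s ≤ j) {x x' : ℤ} (hx : ¬ (l : ℤ) ∣ x) (hxx : (l : ℤ) ^ s ∣ x' - x) :
    sym Φ ((N : ℚ) * x') ((l : ℚ) ^ j) = sym Φ ((N : ℚ) * x) ((l : ℚ) ^ j) :=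
  condHyp_of_lift hΦ hl hlN (liftHyp_of_exponent hl hodd hs1 hdvd hndvd) j x x' hj hx
    (not_dvd_of_pow_dvd_sub hs1 hx hxx) hxx

/-- `∃ s ≥ 1, CondHyp Φ l s` for every odd prime `l ∤ N q` (helper4's shape). -/
theorem exists_condHyp (hΦ : KillsElem Φ) {l : ℕ} (hl : l.Prime) (hl2 : l ≠ 2) (hlq : l ≠ q)
    (hlN : ¬ l ∣ N) : ∃ s : ℕ, 1 ≤ s ∧ CondHyp Φ l s := by
  have hodd : Odd l := hl.eq_two_or_odd'.resolve_left hl2
  have hlq' : ¬ l ∣ q := fun h => hlq ((Nat.prime_dvd_prime_iff_eq hl hq.out).1 h)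
  obtain ⟨s, hs1, hdvd, hndvd⟩ := LiftExp.exists_exponent hl hq.out.two_le hlq'
  exact ⟨s, hs1, condHyp_of_lift hΦ hl hlN (liftHyp_of_exponent hl hodd hs1 hdvd hndvd)⟩

/-- **(F1)** helper95's frozen interface `ConductorStmt`. -/
theorem conductorStmt (hΦ : KillsElem Φ) : Stmts.ConductorStmt Φ := by
  intro l hl hl2 hlq hlN
  obtain ⟨s, hs1, hc⟩ := exists_condHyp hΦ hl hl2 hlq hlN
  refine ⟨s, hs1, fun j hj x x' hx hxx => ?_⟩
  have hdvd : (l : ℤ) ^ s ∣ x' - x := (Int.modEq_iff_dvd.1 hxx.symm)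
  have h := hc j x x' hj hx (not_dvd_of_pow_dvd_sub hs1 hx hdvd) hdvd
  unfold Stmts.symZ
  push_cast
  exact h

end Fermat.Agent.GM.CSP.Conductor
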