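/-
GATE-M / S41-(C2) CSP, helper25's proof (board 3748), LEMMA 2 (helper17): **the symbol vanishes on
`(N m, l²)`** for suitable primes `l`, from the conductor lemma (Lemma 1) in hypothesis form.

Model = helper65 `GM/Amalgam` + helper33 `GM/CSP/Symbol`: `sym Φ c d` is the bottom-row symbol of a
homomorphism `Φ : Γ0(N)[1/q] → A` killing the elementary matrices of level `N`.

* `Cond N q Φ` : (Lemma 1, the conductor lemma) for an odd prime `l ∤ N q` there is `s` such that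
  for `j ≥ s` the symbol `s(N x, l^j)` depends only on `x mod l^s` (`x ∈ ℤ` prime to `l`);
* `isRow_int`, `sym_int_congr`, `sym_int_one` : integer rows, integer (R1), (B);
* `exists_prime_three` : Dirichlet + CRT for three pairwise coprime moduli;
* `exists_exponent` : `j ≥ s`, `j = 2 + o₁ t`, `o₂ ∣ j` when `gcd(o₁, o₂) ∣ 2`;
* **`sym_sq_prime`** (Lemma 2, with the `φ(N m)` repair of board 3752): for `m ≠ 0`, `l` an odd
  prime with `l ∤ N q m`, `l ∤ φ(N |m|)`, `l² ≡ 1 mod N`: `s(N m, l²) = 1`.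
-/
import Mathlib
import Fermat.Agent.GM.CSP.Symbol

set_option autoImplicit false

namespace Fermat.Agent.GM.CSP.SqPrime

open Matrix Matrix.SpecialLinearGroup
open scoped MatrixGroups
open Fermat.Agent.GM.Amalgam Fermat.Agent.GM.CSP.Symbol

variable {N q : ℕ} [hq : Fact q.Prime]
variable {A : Type*} [CommGroup A] {Φ : ↥(DeltaQ N q) →* A}

/-- **Lemma 1 (conductor lemma), interface**: for an odd prime `l ∤ N q` there is `s` such that for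
all `j ≥ s` the symbol `s(N x, l^j)` depends only on `x mod l^s`. -/
def Cond (N q : ℕ) [Fact q.Prime] {A : Type*} [CommGroup A] (Φ : ↥(DeltaQ N q) →* A) : Prop :=
  ∀ l : ℕ, l.Prime → l ≠ 2 → ¬ l ∣ N * q → ∃ s : ℕ, ∀ j : ℕ, s ≤ j → ∀ x x' : ℤ,
    ¬ (l : ℤ) ∣ x → ¬ (l : ℤ) ∣ x' → ((l : ℤ) ^ s ∣ x' - x) →
      sym Φ ((N : ℚ) * x') ((l : ℚ) ^ j) = sym Φ ((N : ℚ) * x) ((l : ℚ) ^ j)

/-! ### integer rows -/

theorem intCast_mem_NZq {c : ℤ} (hc : (N : ℤ) ∣ c) : (c : ℚ) ∈ NZq q N :=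
  mem_NZq_iff.2 ⟨0, c, hc, by simp⟩

/-- an integer row -/
theorem isRow_int {c d : ℤ} (hc : (N : ℤ) ∣ c) (hcd : IsCoprime c d) :
    IsRow N q (c : ℚ) (d : ℚ) := by
  obtain ⟨u, v, huv⟩ := hcd
  refine isRow_iff.2 ⟨intCast_mem_NZq hc, intCast_mem_Zq q d, (v : ℚ), intCast_mem_Zq q v,
    ((-u : ℤ) : ℚ), intCast_mem_Zq q (-u), ?_⟩
  have := congrArg (fun z : ℤ => (z : ℚ)) huv
  push_cast at this ⊢
  linarith

/-- (R1) for integer rows: `s(c, d') = s(c, d)` if `d' ≡ d mod c` -/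
theorem sym_int_congr (hΦ : KillsElem Φ) {c d d' : ℤ} (hc : (N : ℤ) ∣ c) (hcd : IsCoprime c d)
    (h : c ∣ d' - d) : sym Φ (c : ℚ) (d' : ℚ) = sym Φ (c : ℚ) (d : ℚ) := by
  obtain ⟨t, ht⟩ := h
  have h1 := (sym_add_mul_right (Φ := Φ) hΦ (isRow_int (q := q) hc hcd) (intCast_mem_Zq q t)).2
  have h2 : (d' : ℚ) = (d : ℚ) + (t : ℚ) * (c : ℚ) := by
    have : d' = d + t * c := by linarith
    rw [this]; push_cast; ring
  rw [h2]
  exact h1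

/-- (B) `s(c, 1) = 1` -/
theorem sym_int_one (hΦ : KillsElem Φ) {c : ℤ} (hc : (N : ℤ) ∣ c) :
    sym Φ (c : ℚ) 1 = 1 := by
  rw [(sym_unit_col (Φ := Φ) hΦ (intCast_mem_NZq hc) isUnitZq_one).2, chi_one hΦ]

/-! ### Dirichlet + CRT -/

/-- a prime in prescribed unit classes modulo three pairwise coprime moduli -/
theorem exists_prime_three {n1 n2 n3 a1 a2 a3 : ℕ} (h1 : n1 ≠ 0) (h2 : n2 ≠ 0) (h3 : n3 ≠ 0)
    (c12 : n1.Coprime n2) (c13 : n1.Coprime n3) (c23 : n2.Coprime n3)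
    (ha1 : a1.Coprime n1) (ha2 : a2.Coprime n2) (ha3 : a3.Coprime n3) (B : ℕ) :
    ∃ p, B < p ∧ p.Prime ∧ p ≡ a1 [MOD n1] ∧ p ≡ a2 [MOD n2] ∧ p ≡ a3 [MOD n3] := by
  obtain ⟨k12, hk1, hk2⟩ := Nat.chineseRemainder c12 a1 a2
  have c123 : (n1 * n2).Coprime n3 := Nat.Coprime.mul_left c13 c23
  obtain ⟨k, hk12, hk3⟩ := Nat.chineseRemainder c123 k12 a3
  have e1 : k ≡ a1 [MOD n1] := (hk12.of_mul_right n2).trans hk1
  have e2 : k ≡ a2 [MOD n2] := (hk12.of_mul_left n1).trans hk2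
  have g1 : k.Coprime n1 := by
    unfold Nat.Coprime; rw [e1.gcd_eq]; exact ha1
  have g2 : k.Coprime n2 := by
    unfold Nat.Coprime; rw [e2.gcd_eq]; exact ha2
  have g3 : k.Coprime n3 := by
    unfold Nat.Coprime; rw [hk3.gcd_eq]; exact ha3
  have g : k.Coprime (n1 * n2 * n3) := Nat.Coprime.mul_right (Nat.Coprime.mul_right g1 g2) g3
  obtain ⟨p, hpB, hp, hpk⟩ := Nat.forall_exists_prime_gt_and_modEq B
    (Nat.mul_ne_zero (Nat.mul_ne_zero h1 h2) h3) g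
  refine ⟨p, hpB, hp, ?_, ?_, ?_⟩
  · exact ((hpk.of_mul_right n3).of_mul_right n2).trans e1
  · exact ((hpk.of_mul_right n3).of_mul_left n1).trans e2
  · exact (hpk.of_mul_left (n1 * n2)).trans hk3

/-- the exponent: `j ≥ s`, `j = 2 + o₁ t`, `o₂ ∣ j` -/
theorem exists_exponent {o1 o2 : ℕ} (h1 : 0 < o1) (h2 : 0 < o2) (hg : Nat.gcd o1 o2 ∣ 2)
    (s : ℕ) : ∃ j t : ℕ, s ≤ j ∧ j = 2 + o1 * t ∧ o2 ∣ j := by
  have h : 2 ≡ 0 [MOD Nat.gcd o1 o2] := (Nat.modEq_zero_iff_dvd).2 hg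
  obtain ⟨k, hk1, hk2⟩ := Nat.chineseRemainder' h
  -- `j := k + o1 * o2 * (s + 2)`
  refine ⟨k + o1 * o2 * (s + 2), ?_⟩
  have hj1 : k + o1 * o2 * (s + 2) ≡ 2 [MOD o1] := by
    have : o1 * o2 * (s + 2) ≡ 0 [MOD o1] :=
      (Nat.modEq_zero_iff_dvd).2 ⟨o2 * (s + 2), by ring⟩
    simpa using hk1.add this
  have hj2 : k + o1 * o2 * (s + 2) ≡ 0 [MOD o2] := by
    have : o1 * o2 * (s + 2) ≡ 0 [MOD o2] :=
      (Nat.modEq_zero_iff_dvd).2 ⟨o1 * (s + 2), by ring⟩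
    simpa using hk2.add this
  have hge : s + 2 ≤ k + o1 * o2 * (s + 2) := by
    have : 1 ≤ o1 * o2 := Nat.mul_pos h1 h2
    nlinarith
  have hdvd : o1 ∣ k + o1 * o2 * (s + 2) - 2 :=
    (Nat.modEq_iff_dvd' (by omega)).1 hj1.symm
  obtain ⟨t, ht⟩ := hdvd
  exact ⟨t, by omega, by omega, (Nat.modEq_zero_iff_dvd).1 hj2⟩

/-! ### auxiliary arithmetic -/

theorem isCoprime_of_prime_not_dvd {l : ℕ} (hl : l.Prime) {x : ℤ} (h : ¬ (l : ℤ) ∣ x) :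
    IsCoprime x (l : ℤ) :=
  ((Nat.prime_iff_prime_int.mp hl).coprime_iff_not_dvd.2 h).symm

/-- `gcd(o₁, l₂ - 1) ∣ 2` when `l₂ ≡ 3 mod 4` and `l₂ ≡ 2` modulo the odd part of `o₁` -/
theorem gcd_dvd_two {o1 l2 : ℕ} (h4 : l2 ≡ 3 [MOD 4])
    (hK : l2 ≡ 2 [MOD ordCompl[2] o1]) : Nat.gcd o1 (l2 - 1) ∣ 2 := by
  have hl2 : 3 ≤ l2 := by
    by_contra hlt
    have : l2 % 4 = 3 := h4
    omega
  set K := ordCompl[2] o1 with hKdef
  -- `K ∣ l2 - 2`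
  have hK2 : K ∣ l2 - 2 := (Nat.modEq_iff_dvd' (by omega)).1 hK.symm
  have hcop : Nat.Coprime K (l2 - 1) := by
    have e : l2 - 1 = (l2 - 2) + 1 := by omega
    rw [e]
    obtain ⟨k, hk⟩ := hK2
    rw [hk]
    simp
  set g := Nat.gcd o1 (l2 - 1) with hg
  have hg1 : g ∣ o1 := Nat.gcd_dvd_left _ _
  have hg2 : g ∣ l2 - 1 := Nat.gcd_dvd_right _ _
  have hgK : Nat.Coprime g K := (Nat.Coprime.coprime_dvd_right hg2 hcop).symm
  have ho : ordProj[2] o1 * K = o1 := Nat.ordProj_mul_ordCompl_eq_self o1 2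
  have hg3 : g ∣ 2 ^ (o1.factorization 2) := by
    rw [← ho] at hg1
    exact hgK.dvd_of_dvd_mul_right hg1
  obtain ⟨b, -, hb⟩ := (Nat.dvd_prime_pow Nat.prime_two).1 hg3
  rw [hb]
  rcases b with _ | _ | b
  · simp
  · simp
  · exfalso
    have h4' : 4 ∣ l2 - 1 := by
      refine Dvd.dvd.trans ?_ hg2
      rw [hb, pow_succ, pow_succ]
      exact ⟨2 ^ b, by ring⟩
    have : l2 % 4 = 3 := h4
    omega

/-- `c ∣ l ^ (2 + o t) - l ^ 2` when `c ∣ l ^ o - 1` -/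
theorem dvd_pow_sub_pow_of {c l : ℤ} {o t : ℕ} (h : c ∣ l ^ o - 1) :
    c ∣ l ^ (2 + o * t) - l ^ 2 := by
  have h1 : l ^ o - 1 ∣ (l ^ o) ^ t - 1 := by
    simpa using sub_dvd_pow_sub_pow (l ^ o) 1 t
  have h2 : l ^ (2 + o * t) - l ^ 2 = l ^ 2 * ((l ^ o) ^ t - 1) := by
    rw [pow_add, pow_mul]; ring
  rw [h2]
  exact Dvd.dvd.mul_left (h.trans h1) _

/-! ### Lemma 2 -/

/-- **Lemma 2**: `s(N m, l²) = 1` for an odd prime `l ∤ N q m`, `l ∤ φ(N |m|)`, `l² ≡ 1 mod N`. -/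
theorem sym_sq_prime (hΦ : KillsElem Φ) (hN : N ≠ 0) (hC : Cond N q Φ) (m : ℤ) (hm : m ≠ 0)
    (l : ℕ) (hl : l.Prime) (hl2 : l ≠ 2) (hlNq : ¬ l ∣ N * q) (hlm : ¬ (l : ℤ) ∣ m)
    (hlφ : ¬ l ∣ Nat.totient (N * m.natAbs)) (hlN : (N : ℤ) ∣ (l : ℤ) ^ 2 - 1) :
    sym Φ ((N : ℚ) * m) ((l : ℚ) ^ 2) = 1 := by
  obtain ⟨s, hs⟩ := hC l hl hl2 hlNq
  have hlNn : ¬ l ∣ N := fun h => hlNq (Dvd.dvd.mul_right h q)
  have hlNz : ¬ (l : ℤ) ∣ (N : ℤ) := fun h => hlNn (Int.natCast_dvd_natCast.1 h)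
  set M₁ := N * m.natAbs with hM₁
  have hM₁pos : 0 < M₁ := Nat.mul_pos (Nat.pos_of_ne_zero hN) (Int.natAbs_pos.2 hm)
  set o1 := Nat.totient M₁ with ho1def
  have ho1 : 0 < o1 := Nat.totient_pos.2 hM₁pos
  set K := ordCompl[2] o1 with hKdef
  have hKpos : 0 < K := Nat.ordCompl_pos 2 ho1.ne'
  have hKodd : ¬ 2 ∣ K := Nat.not_dvd_ordCompl Nat.prime_two ho1.ne'
  have hKo1 : K ∣ o1 := Nat.ordCompl_dvd o1 2
  have hlK : ¬ l ∣ K := fun h => hlφ (h.trans hKo1)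
  -- the auxiliary prime `l2`
  have hlodd : Nat.Coprime l 2 := (Nat.coprime_primes hl Nat.prime_two).2 hl2
  have c12 : (l ^ s).Coprime 4 := by
    have : (4 : ℕ) = 2 ^ 2 := by norm_num
    rw [this]
    exact Nat.Coprime.pow _ _ hlodd
  have c13 : (l ^ s).Coprime K :=
    Nat.Coprime.pow_left _ ((Nat.Prime.coprime_iff_not_dvd hl).2 hlK)
  have c23 : (4 : ℕ).Coprime K := by
    have : (4 : ℕ) = 2 ^ 2 := by norm_num
    rw [this]
    exact Nat.Coprime.pow_left _ ((Nat.Prime.coprime_iff_not_dvd Nat.prime_two).2 hKodd)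
  have hlspos : (0 : ℤ) < (l : ℤ) ^ s := pow_pos (by exact_mod_cast hl.pos) s
  set a1 := (m % ((l : ℤ) ^ s)).toNat with ha1def
  have ha1z : (a1 : ℤ) = m % ((l : ℤ) ^ s) :=
    Int.toNat_of_nonneg (Int.emod_nonneg _ hlspos.ne')
  have ha1m : ((l : ℤ) ^ s) ∣ m - a1 := by
    rw [ha1z]; exact Int.dvd_self_sub_emod
  have ha1c : a1.Coprime (l ^ s) := by
    rcases Nat.eq_zero_or_pos s with rfl | hspos
    · simp
    · refine Nat.Coprime.pow_right _ ?_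
      rw [Nat.coprime_comm, Nat.Prime.coprime_iff_not_dvd hl]
      intro h
      have h0 : (l : ℤ) ∣ (a1 : ℤ) := Int.natCast_dvd_natCast.2 h
      have h1 : (l : ℤ) ∣ (l : ℤ) ^ s := dvd_pow_self _ hspos.ne'
      have h2 := (h1.trans ha1m)
      have : m = (m - a1) + a1 := by ring
      rw [this] at hlm
      exact hlm (dvd_add h2 h0)
  obtain ⟨l2, hl2B, hl2p, e1, e2, e3⟩ := exists_prime_three (n1 := l ^ s) (n2 := 4) (n3 := K)
    (a1 := a1) (a2 := 3) (a3 := 2) (pow_pos hl.pos s).ne' (by norm_num) hKpos.ne' c12 c13 c23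
    ha1c (by norm_num) ((Nat.Prime.coprime_iff_not_dvd Nat.prime_two).2 hKodd)
    (N + q + l + m.natAbs + 2)
  -- consequences of the choice of `l2`
  have hl2N : ¬ l2 ∣ N := fun h => by
    have := Nat.le_of_dvd (Nat.pos_of_ne_zero hN) h; omega
  have hl2l : l2 ≠ l := by omega
  have hl2big : 3 ≤ l2 := by omega
  have hcong : (l : ℤ) ^ s ∣ (l2 : ℤ) - m := by
    have h1 : ((l ^ s : ℕ) : ℤ) ∣ (l2 : ℤ) - (a1 : ℤ) := (Nat.modEq_iff_dvd.1 e1.symm)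
    push_cast at h1
    have : (l2 : ℤ) - m = ((l2 : ℤ) - a1) - (m - a1) := by ring
    rw [this]
    exact dvd_sub h1 ha1m
  have hll2 : ¬ (l : ℤ) ∣ (l2 : ℤ) := by
    intro h
    have := (Nat.prime_dvd_prime_iff_eq hl hl2p).1 (Int.natCast_dvd_natCast.1 h)
    exact hl2l this.symm
  have hg : Nat.gcd o1 (l2 - 1) ∣ 2 := gcd_dvd_two e2 e3
  obtain ⟨j, t, hsj, hjt, ho2j⟩ := exists_exponent ho1 (by omega : 0 < l2 - 1) hg s
  -- coprimality facts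
  have hcopNm : IsCoprime ((N : ℤ) * m) (l : ℤ) :=
    IsCoprime.mul_left (isCoprime_of_prime_not_dvd hl hlNz) (isCoprime_of_prime_not_dvd hl hlm)
  have hcopNl2 : IsCoprime ((N : ℤ) * l2) (l : ℤ) :=
    IsCoprime.mul_left (isCoprime_of_prime_not_dvd hl hlNz) (isCoprime_of_prime_not_dvd hl hll2)
  -- Step 1: `s(N m, l^2) = s(N m, l^j)`
  have hEuler : ((N : ℤ) * m) ∣ (l : ℤ) ^ o1 - 1 := by
    have hc : Nat.Coprime l M₁ := by
      rw [Nat.Prime.coprime_iff_not_dvd hl]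
      intro h
      rcases (Nat.Prime.dvd_mul hl).1 h with h | h
      · exact hlNn h
      · exact hlm (Int.natCast_dvd.2 h)
    have h1 := Nat.ModEq.pow_totient hc
    have h2 : ((M₁ : ℕ) : ℤ) ∣ ((l ^ o1 : ℕ) : ℤ) - ((1 : ℕ) : ℤ) :=
      (Nat.modEq_iff_dvd.1 h1.symm)
    have h3 : ((N : ℤ) * m) ∣ ((M₁ : ℕ) : ℤ) := by
      rw [hM₁]; push_cast
      exact mul_dvd_mul_left _ ((dvd_abs m m).2 dvd_rfl)
    push_cast at h2
    exact h3.trans h2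
  have step1 : sym Φ (((N : ℤ) * m : ℤ) : ℚ) (((l : ℤ) ^ j : ℤ) : ℚ)
      = sym Φ (((N : ℤ) * m : ℤ) : ℚ) (((l : ℤ) ^ 2 : ℤ) : ℚ) := by
    refine sym_int_congr hΦ (Dvd.intro _ rfl) hcopNm.pow_right ?_
    rw [hjt]
    exact dvd_pow_sub_pow_of hEuler
  -- Step 2: `s(N l2, l^j) = s(N m, l^j)`
  have step2 := hs j hsj m l2 hlm hll2 hcong
  -- Step 3: `s(N l2, l^j) = 1`
  have hdvd3 : ((N : ℤ) * l2) ∣ (l : ℤ) ^ j - 1 := by
    have hjeven : 2 ∣ j := by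
      have : 2 ∣ l2 - 1 := by
        have : l2 % 4 = 3 := e2
        omega
      exact this.trans ho2j
    have hN1 : (N : ℤ) ∣ (l : ℤ) ^ j - 1 := by
      obtain ⟨j2, rfl⟩ := hjeven
      rw [pow_mul]
      have := sub_dvd_pow_sub_pow ((l : ℤ) ^ 2) 1 j2
      rw [one_pow] at this
      exact hlN.trans this
    have hl21 : (l2 : ℤ) ∣ (l : ℤ) ^ j - 1 := by
      have hc : Nat.Coprime l l2 := (Nat.coprime_primes hl hl2p).2 (Ne.symm hl2l)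
      have h1 := Nat.ModEq.pow_totient hc
      rw [Nat.totient_prime hl2p] at h1
      have h2 : ((l2 : ℕ) : ℤ) ∣ ((l ^ (l2 - 1) : ℕ) : ℤ) - ((1 : ℕ) : ℤ) :=
        (Nat.modEq_iff_dvd.1 h1.symm)
      push_cast at h2
      obtain ⟨k, rfl⟩ := ho2j
      rw [pow_mul]
      have := sub_dvd_pow_sub_pow ((l : ℤ) ^ (l2 - 1)) 1 k
      rw [one_pow] at this
      exact h2.trans this
    have hcop : IsCoprime (N : ℤ) (l2 : ℤ) := by
      refine (isCoprime_of_prime_not_dvd hl2p ?_)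
      intro h
      exact hl2N (Int.natCast_dvd_natCast.1 h)
    exact hcop.mul_dvd hN1 hl21
  have step3 : sym Φ (((N : ℤ) * l2 : ℤ) : ℚ) (((l : ℤ) ^ j : ℤ) : ℚ) = 1 := by
    have h := sym_int_congr (Φ := Φ) hΦ (c := (N : ℤ) * l2) (d := 1) (d' := (l : ℤ) ^ j)
      (Dvd.intro _ rfl) isCoprime_one_right hdvd3
    rw [h]
    have := sym_int_one (Φ := Φ) hΦ (c := (N : ℤ) * l2) (Dvd.intro _ rfl)
    simpa using this
  -- conclusion
  have e : sym Φ ((N : ℚ) * m) ((l : ℚ) ^ 2) = sym Φ ((N : ℚ) * (l2 : ℤ)) ((l : ℚ) ^ j) := by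
    rw [step2]
    push_cast at step1
    exact step1.symm
  rw [e]
  push_cast at step3
  exact step3

end Fermat.Agent.GM.CSP.SqPrime
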