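/-
GATE-M / S41-(C2) CSP, integration seat (helper74): ADAPTERS between the landed leaves of the
formalisation of helper25's elementary proof (board post 3748) and the frozen interfaces of
`GM/CSP/Stmts.lean`.

* `killsElem_of` : the two hypotheses of `CSPStmt` are `KillsElem Φ`;
* `conductorStmt'` : Lemma 1 (helper57) in the `Stmts` shape (re-export);
* `sqPrimeStmt` : Lemma 2 (helper17 `SqPrime.sym_sq_prime` + helper67 `CondHedge.cond_of_killsElem`)
  in the `Stmts.SqPrimeStmt` shape;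
* `sq_eq_one_imp` : `Multiplicative (ZMod p)` has no 2-torsion for `p` odd;
* `cspStmt_of_int_rows` : `CSPStmt N q A` from the vanishing of `symZ` on coprime integer rows
  `(N l, d)`, `d ≡ 1 mod N` (via helper33 `IntRow.map_eq_one_of_int_sym`).
NEW file; imports only.
-/
import Fermat.Agent.GM.CSP.Stmts
import Fermat.Agent.GM.CSP.IntRow
import Fermat.Agent.GM.CSP.SqPrime
import Fermat.Agent.GM.CSP.CondHedge
import Fermat.Agent.GM.CSP.ConductorThm
import Fermat.Agent.GM.Ihara.IharaAsm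

set_option autoImplicit false

namespace Fermat.Agent.GM.CSP.Adapters

open Fermat.Agent.GM.Amalgam Fermat.Agent.GM.CSP.Symbol Fermat.Agent.GM.CSP.Stmts

variable {N q : ℕ} [hq : Fact q.Prime] {A : Type*} [CommGroup A] {Φ : ↥(DeltaQ N q) →* A}

/-- the two hypotheses of `CSPStmt` are `KillsElem` -/
theorem killsElem_of
    (h1 : ∀ (t : ℚ) (ht : t ∈ Zq q), Φ ⟨upperQ t, upperQ_mem_DeltaQ ht⟩ = 1)
    (h2 : ∀ (t : ℚ) (ht : t ∈ NZq q N), Φ ⟨lowerQ t, lowerQ_mem_DeltaQ ht⟩ = 1) :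
    KillsElem Φ := ⟨h1, h2⟩

/-- Lemma 1 in the `Stmts` shape (helper57) -/
theorem conductorStmt' (hΦ : KillsElem Φ) : ConductorStmt Φ := Conductor.conductorStmt hΦ

/-- Lemma 2 in the `Stmts` shape -/
theorem sqPrimeStmt (hΦ : KillsElem Φ) (hN : N ≠ 0) : SqPrimeStmt Φ := by
  intro m l hm hl hl2 hlq hlNm hφ hN1
  have hlNq : ¬ l ∣ N * q := by
    intro h
    rcases (Nat.Prime.dvd_mul hl).1 h with h | h
    · exact hlNm (Dvd.dvd.mul_right (Int.natCast_dvd_natCast.2 h) m)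
    · exact hlq ((Nat.prime_dvd_prime_iff_eq hl hq.out).1 h)
  have hlm : ¬ (l : ℤ) ∣ m := fun h => hlNm (Dvd.dvd.mul_left h _)
  have hlφ : ¬ l ∣ Nat.totient (N * m.natAbs) := by
    intro h
    have := Nat.Coprime.eq_one_of_dvd hφ h
    exact hl.one_lt.ne' this
  have hlN : (N : ℤ) ∣ (l : ℤ) ^ 2 - 1 := by
    have := (Nat.modEq_iff_dvd.1 hN1.symm)
    push_cast at this
    exact this
  have := SqPrime.sym_sq_prime hΦ hN (CondHedge.cond_of_killsElem hΦ) m hm l hl hl2 hlNq hlm hlφ hlN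
  rw [symZ_def]
  push_cast
  exact this

/-- `Multiplicative (ZMod p)` has no `2`-torsion for odd `p` -/
theorem sq_eq_one_imp {p : ℕ} (hp : p.Prime) (hp2 : p ≠ 2) (a : Multiplicative (ZMod p))
    (h : a ^ 2 = 1) : a = 1 := by
  have : Fact p.Prime := ⟨hp⟩
  have h' : (2 : ℕ) • (Multiplicative.toAdd a) = 0 := by
    have := congrArg Multiplicative.toAdd h
    simpa using this
  have h2 : ((2 : ℕ) : ZMod p) ≠ 0 := by
    intro h0
    have := (ZMod.natCast_eq_zero_iff 2 p).1 h0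
    exact hp2 ((Nat.prime_dvd_prime_iff_eq hp Nat.prime_two).1 this)
  rw [nsmul_eq_mul] at h'
  have : Multiplicative.toAdd a = 0 := (mul_eq_zero.1 h').resolve_left h2
  exact Multiplicative.toAdd.injective (by simpa using this)

/-- `CSPStmt` from the vanishing of the symbol on coprime integer rows -/
theorem cspStmt_of_int_rows (hqN : ¬ q ∣ N)
    (h : ∀ Φ : ↥(DeltaQ N q) →* A, KillsElem Φ → ∀ l d : ℤ, l ≠ 0 →
      IsCoprime ((N : ℤ) * l) d → (N : ℤ) ∣ d - 1 → symZ Φ ((N : ℤ) * l) d = 1) :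
    Fermat.Agent.GM.Ihara.CSPStmt N q A := by
  intro Φ h1 h2 x hx
  have hΦ : KillsElem Φ := killsElem_of h1 h2
  exact IntRow.map_eq_one_of_int_sym hΦ hqN (fun l d hl hcop hd => h Φ hΦ l d hl hcop hd) x hx

end Fermat.Agent.GM.CSP.Adapters
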