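import Fermat.Agent.GM.CSP.FinalHyp
import Fermat.Agent.GM.Ihara.IharaAsm

/-!
# GATE-M / S41-(C2) CSP (helper55): `CSPStmt N q (Multiplicative (ZMod p))`, `p` odd, from
`SqVanish` (= Lemma 3 of board 3748) — the plug for helper98's `GM/Ihara/IharaAsm.CSPStmt`
-/

set_option autoImplicit false

namespace Fermat.Agent.GM.CSP.FinalHyp

open Matrix Matrix.SpecialLinearGroup
open scoped MatrixGroups
open Fermat.Agent.GM.Amalgam Fermat.Agent.GM.CSP.Symbol Fermat.Agent.GM.Ihara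

/-- `Multiplicative (ZMod p)` has no `2`-torsion for odd `p` -/
theorem eq_one_of_sq_eq_one_zmod {p : ℕ} (hp : Odd p) (a : Multiplicative (ZMod p))
    (ha : a ^ 2 = 1) : a = 1 := by
  have h1 : (2 : ZMod p) * Multiplicative.toAdd a = 0 := by
    have := congrArg Multiplicative.toAdd ha
    rw [toAdd_pow, toAdd_one, nsmul_eq_mul] at this
    exact_mod_cast this
  have hu : IsUnit (2 : ZMod p) := by
    have := (ZMod.unitOfCoprime 2 (Nat.coprime_two_left.mpr hp)).isUnit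
    rwa [ZMod.coe_unitOfCoprime] at this
  have h2 : Multiplicative.toAdd a = 0 := (hu.mul_right_eq_zero).mp h1
  exact Multiplicative.toAdd.injective h2

/-- **`CSPStmt` from `SqVanish`** -/
theorem cspStmt_of_sqVanish {N q p : ℕ} [hq : Fact q.Prime] (hN : N ≠ 0) (hqN : ¬ q ∣ N)
    (hp : Odd p)
    (hSQ : ∀ Φ : ↥(DeltaQ N q) →* Multiplicative (ZMod p), KillsElem Φ → SqVanish Φ) :
    CSPStmt N q (Multiplicative (ZMod p)) := by
  intro Φ hup hlow h hh
  have hΦ : KillsElem Φ := ⟨hup, hlow⟩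
  exact map_eq_one_of_sqVanish hΦ hN hqN (hSQ Φ hΦ) (eq_one_of_sq_eq_one_zmod hp) h hh

end Fermat.Agent.GM.CSP.FinalHyp
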