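/-
GATE-M / S41-(C2) CSP, Lemma 1 + Lemma 2 of the CSP proof (board 3748) in the FROZEN shapes of
helper95 `GM/CSP/Stmts.lean` (helper25):

* `conductorStmt : KillsElem Φ → ConductorStmt Φ`   (Lemma 1; = helper67 `cond_of_killsElem`
  re-packaged, `1 ≤ s` by taking `max s 1`);
* `sqPrimeStmt  : KillsElem Φ → 0 < N → SqPrimeStmt Φ`   (Lemma 2 (SQ), with the `φ(N|m|)` fix);
* `sqRowStmt_of_sqPrimeStmt : KillsElem Φ → 0 < N → SqPrimeStmt Φ → SqRowStmt Φ` and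
  `sqRowStmt : KillsElem Φ → 0 < N → SqRowStmt Φ`   (Lemma 3 (SQ'), one Dirichlet + (R1)).

Proof of Lemma 2: `F(j) := s(N m, l^j)` has period `P₁ = φ(N|m|)` in `j` (R1 + Euler); choose
(Dirichlet, helper26 `exists_prime_gcd_pred_dvd_two`) a prime `l₂ ≡ m mod l^s`, `l₂ ≡ 3 mod 4`,
`gcd(l₂ - 1, P₁) ∣ 2`; `s(N l₂, l^j)` has period `P₂ = l₂ - 1` (Fermat + `l² ≡ 1 mod N`); pick
`j' ≥ s`, `j' ≡ 2 mod P₁`, `P₂ ∣ j'` (`Nat.chineseRemainder'`); then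
`s(N m, l²) = s(N m, l^j') = s(N l₂, l^j') = s(N l₂, 1) = 1`.
-/
import Fermat.Agent.GM.CSP.Stmts
import Fermat.Agent.GM.CSP.CondHedge
import Fermat.Agent.GM.CSP.DirichletCRT

set_option autoImplicit false

namespace Fermat.Agent.GM.CSP.CondSq

open Fermat.Agent.GM.Amalgam Fermat.Agent.GM.CSP.Symbol Fermat.Agent.GM.CSP.Stmts
open Fermat.Agent.GM.CSP.CondHedge Fermat.Agent.GM.CSP.DirichletCRT

variable {N q : ℕ} [hq : Fact q.Prime] {A : Type*} [CommGroup A] {Φ : ↥(DeltaQ N q) →* A}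

/-! ### Lemma 1 in the frozen shape -/

theorem not_dvd_mul_of_prime {l : ℕ} (hl : l.Prime) (hlq : l ≠ q) (hlN : ¬ l ∣ N) :
    ¬ l ∣ N * q := by
  intro h
  rcases (Nat.Prime.dvd_mul hl).1 h with h | h
  · exact hlN h
  · exact hlq ((Nat.prime_dvd_prime_iff_eq hl hq.out).1 h)

theorem not_dvd_of_modEq {l s : ℕ} (hs : 1 ≤ s) {x x' : ℤ} (hx : ¬ (l : ℤ) ∣ x)
    (h : (l : ℤ) ^ s ∣ x' - x) : ¬ (l : ℤ) ∣ x' := by
  intro hx'
  apply hx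
  have h1 : (l : ℤ) ∣ x' - x := dvd_trans (dvd_pow_self _ (by omega)) h
  have := dvd_sub hx' h1
  simpa using this

/-- Lemma 1, `symZ` form with an explicit exponent `s ≥ 1` -/
theorem exists_conductor (hΦ : KillsElem Φ) {l : ℕ} (hl : l.Prime) (hl2 : l ≠ 2) (hlq : l ≠ q)
    (hlN : ¬ l ∣ N) :
    ∃ s : ℕ, 1 ≤ s ∧ ∀ j : ℕ, s ≤ j → ∀ x x' : ℤ, ¬ (l : ℤ) ∣ x → (l : ℤ) ^ s ∣ x' - x →
      symZ Φ ((N : ℤ) * x') ((l : ℤ) ^ j) = symZ Φ ((N : ℤ) * x) ((l : ℤ) ^ j) := by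
  obtain ⟨s, h⟩ := cond_of_killsElem hΦ l hl hl2 (not_dvd_mul_of_prime hl hlq hlN)
  refine ⟨max s 1, le_max_right _ _, fun j hj x x' hx hxx => ?_⟩
  have hs1 : 1 ≤ max s 1 := le_max_right _ _
  have hx' : ¬ (l : ℤ) ∣ x' := not_dvd_of_modEq hs1 hx hxx
  have hsj : s ≤ j := le_trans (le_max_left _ _) hj
  have hd : (l : ℤ) ^ s ∣ x' - x := dvd_trans (pow_dvd_pow _ (le_max_left _ _)) hxx
  have := h j hsj x x' hx hx' hd
  unfold symZ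
  push_cast
  exact this

/-- **Lemma 1** in the frozen shape -/
theorem conductorStmt (hΦ : KillsElem Φ) : ConductorStmt Φ := by
  intro l hl hl2 hlq hlN
  obtain ⟨s, hs1, h⟩ := exists_conductor hΦ hl hl2 hlq hlN
  exact ⟨s, hs1, fun j hj x x' hx hxx => h j hj x x' hx (Int.modEq_iff_dvd.mp hxx.symm)⟩

/-! ### number-theoretic glue for Lemma 2 -/

/-- an exponent `j ≥ s`, `j ≡ 2 mod P₁`, `P₂ ∣ j` when `gcd(P₂, P₁) ∣ 2` -/
theorem exists_exponent_two {P₁ P₂ : ℕ} (h₁ : 0 < P₁) (h₂ : 0 < P₂) (hg : Nat.gcd P₂ P₁ ∣ 2)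
    (s : ℕ) : ∃ t u : ℕ, 2 + P₁ * t = P₂ * u ∧ s ≤ 2 + P₁ * t := by
  have hmod : 2 ≡ 0 [MOD Nat.gcd P₁ P₂] := by
    rw [Nat.gcd_comm]
    exact (Nat.modEq_zero_iff_dvd.2 hg)
  obtain ⟨k, hk1, hk2⟩ := Nat.chineseRemainder' hmod
  -- `k + P₁ P₂ (s + 2) ≥ 2`, `≡ 2 mod P₁`, `≡ 0 mod P₂`
  set j := k + P₁ * P₂ * (s + 2) with hj
  have hj1 : j ≡ 2 [MOD P₁] := by
    have : P₁ * P₂ * (s + 2) ≡ 0 [MOD P₁] :=
      Nat.modEq_zero_iff_dvd.2 ⟨P₂ * (s + 2), by ring⟩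
    simpa using hk1.add this
  have hj2 : j ≡ 0 [MOD P₂] := by
    have : P₁ * P₂ * (s + 2) ≡ 0 [MOD P₂] :=
      Nat.modEq_zero_iff_dvd.2 ⟨P₁ * (s + 2), by ring⟩
    simpa using hk2.add this
  have hjge : s + 2 ≤ j := by
    have : 1 ≤ P₁ * P₂ := Nat.mul_pos h₁ h₂
    calc s + 2 = 1 * (s + 2) := (one_mul _).symm
      _ ≤ P₁ * P₂ * (s + 2) := Nat.mul_le_mul_right _ this
      _ ≤ j := Nat.le_add_left _ _
  obtain ⟨t, ht⟩ := (Nat.modEq_iff_dvd' (by omega : 2 ≤ j)).1 hj1.symm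
  obtain ⟨u, hu⟩ := (Nat.modEq_zero_iff_dvd.1 hj2)
  refine ⟨t, u, ?_, ?_⟩
  · omega
  · omega

/-- `(N : ℤ) * m` divides what `N * m.natAbs` divides -/
theorem mul_dvd_of_natAbs {N : ℕ} {m z : ℤ} (h : ((N * m.natAbs : ℕ) : ℤ) ∣ z) :
    (N : ℤ) * m ∣ z := by
  have e : (N : ℤ) * m ∣ ((N * m.natAbs : ℕ) : ℤ) := by
    push_cast
    exact mul_dvd_mul_left _ ((dvd_abs m m).2 dvd_rfl)
  exact e.trans h

/-- `l ^ (2 + P t) ≡ l ^ 2 mod n` when `l ^ P ≡ 1 mod n` -/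
theorem pow_modEq_of_period {l P n : ℕ} (h : l ^ P ≡ 1 [MOD n]) (t : ℕ) :
    l ^ (2 + P * t) ≡ l ^ 2 [MOD n] := by
  rw [pow_add, pow_mul]
  have := (h.pow t).mul_left (l ^ 2)
  simpa using this

theorem pow_modEq_one_of_period {l P n : ℕ} (h : l ^ P ≡ 1 [MOD n]) (u : ℕ) :
    l ^ (P * u) ≡ 1 [MOD n] := by
  rw [pow_mul]
  simpa using h.pow u

/-! ### Lemma 2 (SQ) -/

/-- **Lemma 2 (SQ)** in the frozen shape -/
theorem sqPrimeStmt (hΦ : KillsElem Φ) (hN : 0 < N) : SqPrimeStmt Φ := by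
  intro m l hm hl hl2 hlq hlNm hlφ hl2N
  have hlZ : Prime (l : ℤ) := Nat.prime_iff_prime_int.1 hl
  have hlN : ¬ l ∣ N := fun h => hlNm (Dvd.dvd.mul_right (Int.natCast_dvd_natCast.2 h) m)
  have hlm : ¬ (l : ℤ) ∣ m := fun h => hlNm (Dvd.dvd.mul_left h _)
  -- Lemma 1
  obtain ⟨s, hs1, hcond⟩ := exists_conductor hΦ hl hl2 hlq hlN
  -- the modulus `n = N |m|` and the first period `P₁ = φ(n)`
  set n : ℕ := N * m.natAbs with hn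
  have hn0 : n ≠ 0 := Nat.mul_ne_zero hN.ne' (Int.natAbs_ne_zero.2 hm)
  set P₁ : ℕ := Nat.totient n with hP₁
  have hP₁0 : 0 < P₁ := Nat.totient_pos.2 (Nat.pos_of_ne_zero hn0)
  have hln : Nat.Coprime l n := by
    rw [Nat.Prime.coprime_iff_not_dvd hl, hn]
    intro h
    apply hlNm
    have h2 : ((l : ℕ) : ℤ) ∣ ((N * m.natAbs : ℕ) : ℤ) := Int.natCast_dvd_natCast.2 h
    push_cast at h2
    rcases hlZ.dvd_or_dvd h2 with h3 | h3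
    · exact Dvd.dvd.mul_right h3 m
    · exact Dvd.dvd.mul_left ((dvd_abs _ _).1 h3) _
  have hper1 : l ^ P₁ ≡ 1 [MOD n] := Nat.ModEq.pow_totient hln
  -- the auxiliary prime `l₂`
  have hM0 : l ^ s ≠ 0 := pow_ne_zero _ hl.ne_zero
  have hM2 : (l ^ s).Coprime 2 := by
    apply Nat.Coprime.pow_left
    rw [Nat.Prime.coprime_iff_not_dvd hl]
    intro h
    exact hl2 ((Nat.prime_dvd_prime_iff_eq hl Nat.prime_two).1 h)
  have hME : (l ^ s).Coprime P₁ := Nat.Coprime.pow_left s hlφ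
  -- a natural representative of `m` modulo `l ^ s`
  obtain ⟨x, hx⟩ : ∃ x : ℕ, ((l : ℤ) ^ s) ∣ (x : ℤ) - m := by
    refine ⟨(m % ((l : ℤ) ^ s)).toNat, ?_⟩
    have hpos : (0 : ℤ) < (l : ℤ) ^ s := pow_pos (by exact_mod_cast hl.pos) s
    have h0 : 0 ≤ m % ((l : ℤ) ^ s) := Int.emod_nonneg _ hpos.ne'
    rw [Int.toNat_of_nonneg h0]
    exact (Int.modEq_iff_dvd.1 (Int.mod_modEq m _).symm)
  have hxl : ¬ (l : ℤ) ∣ (x : ℤ) := not_dvd_of_modEq hs1 hlm hx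
  have hxM : x.Coprime (l ^ s) := by
    apply Nat.Coprime.pow_right
    rw [Nat.coprime_comm, Nat.Prime.coprime_iff_not_dvd hl]
    intro h
    exact hxl (Int.natCast_dvd_natCast.2 h)
  obtain ⟨l₂, hl₂gt, hl₂, hl₂x, hl₂4, hl₂g⟩ :=
    exists_prime_gcd_pred_dvd_two (E := P₁) (M := l ^ s) (x := x) hP₁0.ne' hM0 hM2 hME hxM
      (max l N)
  have hl₂l : l < l₂ := lt_of_le_of_lt (le_max_left _ _) hl₂gt
  have hl₂N : N < l₂ := lt_of_le_of_lt (le_max_right _ _) hl₂gt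
  -- `l₂ ≡ m mod l^s`
  have hl₂m : (l : ℤ) ^ s ∣ (l₂ : ℤ) - m := by
    have h1 : ((l ^ s : ℕ) : ℤ) ∣ (l₂ : ℤ) - (x : ℤ) :=
      (Int.modEq_iff_dvd.1 (Int.natCast_modEq_iff.2 hl₂x).symm)
    push_cast at h1
    have : (l₂ : ℤ) - m = ((l₂ : ℤ) - x) + ((x : ℤ) - m) := by ring
    rw [this]
    exact dvd_add h1 hx
  -- the second period `P₂ = l₂ - 1`
  have hl₂odd : Odd l₂ := by
    rcases hl₂.eq_two_or_odd' with h | h
    · exfalso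
      rw [h] at hl₂4
      have : (2 : ℕ) % 4 = 3 % 4 := hl₂4
      omega
    · exact h
  set P₂ : ℕ := l₂ - 1 with hP₂
  have hP₂0 : 0 < P₂ := by have := hl₂.two_le; omega
  have hP₂even : Even P₂ := by
    obtain ⟨k, hk⟩ := hl₂odd
    exact ⟨k, by omega⟩
  have hll₂ : Nat.Coprime l l₂ := (Nat.coprime_primes hl hl₂).2 hl₂l.ne
  have hNl₂ : Nat.Coprime N l₂ := by
    rw [Nat.coprime_comm, Nat.Prime.coprime_iff_not_dvd hl₂]
    intro h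
    exact absurd (Nat.le_of_dvd hN h) (not_le.2 hl₂N)
  have hper2 : l ^ P₂ ≡ 1 [MOD N * l₂] := by
    rw [← Nat.modEq_and_modEq_iff_modEq_mul hNl₂]
    constructor
    · obtain ⟨k, hk⟩ := hP₂even
      have e : P₂ = 2 * k := by omega
      rw [e, pow_mul]
      simpa using hl2N.pow k
    · have := Nat.ModEq.pow_totient hll₂
      rwa [Nat.totient_prime hl₂] at this
  -- the exponent
  obtain ⟨t, u, htu, hsj⟩ := exists_exponent_two hP₁0 hP₂0 hl₂g s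
  set j : ℕ := 2 + P₁ * t with hj
  -- rows
  have hNm : (N : ℤ) ∣ (N : ℤ) * m := Dvd.intro _ rfl
  have hNl₂' : (N : ℤ) ∣ (N : ℤ) * (l₂ : ℤ) := Dvd.intro _ rfl
  have hcopNl : IsCoprime ((N : ℤ) * m) (l : ℤ) := (hlZ.coprime_iff_not_dvd.2 hlNm).symm
  have hcop2 : IsCoprime ((N : ℤ) * m) ((l : ℤ) ^ 2) := hcopNl.pow_right
  -- (a) `s(N m, l^j) = s(N m, l^2)`
  have ha : symZ Φ ((N : ℤ) * m) ((l : ℤ) ^ j) = symZ Φ ((N : ℤ) * m) ((l : ℤ) ^ 2) := by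
    apply symZ_modEq_right hΦ hNm hcop2
    have h1 : l ^ j ≡ l ^ 2 [MOD n] := pow_modEq_of_period hper1 t
    have h2 : ((n : ℕ) : ℤ) ∣ ((l ^ j : ℕ) : ℤ) - ((l ^ 2 : ℕ) : ℤ) :=
      (Int.modEq_iff_dvd.1 (Int.natCast_modEq_iff.2 h1).symm)
    have h3 : (N : ℤ) * m ∣ ((l ^ j : ℕ) : ℤ) - ((l ^ 2 : ℕ) : ℤ) := mul_dvd_of_natAbs h2
    push_cast at h3
    exact (Int.modEq_iff_dvd.2 h3).symm
  -- (b) Lemma 1: `s(N l₂, l^j) = s(N m, l^j)`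
  have hb : symZ Φ ((N : ℤ) * (l₂ : ℤ)) ((l : ℤ) ^ j) = symZ Φ ((N : ℤ) * m) ((l : ℤ) ^ j) :=
    hcond j hsj m (l₂ : ℤ) hlm hl₂m
  -- (c) `s(N l₂, l^j) = s(N l₂, 1)`
  have hc : symZ Φ ((N : ℤ) * (l₂ : ℤ)) ((l : ℤ) ^ j) = symZ Φ ((N : ℤ) * (l₂ : ℤ)) 1 := by
    apply symZ_modEq_right hΦ hNl₂' isCoprime_one_right
    have h1 : l ^ j ≡ 1 [MOD N * l₂] := by
      rw [htu]
      exact pow_modEq_one_of_period hper2 u
    have h2 : ((N * l₂ : ℕ) : ℤ) ∣ ((l ^ j : ℕ) : ℤ) - ((1 : ℕ) : ℤ) :=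
      (Int.modEq_iff_dvd.1 (Int.natCast_modEq_iff.2 h1).symm)
    push_cast at h2
    exact (Int.modEq_iff_dvd.2 h2).symm
  rw [← ha, ← hb, hc, symZ_one hΦ hNl₂']

/-! ### Lemma 3 (SQ') -/

/-- Dirichlet, one modulus, integer residue -/
theorem exists_prime_gt_zmodEq {n : ℕ} (hn : n ≠ 0) {e : ℤ} (he : IsCoprime e (n : ℤ)) (B : ℕ) :
    ∃ p > B, p.Prime ∧ (p : ℤ) ≡ e [ZMOD (n : ℤ)] := by
  have hcompat : e ≡ 1 [ZMOD ((Nat.gcd n 1 : ℕ) : ℤ)] := by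
    rw [Nat.gcd_one_right]
    exact Int.modEq_one
  obtain ⟨p, hpB, hp, h1, _⟩ :=
    exists_prime_gt_zmodEq_two (m₁ := n) (m₂ := 1) hn one_ne_zero hcompat he
      (by simpa using isCoprime_one_left) B
  exact ⟨p, hpB, hp, h1⟩

/-- **Lemma 3 (SQ')** in the frozen shape, from Lemma 2 -/
theorem sqRowStmt_of_sqPrimeStmt (hΦ : KillsElem Φ) (hN : 0 < N) (h2 : SqPrimeStmt Φ) :
    SqRowStmt Φ := by
  intro m D e hm hcop hD1 hDe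
  set n : ℕ := N * m.natAbs with hn
  have hn0 : n ≠ 0 := Nat.mul_ne_zero hN.ne' (Int.natAbs_ne_zero.2 hm)
  have hnpos : 0 < n := Nat.pos_of_ne_zero hn0
  have hNm : (N : ℤ) ∣ (N : ℤ) * m := Dvd.intro _ rfl
  have hdvdn : (N : ℤ) * m ∣ ((n : ℕ) : ℤ) := mul_dvd_of_natAbs (dvd_refl _)
  -- `e` is prime to `N m`, hence to `n = N |m|`
  have hecop2 : IsCoprime ((N : ℤ) * m) (e ^ 2) := isCoprime_of_modEq_right hcop hDe.symm
  have hecop : IsCoprime ((N : ℤ) * m) e := (IsCoprime.pow_right_iff (by norm_num)).1 hecop2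
  have hen : IsCoprime e ((n : ℕ) : ℤ) := by
    have e1 : ((n : ℕ) : ℤ) = (N : ℤ) * |m| := by
      rw [hn]; push_cast; rfl
    rw [e1]
    rcases abs_choice m with h | h
    · rw [h]; exact hecop.symm
    · rw [h, mul_neg]; exact hecop.symm.neg_right
  -- Dirichlet
  obtain ⟨l, hlB, hl, hle⟩ :=
    exists_prime_gt_zmodEq hn0 hen (max (max 2 q) (max n (Nat.totient n)))
  have hl2' : 2 < l := lt_of_le_of_lt (le_trans (le_max_left _ _) (le_max_left _ _)) hlB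
  have hlq' : q < l := lt_of_le_of_lt (le_trans (le_max_right _ _) (le_max_left _ _)) hlB
  have hln' : n < l := lt_of_le_of_lt (le_trans (le_max_left _ _) (le_max_right _ _)) hlB
  have hlφ' : Nat.totient n < l :=
    lt_of_le_of_lt (le_trans (le_max_right _ _) (le_max_right _ _)) hlB
  have hlNm : ¬ (l : ℤ) ∣ (N : ℤ) * m := by
    intro h
    have h1 : (l : ℤ) ∣ ((n : ℕ) : ℤ) := h.trans hdvdn
    have h2' : l ∣ n := Int.natCast_dvd_natCast.1 h1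
    exact absurd (Nat.le_of_dvd hnpos h2') (not_le.2 hln')
  have hlφ : Nat.Coprime l (Nat.totient (N * m.natAbs)) := by
    rw [Nat.Prime.coprime_iff_not_dvd hl]
    intro h
    exact absurd (Nat.le_of_dvd (Nat.totient_pos.2 hnpos) h) (not_le.2 hlφ')
  -- `l ≡ e mod N m`
  have hle' : (l : ℤ) ≡ e [ZMOD (N : ℤ) * m] := hle.of_dvd hdvdn
  have hl2D : (l : ℤ) ^ 2 ≡ D [ZMOD (N : ℤ) * m] := (hle'.pow 2).trans hDe.symm
  have hl2N : l ^ 2 ≡ 1 [MOD N] := by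
    have h1 : (l : ℤ) ^ 2 ≡ 1 [ZMOD (N : ℤ)] := (hl2D.of_dvd hNm).trans hD1
    have h3 : ((l ^ 2 : ℕ) : ℤ) ≡ ((1 : ℕ) : ℤ) [ZMOD ((N : ℕ) : ℤ)] := by
      push_cast; exact h1
    exact Int.natCast_modEq_iff.1 h3
  have hsym : symZ Φ ((N : ℤ) * m) ((l : ℤ) ^ 2) = symZ Φ ((N : ℤ) * m) D :=
    symZ_modEq_right hΦ hNm hcop hl2D
  rw [← hsym]
  exact h2 m l hm hl (by omega) (by omega) hlNm hlφ hl2N

/-- **Lemma 3 (SQ')** in the frozen shape, unconditional -/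
theorem sqRowStmt (hΦ : KillsElem Φ) (hN : 0 < N) : SqRowStmt Φ :=
  sqRowStmt_of_sqPrimeStmt hΦ hN (sqPrimeStmt hΦ hN)

end Fermat.Agent.GM.CSP.CondSq
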