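import Fermat.Agent.GM.CSP.Symbol

/-!
# GATE-M / S41-(C2) CSP, part CONDUCTOR (helper57): Lemma 1 of helper25's proof (board 3748)

`A = ℤ[1/q]`, `Φ : Γ0(N)[1/q] → V` killing the elementary matrices, `s = sym Φ` (helper33).
For a prime `l ∤ N` and `s₀` such that every integer `≡ 1 mod l^s₀` is, modulo every `l^j`
(`j ≥ s₀`), a power of `w = q^(2(l-1))` (**Lemma 0**, here the binder `LiftHyp`):

  `s(N x', l^j) = s(N x, l^j)` whenever `j ≥ s₀`, `l ∤ x x'`, `x' ≡ x mod l^s₀`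

(**Lemma 1**, the *conductor lemma*, in helper4's `CondHyp` shape). Proof: `x' ≡ x w^k mod l^j`,
so `N x' = u² (N x) + (N y) l^j` with the unit `u = q^((l-1)k)`; (R3) `sym_sq` then (R2)
`sym_add_mul_left`.
-/

set_option autoImplicit false

namespace Fermat.Agent.GM.CSP.Conductor

open Fermat.Agent.GM.Amalgam Fermat.Agent.GM.CSP.Symbol

/-- **Lemma 0 as a binder**: every integer `x ≡ 1 mod l^s` is, modulo `l^j` (`j ≥ s`), a power of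
`w = q^(2(l-1))`. -/
def LiftHyp (q l s : ℕ) : Prop :=
  ∀ (j : ℕ) (x : ℤ), s ≤ j → ((l : ℤ) ^ s ∣ x - 1) →
    ∃ k : ℕ, (l : ℤ) ^ j ∣ x - ((q : ℤ) ^ (2 * (l - 1))) ^ k

variable {N q : ℕ} [hq : Fact q.Prime] {A : Type*} [CommGroup A]

/-- **Lemma 1 as a statement** (helper4's `CondHyp`, board 3761, verbatim): for `j ≥ s` the symbol
`s(N x, l^j)` depends only on `x mod l^s` (`l ∤ x`). -/
def CondHyp (Φ : ↥(DeltaQ N q) →* A) (l s : ℕ) : Prop :=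
  ∀ (j : ℕ) (x x' : ℤ), s ≤ j → ¬ ((l : ℤ) ∣ x) → ¬ ((l : ℤ) ∣ x') → (l : ℤ) ^ s ∣ x' - x →
    sym Φ ((N : ℚ) * x') ((l : ℚ) ^ j) = sym Φ ((N : ℚ) * x) ((l : ℚ) ^ j)

/-- `(N x, l^j)` is a bottom row of `Γ0(N)[1/q]` when `l ∤ N x`. -/
theorem isRow_mul_pow {l : ℕ} (hl : l.Prime) (hlN : ¬ l ∣ N) (j : ℕ) {x : ℤ}
    (hx : ¬ ((l : ℤ) ∣ x)) : IsRow N q ((N : ℚ) * x) ((l : ℚ) ^ j) := by
  have hp : Prime (l : ℤ) := Nat.prime_iff_prime_int.mp hl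
  have hNx : ¬ ((l : ℤ) ∣ (N : ℤ) * x) := by
    intro h
    rcases hp.dvd_or_dvd h with h | h
    · exact hlN (Int.natCast_dvd_natCast.mp h)
    · exact hx h
  have hcop : IsCoprime ((l : ℤ) ^ j) ((N : ℤ) * x) :=
    ((Irreducible.coprime_iff_not_dvd hp.irreducible).2 hNx).pow_left
  obtain ⟨a, b, hab⟩ := hcop
  rw [isRow_iff]
  refine ⟨⟨(x : ℚ), intCast_mem_Zq q x, rfl⟩, ?_, (a : ℚ), intCast_mem_Zq q a, (-b : ℚ), ?_, ?_⟩
  · have : ((l : ℚ) ^ j) = (((l : ℤ) ^ j : ℤ) : ℚ) := by push_cast; rfl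
    rw [this]; exact intCast_mem_Zq q _
  · exact (Zq q).neg_mem (intCast_mem_Zq q b)
  · have h : ((a * (l : ℤ) ^ j + b * ((N : ℤ) * x) : ℤ) : ℚ) = 1 := by rw [hab]; simp
    push_cast at h
    linarith

/-- **Lemma 1 (conductor lemma)** of helper25's proof, from Lemma 0 as a binder. -/
theorem condHyp_of_lift {Φ : ↥(DeltaQ N q) →* A} (hΦ : KillsElem Φ) {l s : ℕ} (hl : l.Prime)
    (hlN : ¬ l ∣ N) (hlift : LiftHyp q l s) : CondHyp Φ l s := by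
  intro j x x' hsj hx hx' hxx'
  have hp : Prime (l : ℤ) := Nat.prime_iff_prime_int.mp hl
  -- an inverse of `x` modulo `l^j`
  have hcop : IsCoprime x ((l : ℤ) ^ j) :=
    (((Irreducible.coprime_iff_not_dvd hp.irreducible).2 hx).pow_left).symm
  obtain ⟨xb, b, hxb⟩ := hcop
  -- `hxb : xb * x + b * l^j = 1`
  have hinv : (l : ℤ) ^ j ∣ x * xb - 1 := ⟨-b, by linear_combination hxb⟩
  have hsdvd : (l : ℤ) ^ s ∣ (l : ℤ) ^ j := pow_dvd_pow _ hsj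
  -- `z = x' * xb ≡ 1 mod l^s`
  have hz : (l : ℤ) ^ s ∣ x' * xb - 1 := by
    have e : x' * xb - 1 = (x' - x) * xb + (x * xb - 1) := by ring
    rw [e]
    exact dvd_add (Dvd.dvd.mul_right hxx' _) (hsdvd.trans hinv)
  obtain ⟨k, hk⟩ := hlift j (x' * xb) hsj hz
  -- `x' ≡ x w^k mod l^j`
  have hcong : (l : ℤ) ^ j ∣ x' - x * ((q : ℤ) ^ (2 * (l - 1))) ^ k := by
    have e : x' - x * ((q : ℤ) ^ (2 * (l - 1))) ^ k =
        x * (x' * xb - ((q : ℤ) ^ (2 * (l - 1))) ^ k) - x' * (x * xb - 1) := by ring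
    rw [e]
    exact dvd_sub (Dvd.dvd.mul_left hk _) (Dvd.dvd.mul_left hinv _)
  obtain ⟨y, hy⟩ := hcong
  -- the unit `u = q^((l-1)k)`
  have hu : IsUnitZq q ((q : ℚ) ^ ((l - 1) * k)) := (isUnitZq_q (q := q)).pow _
  have hr : IsRow N q ((N : ℚ) * x) ((l : ℚ) ^ j) := isRow_mul_pow hl hlN j hx
  obtain ⟨hr1, e1⟩ := sym_sq (Φ := Φ) hΦ hr hu
  have hNy : (N : ℚ) * y ∈ NZq q N := ⟨(y : ℚ), intCast_mem_Zq q y, rfl⟩
  obtain ⟨-, e2⟩ := sym_add_mul_left (Φ := Φ) hΦ hr1 hNy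
  have key : (N : ℚ) * x' =
      ((q : ℚ) ^ ((l - 1) * k)) ^ 2 * ((N : ℚ) * x) + (N : ℚ) * y * (l : ℚ) ^ j := by
    have h : ((x' - x * ((q : ℤ) ^ (2 * (l - 1))) ^ k : ℤ) : ℚ) = (((l : ℤ) ^ j * y : ℤ) : ℚ) := by
      rw [hy]
    push_cast at h
    have hw : ((q : ℚ) ^ ((l - 1) * k)) ^ 2 = ((q : ℚ) ^ (2 * (l - 1))) ^ k := by
      rw [← pow_mul, ← pow_mul]; congr 1; ring
    rw [hw]
    linear_combination (N : ℚ) * h
  rw [key, e2, e1]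

end Fermat.Agent.GM.CSP.Conductor
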