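import Mathlib

/-!
# GATE-M / S41-(C2) CSP, part ARITH (helper55): the integral "doubling datum"

Pure integer arithmetic behind the last step of helper25's elementary proof of the abelian
congruence subgroup property of `Γ0(N)[1/q]` (board 3748): for an integral bottom row
`(N l, d)` with `d ≡ 1 mod 8`, `d ≡ 1 mod N`, `l` a prime with `l ∤ d`, `l ∤ d² + 1`, there is an
integral matrix `(a b; N l, d)` of determinant one whose trace is `2 τ` and such that the lower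
right entry `D = 2 τ d - 1` of its square is a square modulo its lower left entry `2 τ N l`.
(`τ` is a prime `≡ 1 mod 4`, found by Dirichlet's theorem; `b ≡ 0 mod 8`.)
-/

set_option autoImplicit false

namespace Fermat.Agent.GM.CSP.Doubling

/-- `8 ∣ l² - 1` for odd `l` -/
theorem eight_dvd_sq_sub_one {l : ℤ} (hl : Odd l) : (8 : ℤ) ∣ l ^ 2 - 1 := by
  obtain ⟨j, rfl⟩ := hl
  obtain ⟨k, hk⟩ := (Int.even_mul_succ_self j).two_dvd
  exact ⟨k, by linear_combination 4 * hk⟩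

/-- `-1` is a square modulo a prime `p ≡ 1 mod 4`, integer form -/
theorem exists_sq_add_one {p : ℕ} (hp : p.Prime) (h4 : p % 4 = 1) :
    ∃ i : ℤ, (p : ℤ) ∣ i ^ 2 + 1 := by
  have : Fact p.Prime := ⟨hp⟩
  obtain ⟨j, hj⟩ := (ZMod.exists_sq_eq_neg_one_iff (p := p)).mpr (by omega)
  refine ⟨(j.val : ℤ), ?_⟩
  rw [← ZMod.intCast_zmod_eq_zero_iff_dvd]
  push_cast
  rw [ZMod.natCast_zmod_val, pow_two, ← hj]
  ring

/-- **the doubling datum** -/
theorem exists_doubling {N : ℕ} {l : ℕ} (hl : l.Prime) {d : ℤ} (hN : N ≠ 0)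
    (hd8 : (8 : ℤ) ∣ d - 1) (hdN : (N : ℤ) ∣ d - 1) (hdl : IsCoprime d (l : ℤ))
    (hl1 : ¬ (l : ℤ) ∣ d ^ 2 + 1) :
    ∃ a b τ e t : ℤ, a * d - b * ((N : ℤ) * l) = 1 ∧ a + d = 2 * τ ∧
      2 * τ * d - 1 = e ^ 2 + t * (2 * τ * ((N : ℤ) * l)) := by
  obtain ⟨z, hz⟩ := hdN
  obtain ⟨d0, hd0⟩ := hd8
  have hlp : Prime (l : ℤ) := Nat.prime_iff_prime_int.mp hl
  -- Bezout for `(d, N l)`
  have hdN' : IsCoprime d (N : ℤ) := ⟨1, -z, by linear_combination hz⟩
  have hdc : IsCoprime d ((N : ℤ) * l) := hdN'.mul_right hdl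
  obtain ⟨u, v, huv⟩ := hdc
  -- the base solution with `a0 ≡ 1 mod 8`, `b0 ≡ 0 mod 8`
  set k : ℤ := d0 * (1 - u) with hk
  have hdet0 : (1 - 8 * u * d0) * d - (8 * v * d0) * ((N : ℤ) * l) = 1 := by
    linear_combination hd0 - 8 * d0 * huv
  -- `τ0 = 1 + 4 k`, `2 τ0 = a0 + d`
  have htr0 : (1 - 8 * u * d0) + d = 2 * (1 + 4 * k) := by
    rw [hk]; linear_combination hd0
  -- `τ0` is prime to `4`, `N`, `l`
  have c4 : IsCoprime (1 + 4 * k) (4 : ℤ) := ⟨1, -k, by ring⟩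
  have cN : IsCoprime (1 + 4 * k) (N : ℤ) := by
    rw [Int.isCoprime_iff_gcd_eq_one]
    have h1 : ((Int.gcd (1 + 4 * k) (N : ℤ) : ℕ) : ℤ) ∣ 1 + 4 * k := Int.gcd_dvd_left _ _
    have h2 : ((Int.gcd (1 + 4 * k) (N : ℤ) : ℕ) : ℤ) ∣ (N : ℤ) := Int.gcd_dvd_right _ _
    have h3 : ((Int.gcd (1 + 4 * k) (N : ℤ) : ℕ) : ℤ) ∣ 2 := by
      have e : (2 : ℤ) = 2 * (1 + 4 * k) -
          (N : ℤ) * ((8 * v * d0) * l - (1 - 8 * u * d0) * z + z) := by
        linear_combination htr0 - hdet0 + ((1 - 8 * u * d0) - 1) * hz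
      rw [e]
      exact dvd_sub (Dvd.dvd.mul_left h1 2) (Dvd.dvd.mul_right h2 _)
    have h4 : Int.gcd (1 + 4 * k) (N : ℤ) ∣ 2 := by exact_mod_cast h3
    rcases (Nat.dvd_prime Nat.prime_two).mp h4 with h | h
    · exact h
    · exfalso
      rw [h] at h1
      omega
  have cl : IsCoprime (1 + 4 * k) (l : ℤ) := by
    rw [isCoprime_comm]
    refine (Prime.coprime_iff_not_dvd hlp).mpr fun hdiv => hl1 ?_
    have e : d ^ 2 + 1 = 2 * (1 + 4 * k) * d - (8 * v * d0) * (N : ℤ) * l := by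
      linear_combination d * htr0 - hdet0
    rw [e]
    exact dvd_sub (Dvd.dvd.mul_right (Dvd.dvd.mul_left hdiv 2) d) (Dvd.intro_left _ rfl)
  have cM : IsCoprime (1 + 4 * k) (((4 * N * l : ℕ)) : ℤ) := by
    have : (((4 * N * l : ℕ)) : ℤ) = 4 * ((N : ℤ) * l) := by push_cast; ring
    rw [this]
    exact c4.mul_right (cN.mul_right cl)
  -- Dirichlet
  have hM : 4 * N * l ≠ 0 := by
    have := hl.pos
    positivity
  obtain ⟨p, -, hp, hpmod⟩ := Nat.forall_exists_prime_gt_and_zmodEq 0 hM cM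
  obtain ⟨y, hy⟩ := (Int.modEq_iff_dvd.mp hpmod.symm)
  have hy' : (p : ℤ) = (1 + 4 * k) + 4 * ((N : ℤ) * l) * y := by
    have : (((4 * N * l : ℕ)) : ℤ) = 4 * ((N : ℤ) * l) := by push_cast; ring
    rw [this] at hy
    linear_combination hy
  have hp4 : p % 4 = 1 := by
    have : (p : ℤ) = 1 + 4 * (k + (N : ℤ) * l * y) := by rw [hy']; ring
    omega
  obtain ⟨i, hi⟩ := exists_sq_add_one hp hp4
  -- the matrix
  set c : ℤ := (N : ℤ) * l with hc
  set τ : ℤ := (p : ℤ) with hτ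
  set a : ℤ := (1 - 8 * u * d0) + 8 * c * y with ha
  set b : ℤ := (8 * v * d0) + 8 * d * y with hb
  have hdet : a * d - b * c = 1 := by
    rw [ha, hb]; linear_combination hdet0
  have htr : a + d = 2 * τ := by
    rw [ha, hy']; linear_combination htr0
  -- `τ` is prime to `2 c`
  have cτ : IsCoprime (2 * c) τ := by
    have h1 : IsCoprime τ (4 * c) := by
      have h0 : IsCoprime ((1 + 4 * k) + y * (4 * c)) (4 * c) :=
        IsCoprime.add_mul_right_left (c4.mul_right (cN.mul_right cl)) y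
      have e0 : (1 + 4 * k) + y * (4 * c) = τ := by rw [hy']; ring
      rwa [e0] at h0
    have h2 : IsCoprime τ (2 * (2 * c)) := by
      have e : (4 : ℤ) * c = 2 * (2 * c) := by ring
      rwa [e] at h1
    exact (IsCoprime.of_mul_right_right h2).symm
  obtain ⟨u2, v2, h2⟩ := cτ
  -- CRT
  set e : ℤ := d * (v2 * τ) + i * (u2 * (2 * c)) with he
  have d1 : (2 * c) ∣ (2 * τ * d - 1) - e ^ 2 := by
    have e1 : (2 * τ * d - 1) - e ^ 2 =
        (2 * c) * (4 * (v * d0 + d * y)) + (d - e) * (d + e) := by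
      linear_combination (-d) * htr + hdet + (c : ℤ) * (hb)
    have e2 : d - e = (2 * c) * (u2 * (d - i)) := by
      rw [he]; linear_combination (-d) * h2
    rw [e1, e2]
    exact dvd_add (Dvd.intro _ rfl) (Dvd.dvd.mul_right (Dvd.intro _ rfl) _)
  have d2 : τ ∣ (2 * τ * d - 1) - e ^ 2 := by
    obtain ⟨w, hw⟩ := hi
    have e2 : e - i = τ * (v2 * (d - i)) := by
      rw [he]; linear_combination i * h2
    have e1 : (2 * τ * d - 1) - e ^ 2 = τ * (2 * d) - τ * w - (e - i) * (e + i) := by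
      linear_combination (-1 : ℤ) * hw
    rw [e1, e2]
    exact dvd_sub (dvd_sub (Dvd.intro _ rfl) (Dvd.intro _ rfl))
      (Dvd.dvd.mul_right (Dvd.intro _ rfl) _)
  obtain ⟨t, ht⟩ := IsCoprime.mul_dvd ⟨u2, v2, h2⟩ d1 d2
  exact ⟨a, b, τ, e, t, hdet, htr, by linear_combination ht⟩

end Fermat.Agent.GM.CSP.Doubling
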