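import Fermat.Agent.GM.CSP.Symbol
import Fermat.Agent.GM.CSP.Doubling

/-!
# GATE-M / S41-(C2) CSP, part FINAL in hypothesis form (helper55)

The last step of helper25's elementary proof (board 3748) of the abelian congruence subgroup
property of `Γ0(N)[1/q]`: if the bottom-row symbol `s(c, D)` of `Φ` vanishes whenever `D ≡ 1 mod N`
is a SQUARE modulo `c` (`SqVanish Φ`, = Lemma 3 of 3748), and the target has no `2`-torsion, then the
symbol vanishes on every row with `d ≡ 1 mod N`.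

Route (integer-matrix version, uniform in `q`): normalise the row to an integral row `(N l, d)`
with `l` a prime and `d ≡ 1 mod 8 N` by (R1), (R2) and two applications of Dirichlet's theorem; take
the integral matrix of `Doubling.exists_doubling`; its square has bottom row `(2 τ N l, D)` with `D`
a square modulo `2 τ N l`, so `s(N l, d)² = s(2 τ N l, D) = 1` by the Cayley–Hamilton power trick
`Symbol.sym_pow`.
-/

set_option autoImplicit false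

namespace Fermat.Agent.GM.CSP.FinalHyp

open Matrix Matrix.SpecialLinearGroup
open scoped MatrixGroups
open Fermat.Agent.GM.Amalgam Fermat.Agent.GM.CSP.Symbol

variable {N q : ℕ} [hq : Fact q.Prime]

/-! ### arithmetic of `ℤ[1/q]` -/

theorem natCast_mem_Zq (n : ℕ) : (n : ℚ) ∈ Zq q := natCast_mem (Zq q) n

theorem N_mul_mem_NZq {s : ℚ} (hs : s ∈ Zq q) : (N : ℚ) * s ∈ NZq q N := ⟨s, hs, rfl⟩

omit hq in
theorem isCoprime_pow_q {M : ℤ} (hM : IsCoprime M (q : ℤ)) (k : ℕ) : IsCoprime M ((q : ℤ) ^ k) :=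
  hM.pow_right

/-- an integer lying in `N ℤ[1/q]` is divisible by `N` (`q ∤ N`) -/
theorem dvd_of_intCast_mem_NZq (hqN : ¬ q ∣ N) {n : ℤ} (h : (n : ℚ) ∈ NZq q N) : (N : ℤ) ∣ n := by
  obtain ⟨k, m, hm, e⟩ := mem_NZq_iff.mp h
  have hq0 : (q : ℚ) ^ k ≠ 0 := pow_ne_zero _ (q_ne_zero q)
  have e' : n * (q : ℤ) ^ k = m := by
    have : (n : ℚ) * (q : ℚ) ^ k = m := by rw [e]; field_simp
    exact_mod_cast this
  have hcop : IsCoprime (N : ℤ) ((q : ℤ) ^ k) := by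
    apply IsCoprime.pow_right
    rw [Nat.isCoprime_iff_coprime]
    exact ((Nat.Prime.coprime_iff_not_dvd hq.out).mpr hqN).symm
  rw [← e'] at hm
  exact hcop.dvd_of_dvd_mul_right hm

/-- integer representatives modulo an integer prime to `q` -/
theorem exists_int_rep {x : ℚ} (hx : x ∈ Zq q) {M : ℤ} (hM : IsCoprime M (q : ℤ)) :
    ∃ n : ℤ, ∃ t ∈ Zq q, x = n + t * M := by
  obtain ⟨k, m, rfl⟩ := hx
  obtain ⟨u, v, huv⟩ := isCoprime_pow_q hM k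
  have hq0 : (q : ℚ) ^ k ≠ 0 := pow_ne_zero _ (q_ne_zero q)
  refine ⟨m * v, ((m * u : ℤ) : ℚ) / (q : ℚ) ^ k, div_pow_mem_Zq q _ k, ?_⟩
  have huv' : (u : ℚ) * M + v * (q : ℚ) ^ k = 1 := by exact_mod_cast huv
  field_simp
  push_cast
  linear_combination (-(m : ℚ)) * huv'

/-- a Bezout relation over `ℤ[1/q]` between integers, one of them prime to `q`, gives
coprimality over `ℤ` -/
theorem isCoprime_of_bezout_Zq {a b : ℚ} (ha : a ∈ Zq q) (hb : b ∈ Zq q) {n M : ℤ}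
    (hM : IsCoprime M (q : ℤ)) (h : a * n - b * M = 1) : IsCoprime n M := by
  obtain ⟨ka, ma, rfl⟩ := ha
  obtain ⟨kb, mb, rfl⟩ := hb
  have hqa : (q : ℚ) ^ ka ≠ 0 := pow_ne_zero _ (q_ne_zero q)
  have hqb : (q : ℚ) ^ kb ≠ 0 := pow_ne_zero _ (q_ne_zero q)
  have h' : ma * (q : ℤ) ^ kb * n - mb * (q : ℤ) ^ ka * M = (q : ℤ) ^ (ka + kb) := by
    have : (ma : ℚ) * (q : ℚ) ^ kb * n - mb * (q : ℚ) ^ ka * M = (q : ℚ) ^ (ka + kb) := by
      field_simp at h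
      rw [pow_add]
      linear_combination h
    exact_mod_cast this
  obtain ⟨r, s, hrs⟩ := isCoprime_pow_q hM (ka + kb)
  refine ⟨s * (ma * (q : ℤ) ^ kb), r - s * (mb * (q : ℤ) ^ ka), ?_⟩
  linear_combination s * h' + hrs

/-- a nonzero element of `ℤ[1/q]` is a unit times a positive integer prime to `q` -/
theorem exists_unit_mul_nat {c : ℚ} (hc : c ∈ Zq q) (hc0 : c ≠ 0) :
    ∃ (c0 : ℕ) (u : ℚ), c0 ≠ 0 ∧ ¬ q ∣ c0 ∧ IsUnitZq q u ∧ c = u * c0 := by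
  obtain ⟨k, m, rfl⟩ := hc
  have hq0 : (q : ℚ) ^ k ≠ 0 := pow_ne_zero _ (q_ne_zero q)
  have hm0 : m ≠ 0 := by
    rintro rfl
    simp at hc0
  obtain ⟨j, c0, hc0', hmj⟩ :=
    Nat.exists_eq_pow_mul_and_not_dvd (Int.natAbs_ne_zero.mpr hm0) q hq.out.ne_one
  have hc00 : c0 ≠ 0 := by
    rintro rfl
    rw [mul_zero] at hmj
    exact Int.natAbs_ne_zero.mpr hm0 hmj
  have hu1 : IsUnitZq q ((q : ℚ) ^ j * ((q : ℚ) ^ k)⁻¹) :=
    (isUnitZq_q.pow j).mul (isUnitZq_q.pow k).inv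
  rcases Int.natAbs_eq m with hm | hm
  · refine ⟨c0, (q : ℚ) ^ j * ((q : ℚ) ^ k)⁻¹, hc00, hc0', hu1, ?_⟩
    rw [hm, hmj]
    push_cast
    field_simp
  · refine ⟨c0, -((q : ℚ) ^ j * ((q : ℚ) ^ k)⁻¹), hc00, hc0', hu1.neg, ?_⟩
    rw [hm, hmj]
    push_cast
    field_simp

/-! ### the symbol: congruence forms of (R1), (R2) and the hypothesis -/

section Sym

variable {A : Type*} [CommGroup A] {Φ : ↥(DeltaQ N q) →* A}

/-- (R1), congruence form -/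
theorem sym_congr_right (hΦ : KillsElem Φ) {c d d' t : ℚ} (hr : IsRow N q c d) (ht : t ∈ Zq q)
    (h : d' = d + t * c) : IsRow N q c d' ∧ sym Φ c d' = sym Φ c d := by
  subst h
  exact sym_add_mul_right hΦ hr ht

/-- (R2), congruence form -/
theorem sym_congr_left (hΦ : KillsElem Φ) {c c' d t : ℚ} (hr : IsRow N q c d)
    (ht : t ∈ NZq q N) (h : c' = c + t * d) : IsRow N q c' d ∧ sym Φ c' d = sym Φ c d := by
  subst h
  exact sym_add_mul_left hΦ hr ht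

/-- **Lemma 3 of board 3748 as a hypothesis**: the symbol vanishes on rows `(c, D)` with
`D ≡ 1 mod N` and `D` a square modulo `c` -/
def SqVanish (Φ : ↥(DeltaQ N q) →* A) : Prop :=
  ∀ c D e t : ℚ, IsRow N q c D → D - 1 ∈ NZq q N → e ∈ Zq q → t ∈ Zq q → D = e ^ 2 + t * c →
    sym Φ c D = 1

theorem cheb_two (t : ℚ) : cheb t (1 + 1) = t := by
  show t * cheb t 1 - cheb t 0 = t
  simp

/-- stage 4: an integral row `(N l, d)`, `d ≡ 1 mod 8 N`, `l` prime, `l ∤ d (d² + 1)` -/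
theorem sym_int_row_eq_one (hΦ : KillsElem Φ) (hSQ : SqVanish Φ) (h2 : ∀ a : A, a ^ 2 = 1 → a = 1)
    (hN : N ≠ 0) {l : ℕ} (hl : l.Prime) {d : ℤ} (hd8 : (8 : ℤ) ∣ d - 1) (hdN : (N : ℤ) ∣ d - 1)
    (hdl : IsCoprime d (l : ℤ)) (hl1 : ¬ (l : ℤ) ∣ d ^ 2 + 1) :
    sym Φ ((N : ℚ) * l) d = 1 := by
  obtain ⟨a, b, τ, e, t, hdet, htr, hD⟩ := Doubling.exists_doubling hl hN hd8 hdN hdl hl1
  obtain ⟨z, hz⟩ := hdN
  have hdetQ : (a : ℚ) * d - b * ((N : ℚ) * l) = 1 := by exact_mod_cast hdet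
  have htrQ : (a : ℚ) + d = 2 * τ := by exact_mod_cast htr
  have hDQ : 2 * (τ : ℚ) * d - 1 = (e : ℚ) ^ 2 + t * (2 * τ * ((N : ℚ) * l)) := by
    exact_mod_cast hD
  have hzQ : (d : ℚ) - 1 = N * z := by exact_mod_cast hz
  let x : ↥(DeltaQ N q) := ⟨mkQ a b ((N : ℚ) * l) d hdetQ,
    mkQ_mem hdetQ (intCast_mem_Zq q a) (intCast_mem_Zq q b) (N_mul_mem_NZq (natCast_mem_Zq l))
      (intCast_mem_Zq q d)⟩
  have x00 : (x : SLQ) 0 0 = a := rfl
  have x10 : (x : SLQ) 1 0 = (N : ℚ) * l := rfl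
  have x11 : (x : SLQ) 1 1 = d := rfl
  have hp := sym_pow hΦ x 1
  obtain ⟨e10, e11⟩ := pow_row (x : SLQ) 1
  simp only [x00, x10, x11, cheb_two, cheb_one] at hp e10 e11
  have hrow : IsRow N q (((a : ℚ) + d) * ((N : ℚ) * l)) (((a : ℚ) + d) * d - 1) :=
    ⟨x ^ (1 + 1), e10, e11⟩
  have hD1 : ((a : ℚ) + d) * d - 1 - 1 ∈ NZq q N := by
    refine ⟨((b * l + z * (d + 1) : ℤ) : ℚ), intCast_mem_Zq q _, ?_⟩
    push_cast
    linear_combination hdetQ + ((d : ℚ) + 1) * hzQ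
  have hDeq : ((a : ℚ) + d) * d - 1 = (e : ℚ) ^ 2 + t * (((a : ℚ) + d) * ((N : ℚ) * l)) := by
    linear_combination hDQ + ((d : ℚ) - t * ((N : ℚ) * l)) * htrQ
  have h1 := hSQ _ _ e t hrow hD1 (intCast_mem_Zq q e) (intCast_mem_Zq q t) hDeq
  rw [h1] at hp
  exact h2 _ hp.symm

/-- stage 3: an integral row `(N l, d)`, `d ≡ 1 mod N`, `l` an odd prime, `l ∤ d (d² + 1)` -/
theorem sym_int_row_eq_one' (hΦ : KillsElem Φ) (hSQ : SqVanish Φ)
    (h2 : ∀ a : A, a ^ 2 = 1 → a = 1) (hN : N ≠ 0) {l : ℕ} (hl : l.Prime) (hl2 : l ≠ 2) {d : ℤ}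
    (hrow : IsRow N q ((N : ℚ) * l) d) (hdN : (N : ℤ) ∣ d - 1)
    (hdl : IsCoprime d (l : ℤ)) (hl1 : ¬ (l : ℤ) ∣ d ^ 2 + 1) :
    sym Φ ((N : ℚ) * l) d = 1 := by
  obtain ⟨z, hz⟩ := hdN
  have hlodd : Odd (l : ℤ) := by
    have := hl.eq_two_or_odd'.resolve_left hl2
    exact_mod_cast this
  obtain ⟨w, hw⟩ := Doubling.eight_dvd_sq_sub_one hlodd
  -- `d'' = d - (d - 1) l²`
  have hmove := sym_congr_right (Φ := Φ) hΦ hrow (t := ((-(z * l) : ℤ) : ℚ))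
    (d' := ((d - (d - 1) * (l : ℤ) ^ 2 : ℤ) : ℚ)) (intCast_mem_Zq q _) (by
      have hzQ : (d : ℚ) - 1 = N * z := by exact_mod_cast hz
      push_cast
      linear_combination (-(l : ℚ) ^ 2) * hzQ)
  rw [← hmove.2]
  refine sym_int_row_eq_one hΦ hSQ h2 hN hl ?_ ?_ ?_ ?_
  · exact ⟨-(z * N * w), by linear_combination (-(N : ℤ) * z) * hw + (1 - (l : ℤ) ^ 2) * hz⟩
  · exact ⟨z * (1 - (l : ℤ) ^ 2), by linear_combination (1 - (l : ℤ) ^ 2) * hz⟩
  · have : d - (d - 1) * (l : ℤ) ^ 2 = d + (l : ℤ) * (-(d - 1) * l) := by ring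
    rw [this]
    exact IsCoprime.add_mul_left_left hdl _
  · intro hdiv
    apply hl1
    have e : d ^ 2 + 1 = ((d - (d - 1) * (l : ℤ) ^ 2) ^ 2 + 1) +
        (l : ℤ) * ((d - 1) * l * (2 * d - (d - 1) * (l : ℤ) ^ 2)) := by ring
    rw [e]
    exact dvd_add hdiv (Dvd.intro _ rfl)

/-- stage 2: a row `(c, d)` with `d` a prime number different from `q`, `d ≡ 1 mod N` -/
theorem sym_prime_col_eq_one (hΦ : KillsElem Φ) (hSQ : SqVanish Φ)
    (h2 : ∀ a : A, a ^ 2 = 1 → a = 1) (hN : N ≠ 0) {c : ℚ} {d : ℕ} (hdp : d.Prime)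
    (hdq : d ≠ q) (hrow : IsRow N q c ((d : ℤ) : ℚ)) (hdN : (N : ℤ) ∣ (d : ℤ) - 1) :
    sym Φ c ((d : ℤ) : ℚ) = 1 := by
  obtain ⟨c1, hc1, hc⟩ := (isRow_iff.1 hrow).1
  have hdqc : IsCoprime (d : ℤ) (q : ℤ) :=
    Nat.isCoprime_iff_coprime.mpr ((Nat.coprime_primes hdp hq.out).mpr hdq)
  obtain ⟨n1, t1, ht1, hn1⟩ := exists_int_rep hc1 hdqc
  -- `c ↝ N n1`
  have hmove1 := sym_congr_left (Φ := Φ) hΦ hrow (t := -((N : ℚ) * t1)) (c' := (N : ℚ) * n1)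
    ((NZq q N).neg_mem (N_mul_mem_NZq ht1)) (by rw [hc, hn1]; push_cast; ring)
  have hcop1 : IsCoprime n1 (d : ℤ) := by
    obtain ⟨-, -, a, ha, b, hb, hab⟩ := isRow_iff.1 hmove1.1
    refine isCoprime_of_bezout_Zq (a := -(b * N)) (b := -a)
      ((Zq q).neg_mem ((Zq q).mul_mem hb (natCast_mem_Zq N))) ((Zq q).neg_mem ha) hdqc ?_
    linear_combination hab
  -- Dirichlet: a prime `l ≡ n1 mod d`, `l > d² + 1`
  obtain ⟨l, hlgt, hl, hlmod⟩ :=
    Nat.forall_exists_prime_gt_and_zmodEq (d ^ 2 + 1) hdp.ne_zero hcop1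
  obtain ⟨z2, hz2⟩ := Int.modEq_iff_dvd.mp hlmod
  have hmove2 := sym_congr_left (Φ := Φ) hΦ hmove1.1 (t := (N : ℚ) * ((-z2 : ℤ) : ℚ))
    (c' := (N : ℚ) * l) (N_mul_mem_NZq (intCast_mem_Zq q _)) (by
      have hz2Q : (n1 : ℚ) - l = d * z2 := by exact_mod_cast hz2
      push_cast
      linear_combination (-(N : ℚ)) * hz2Q)
  rw [← hmove1.2, ← hmove2.2]
  have hd1 : 1 < d := hdp.one_lt
  have hld : d < l := by nlinarith
  refine sym_int_row_eq_one' hΦ hSQ h2 hN hl (by omega) hmove2.1 hdN ?_ ?_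
  · exact Nat.isCoprime_iff_coprime.mpr ((Nat.coprime_primes hdp hl).mpr (by omega))
  · intro hdiv
    have hpos : (0 : ℤ) < (d : ℤ) ^ 2 + 1 := by positivity
    have hle := Int.le_of_dvd hpos hdiv
    have : ((d ^ 2 + 1 : ℕ) : ℤ) < (l : ℤ) := by exact_mod_cast hlgt
    push_cast at this
    omega

/-- **the Theorem of board 3748 in hypothesis form**: if the symbol vanishes on the rows whose
second entry is `≡ 1 mod N` and a square modulo the first one, and the target has no `2`-torsion,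
then it vanishes on all rows with `d ≡ 1 mod N` -/
theorem sym_eq_one_of_sqVanish (hΦ : KillsElem Φ) (hN : N ≠ 0) (hqN : ¬ q ∣ N) (hSQ : SqVanish Φ)
    (h2 : ∀ a : A, a ^ 2 = 1 → a = 1) {c d : ℚ} (hr : IsRow N q c d) (hd : d - 1 ∈ NZq q N) :
    sym Φ c d = 1 := by
  by_cases hc0 : c = 0
  · subst hc0
    obtain ⟨-, hdZ, a, ha, b, -, hab⟩ := isRow_iff.1 hr
    have had : a * d = 1 := by linear_combination hab
    have hd0 : d ≠ 0 := by
      rintro rfl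
      simp at had
    have hu : IsUnitZq q d := by
      refine ⟨hdZ, ?_, hd0⟩
      have : d⁻¹ = a := by
        field_simp
        linear_combination -had
      rw [this]
      exact ha
    exact chi_eq_one hΦ hu hd
  · obtain ⟨hcN, hdZ, -⟩ := isRow_iff.1 hr
    obtain ⟨c0, u, hc00, hqc0, hu, hcu⟩ := exists_unit_mul_nat (NZq_le_Zq hcN) hc0
    have hu0 := hu.2.2
    have hc0q : IsCoprime ((c0 : ℕ) : ℤ) (q : ℤ) :=
      Nat.isCoprime_iff_coprime.mpr ((Nat.Prime.coprime_iff_not_dvd hq.out).mpr hqc0).symm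
    obtain ⟨n, t, ht, hn⟩ := exists_int_rep hdZ hc0q
    -- `d ↝ n`
    have hmove1 := sym_congr_right (Φ := Φ) hΦ hr (t := -(t * u⁻¹)) (d' := (n : ℚ))
      ((Zq q).neg_mem ((Zq q).mul_mem ht hu.2.1)) (by
        rw [hn, hcu]
        push_cast
        field_simp
        ring)
    have hcop : IsCoprime n ((c0 : ℕ) : ℤ) := by
      obtain ⟨-, -, a, ha, b, hb, hab⟩ := isRow_iff.1 hmove1.1
      refine isCoprime_of_bezout_Zq (a := a) (b := b * u) ha ((Zq q).mul_mem hb hu.1) hc0q ?_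
      rw [hcu] at hab
      push_cast
      linear_combination hab
    -- Dirichlet: a prime `d' ≡ n mod c0`, `d' > q`
    obtain ⟨d', hd'gt, hd'p, hd'mod⟩ := Nat.forall_exists_prime_gt_and_zmodEq q hc00 hcop
    obtain ⟨z1, hz1⟩ := Int.modEq_iff_dvd.mp hd'mod
    have hz1Q : (n : ℚ) - d' = c0 * z1 := by exact_mod_cast hz1
    have hmove2 := sym_congr_right (Φ := Φ) hΦ hmove1.1 (t := -((z1 : ℚ) * u⁻¹))
      (d' := ((d' : ℤ) : ℚ)) ((Zq q).neg_mem ((Zq q).mul_mem (intCast_mem_Zq q z1) hu.2.1)) (by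
        rw [hcu]
        push_cast
        field_simp
        linear_combination (-1 : ℚ) * hz1Q)
    rw [← hmove1.2, ← hmove2.2]
    refine sym_prime_col_eq_one hΦ hSQ h2 hN hd'p (by omega) hmove2.1 ?_
    apply dvd_of_intCast_mem_NZq hqN
    have e : (((d' : ℤ) - 1 : ℤ) : ℚ) = (d - 1) + (-(t * u⁻¹) + -((z1 : ℚ) * u⁻¹)) * c := by
      rw [hn, hcu]
      push_cast
      field_simp
      linear_combination (-1 : ℚ) * hz1Q
    rw [e]
    exact (NZq q N).add_mem hd (mul_mem_NZq_left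
      ((Zq q).add_mem ((Zq q).neg_mem ((Zq q).mul_mem ht hu.2.1))
        ((Zq q).neg_mem ((Zq q).mul_mem (intCast_mem_Zq q z1) hu.2.1))) hcN)

/-- the same for `Φ` itself -/
theorem map_eq_one_of_sqVanish (hΦ : KillsElem Φ) (hN : N ≠ 0) (hqN : ¬ q ∣ N) (hSQ : SqVanish Φ)
    (h2 : ∀ a : A, a ^ 2 = 1 → a = 1) (x : ↥(DeltaQ N q)) (hx : (x : SLQ) 1 1 - 1 ∈ NZq q N) :
    Φ x = 1 :=
  map_eq_one_of_sym hΦ (fun _ _ hr hd => sym_eq_one_of_sqVanish hΦ hN hqN hSQ h2 hr hd) x hx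

end Sym

end Fermat.Agent.GM.CSP.FinalHyp
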