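import Fermat.Agent.GM.CSP.DirichletCRT

/-!
# GATE-M / S41-C2, the Theorem of helper25's proof of `CSPStmt`: the pure arithmetic

The arithmetic of the doubling step (simplification (S-c) of ruling 3776), free of the symbol, in
ONE existence statement `exists_doubling_data` shaped for `Stmts.symZ_double` and
`Stmts.SqRowStmt`:

for `l1` an odd prime not dividing `N`, and `D0 ≡ 1 mod N` with `l1 ∤ D0`, `l1 ∤ D0 ^ 2 + 1`, there
are integers `D a b e` and an arbitrarily large prime `τ` with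
* `D ≡ D0 mod N l1`,
* `a D - b (N l1) = 1`,  `a + D = 2 τ`,
* `(a + D) (N l1) = N (2 l1 τ)`,
* `D' := (a + D) D - 1` is coprime to `N (2 l1 τ)`, `D' ≡ 1 mod N`, `D' ≡ e ^ 2 mod N (2 l1 τ)`.
-/

set_option autoImplicit false

namespace Fermat.Agent.GM.CSP.FinalNT

open Fermat.Agent.GM.CSP.DirichletCRT

/-- the bottom row of the square of an integer matrix of determinant one is coprime -/
theorem isCoprime_double {a b C D : ℤ} (hdet : a * D - b * C = 1) :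
    IsCoprime ((a + D) * C) ((a + D) * D - 1) :=
  ⟨-((a + D) * b), (a + D) * a - 1, by linear_combination (a + D) ^ 2 * hdet⟩

/-- a large prime is coprime to a nonzero integer -/
theorem isCoprime_of_prime_gt {τ : ℕ} (hτ : τ.Prime) {n : ℕ} (hn : 0 < n) (h : n < τ) :
    IsCoprime (n : ℤ) (τ : ℤ) := by
  rw [Nat.isCoprime_iff_coprime]
  apply Nat.Coprime.symm
  rw [hτ.coprime_iff_not_dvd]
  intro hd
  exact absurd (Nat.le_of_dvd hn hd) (not_le.mpr h)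

/-- **The arithmetic of the doubling step.** -/
theorem exists_doubling_data {N l1 : ℕ} {D0 : ℤ} (hN : 0 < N) (hl1 : l1.Prime) (hl12 : l1 ≠ 2)
    (hl1N : ¬ l1 ∣ N) (hD0N : D0 ≡ 1 [ZMOD (N : ℤ)]) (hD0 : ¬ (l1 : ℤ) ∣ D0)
    (hD0' : ¬ (l1 : ℤ) ∣ D0 ^ 2 + 1) (B : ℕ) :
    ∃ (D a b e : ℤ) (τ : ℕ), B < τ ∧ τ.Prime ∧ D ≡ D0 [ZMOD (N : ℤ) * l1] ∧
      a * D - b * ((N : ℤ) * l1) = 1 ∧ a + D = 2 * τ ∧
      (a + D) * ((N : ℤ) * l1) = (N : ℤ) * (2 * l1 * τ) ∧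
      IsCoprime ((N : ℤ) * (2 * l1 * τ)) ((a + D) * D - 1) ∧
      (a + D) * D - 1 ≡ 1 [ZMOD (N : ℤ)] ∧
      (a + D) * D - 1 ≡ e ^ 2 [ZMOD (N : ℤ) * (2 * l1 * τ)] := by
  have hl1Z : Prime (l1 : ℤ) := Nat.prime_iff_prime_int.mp hl1
  -- `l1` is prime to `2 N`, `4 N`
  have hl1_2 : ¬ l1 ∣ 2 := fun h => hl12 ((Nat.prime_dvd_prime_iff_eq hl1 Nat.prime_two).mp h)
  have hl1_2N : ¬ l1 ∣ 2 * N := fun h => (hl1.dvd_mul.mp h).elim hl1_2 hl1N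
  have hl1_4N : ¬ l1 ∣ 4 * N := by
    intro h
    rcases hl1.dvd_mul.mp h with h | h
    · have h' : l1 ∣ 2 ^ 2 := by simpa using h
      exact hl1_2 (hl1.dvd_of_dvd_pow h')
    · exact hl1N h
  have hcop2N : IsCoprime ((2 * N : ℕ) : ℤ) (l1 : ℤ) := by
    rw [Nat.isCoprime_iff_coprime]
    exact ((hl1.coprime_iff_not_dvd).mpr hl1_2N).symm
  have hcopN : IsCoprime (N : ℤ) (l1 : ℤ) := by
    rw [Nat.isCoprime_iff_coprime]
    exact ((hl1.coprime_iff_not_dvd).mpr hl1N).symm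
  -- Step 1: `D ≡ 1 mod 2 N`, `D ≡ D0 mod l1`
  obtain ⟨D, hD1, hD2⟩ := exists_int_modEq_two hcop2N 1 D0
  have hDN : D ≡ 1 [ZMOD (N : ℤ)] := by
    apply hD1.of_dvd
    push_cast
    exact dvd_mul_left (N : ℤ) 2
  have hDD0 : D ≡ D0 [ZMOD (N : ℤ) * l1] := by
    rw [Int.modEq_iff_dvd]
    exact hcopN.mul_dvd (Int.modEq_iff_dvd.mp (hDN.trans hD0N.symm))
      (Int.modEq_iff_dvd.mp hD2)
  have hl1D : ¬ (l1 : ℤ) ∣ D := by
    intro h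
    apply hD0
    have := (Int.modEq_zero_iff_dvd.mpr h)
    exact Int.modEq_zero_iff_dvd.mp (hD2.symm.trans this)
  have hl1D' : ¬ (l1 : ℤ) ∣ D ^ 2 + 1 := by
    intro h
    apply hD0'
    have e : D ^ 2 + 1 ≡ D0 ^ 2 + 1 [ZMOD (l1 : ℤ)] := (hD2.pow 2).add_right 1
    exact Int.modEq_zero_iff_dvd.mp (e.symm.trans (Int.modEq_zero_iff_dvd.mpr h))
  -- Step 2: an inverse `u` of `2 D` mod `l1`
  have hl1_2Z : ¬ (l1 : ℤ) ∣ 2 := by
    intro h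
    apply hl1_2
    exact_mod_cast h
  have hcop2D : IsCoprime (2 * D) (l1 : ℤ) := by
    apply IsCoprime.symm
    rw [Prime.coprime_iff_not_dvd hl1Z]
    intro h
    rcases hl1Z.dvd_or_dvd h with h | h
    · exact hl1_2Z h
    · exact hl1D h
  obtain ⟨u, v, huv⟩ := hcop2D
  -- u * (2 D) + v * l1 = 1
  have hl1u : ¬ (l1 : ℤ) ∣ u := by
    intro h
    have h1 : (l1 : ℤ) ∣ u * (2 * D) + v * l1 := dvd_add (Dvd.dvd.mul_right h _) (Dvd.intro_left _ rfl)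
    rw [huv] at h1
    exact hl1Z.not_dvd_one h1
  set t0 : ℤ := (D ^ 2 + 1) * u with ht0
  have ht0cop : IsCoprime t0 ((l1 : ℕ) : ℤ) := by
    apply IsCoprime.symm
    rw [Prime.coprime_iff_not_dvd hl1Z]
    intro h
    rcases hl1Z.dvd_or_dvd h with h | h
    · exact hl1D' h
    · exact hl1u h
  -- Step 3: the prime `τ ≡ 1 mod 4 N`, `τ ≡ t0 mod l1`, `τ > max B (2 N l1)`
  have h4N : 4 * N ≠ 0 := by omega
  have hcop4N : (4 * N).Coprime l1 := ((hl1.coprime_iff_not_dvd).mpr hl1_4N).symm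
  have hcompat : (1 : ℤ) ≡ t0 [ZMOD ((Nat.gcd (4 * N) l1 : ℕ) : ℤ)] := by
    rw [Nat.coprime_iff_gcd_eq_one.mp hcop4N]
    simpa using Int.modEq_one
  obtain ⟨τ, hτB, hτp, hτ1, hτ2⟩ := exists_prime_gt_zmodEq_two (a₁ := 1) (a₂ := t0) h4N hl1.ne_zero
    hcompat isCoprime_one_left ht0cop (max B (2 * N * l1))
  have hτB' : B < τ := lt_of_le_of_lt (le_max_left _ _) hτB
  have hτbig : 2 * N * l1 < τ := lt_of_le_of_lt (le_max_right _ _) hτB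
  have hτ4 : τ ≡ 1 [MOD 4] := by
    rw [← Int.natCast_modEq_iff]
    apply hτ1.of_dvd
    push_cast
    exact dvd_mul_right 4 (N : ℤ)
  -- Step 4: `a := 2 τ - D`, and `2 N l1 ∣ a D - 1`
  set a : ℤ := 2 * τ - D with ha
  have haD_2N : ((2 * N : ℕ) : ℤ) ∣ a * D - 1 := by
    -- 2 τ ≡ 2 mod 2 N (indeed mod 8 N), D ≡ 1 mod 2 N
    have h2τ : (2 : ℤ) * τ ≡ 2 * 1 [ZMOD ((2 * N : ℕ) : ℤ)] := by
      have h1 : (τ : ℤ) ≡ 1 [ZMOD (N : ℤ)] := by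
        apply hτ1.of_dvd
        push_cast
        exact dvd_mul_left (N : ℤ) 4
      have h2 := h1.mul_left' (c := 2)
      simpa [Nat.cast_mul] using h2
    have h3 : a ≡ 2 * 1 - 1 [ZMOD ((2 * N : ℕ) : ℤ)] := h2τ.sub hD1
    have h4 : a * D ≡ (2 * 1 - 1) * 1 [ZMOD ((2 * N : ℕ) : ℤ)] := h3.mul hD1
    have h5 := Int.modEq_iff_dvd.mp h4.symm
    simpa using h5
  have haD_l1 : (l1 : ℤ) ∣ a * D - 1 := by
    -- 2 τ D ≡ 2 t0 D = (D^2+1) (2 D u) ≡ D^2 + 1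
    have h1 : (l1 : ℤ) ∣ (τ : ℤ) - t0 := Int.modEq_iff_dvd.mp hτ2.symm
    obtain ⟨w, hw⟩ := h1
    refine ⟨2 * D * w - (D ^ 2 + 1) * v, ?_⟩
    have : (τ : ℤ) = t0 + l1 * w := by linarith
    rw [ha, this, ht0]
    linear_combination (D ^ 2 + 1) * huv
  obtain ⟨b', hb'⟩ : ((2 * N : ℕ) : ℤ) * (l1 : ℤ) ∣ a * D - 1 := hcop2N.mul_dvd haD_2N haD_l1
  -- a D - 1 = (2 N) l1 b'
  set b : ℤ := 2 * b' with hb
  have hdet : a * D - b * ((N : ℤ) * l1) = 1 := by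
    rw [hb]
    push_cast at hb'
    linear_combination hb'
  have hsum : a + D = 2 * τ := by rw [ha]; ring
  have hrow : (a + D) * ((N : ℤ) * l1) = (N : ℤ) * (2 * l1 * τ) := by rw [hsum]; ring
  -- Step 5: `D'`
  have hD'eq : (a + D) * D - 1 = D ^ 2 + ((2 * N : ℕ) : ℤ) * (l1 : ℤ) * b' := by
    linear_combination hb'
  have hD'1 : (a + D) * D - 1 ≡ 1 [ZMOD (N : ℤ)] := by
    rw [hD'eq]
    have h1 : D ^ 2 ≡ 1 ^ 2 [ZMOD (N : ℤ)] := hDN.pow 2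
    have h2 : ((2 * N : ℕ) : ℤ) * (l1 : ℤ) * b' ≡ 0 [ZMOD (N : ℤ)] := by
      apply Int.modEq_zero_iff_dvd.mpr
      push_cast
      exact ⟨2 * l1 * b', by ring⟩
    simpa using h1.add h2
  have hD'sq1 : (a + D) * D - 1 ≡ D ^ 2 [ZMOD ((2 * N : ℕ) : ℤ) * (l1 : ℤ)] := by
    rw [hD'eq, Int.modEq_iff_dvd]
    exact ⟨-b', by ring⟩
  obtain ⟨i, hi⟩ := exists_int_sq_add_one_dvd hτp hτ4
  have hD'sq2 : (a + D) * D - 1 ≡ i ^ 2 [ZMOD (τ : ℤ)] := by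
    rw [Int.modEq_iff_dvd]
    obtain ⟨w, hw⟩ := hi
    refine ⟨w - 2 * D, ?_⟩
    rw [hsum]
    linear_combination hw
  have hcopτ : IsCoprime (((2 * N : ℕ) : ℤ) * (l1 : ℤ)) (τ : ℤ) := by
    have := isCoprime_of_prime_gt hτp (n := 2 * N * l1)
      (Nat.mul_pos (by omega) hl1.pos) hτbig
    simpa [Nat.cast_mul] using this
  obtain ⟨e, -, -, he⟩ := exists_sq_modEq_mul hcopτ hD'sq1 hD'sq2
  refine ⟨D, a, b, e, τ, hτB', hτp, hDD0, hdet, hsum, hrow, ?_, hD'1, ?_⟩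
  · rw [← hrow]
    exact isCoprime_double hdet
  · have e1 : ((2 * N : ℕ) : ℤ) * (l1 : ℤ) * (τ : ℤ) = (N : ℤ) * (2 * l1 * τ) := by
      push_cast; ring
    rw [← e1]
    exact he

end Fermat.Agent.GM.CSP.FinalNT
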