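import Fermat.Agent.GM.CSP.Stmts
import Fermat.Agent.GM.CSP.IntRow
import Fermat.Agent.GM.CSP.FinalNT
import Fermat.Agent.GM.Ihara.IharaAsm

/-!
# GATE-M / S41-C2, the Theorem of helper25's proof of `CSPStmt` on integer rows (hedge of F4)

From Lemma 3 (`Stmts.SqRowStmt Φ`) and the absence of `2`-torsion in `A`:

* `symZ_prime_row` (Step b): `s(N l1, D0) = 1` for `l1` an odd prime, `l1 ∤ N (D0 ^ 2 + 1)`,
  `D0 ≡ 1 mod N` (doubling, `FinalNT.exists_doubling_data`);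
* `symZ_eq_one_of_sqRow` (Step a + Step b): `s(C, D) = 1` for every coprime integer row with
  `N ∣ C`, `D ≡ 1 mod N` (one Dirichlet: a prime `l1 ≡ C / N mod D`);
* `map_eq_one_of_sqRow`, `cspStmt_of_sqRow` : the congruence subgroup property, through
  helper33's `IntRow.map_eq_one_of_int_sym`.
-/

set_option autoImplicit false

namespace Fermat.Agent.GM.CSP.FinalZ26

open Matrix Matrix.SpecialLinearGroup
open scoped MatrixGroups
open Fermat.Agent.GM.Amalgam Fermat.Agent.GM.CSP.Symbol Fermat.Agent.GM.CSP.Stmts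
open Fermat.Agent.GM.CSP.DirichletCRT Fermat.Agent.GM.CSP.FinalNT

variable {N q : ℕ} [hq : Fact q.Prime] {A : Type*} [CommGroup A] {Φ : ↥(DeltaQ N q) →* A}

/-- **Step b**: the symbol of a prime row `(N l1, D0)`. -/
theorem symZ_prime_row (hΦ : KillsElem Φ) (h2 : ∀ a : A, a ^ 2 = 1 → a = 1)
    (hSq : SqRowStmt Φ) (hN : 0 < N) {l1 : ℕ} (hl1 : l1.Prime) (hl12 : l1 ≠ 2)
    (hl1N : ¬ l1 ∣ N) {D0 : ℤ} (hcop : IsCoprime ((N : ℤ) * l1) D0)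
    (hD0N : D0 ≡ 1 [ZMOD (N : ℤ)]) (hD0' : ¬ (l1 : ℤ) ∣ D0 ^ 2 + 1) :
    symZ Φ ((N : ℤ) * l1) D0 = 1 := by
  have hl1Z : Prime (l1 : ℤ) := Nat.prime_iff_prime_int.mp hl1
  have hD0 : ¬ (l1 : ℤ) ∣ D0 :=
    (Prime.coprime_iff_not_dvd hl1Z).mp hcop.of_mul_left_right
  obtain ⟨D, a, b, e, τ, -, hτp, hDD0, hdet, -, hrow, hcop', hD'1, hD'sq⟩ :=
    exists_doubling_data hN hl1 hl12 hl1N hD0N hD0 hD0' 0
  have hC : (N : ℤ) ∣ (N : ℤ) * l1 := Dvd.intro _ rfl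
  have hm : (2 * (l1 : ℤ) * τ) ≠ 0 := by
    have h1 : (l1 : ℤ) ≠ 0 := by exact_mod_cast hl1.ne_zero
    have h2 : (τ : ℤ) ≠ 0 := by exact_mod_cast hτp.ne_zero
    exact mul_ne_zero (mul_ne_zero two_ne_zero h1) h2
  have e1 : symZ Φ ((N : ℤ) * l1) D = symZ Φ ((N : ℤ) * l1) D0 :=
    symZ_modEq_right hΦ hC hcop hDD0
  have e2 : symZ Φ ((N : ℤ) * l1) D ^ 2 = 1 := by
    rw [← symZ_double hΦ hdet hC, hrow]
    exact hSq _ _ e hm hcop' hD'1 hD'sq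
  rw [← e1]
  exact h2 _ e2

/-- **Step a + Step b**: the symbol vanishes on every coprime integer row with `D ≡ 1 mod N`. -/
theorem symZ_eq_one_of_sqRow (hΦ : KillsElem Φ) (h2 : ∀ a : A, a ^ 2 = 1 → a = 1)
    (hSq : SqRowStmt Φ) (hN : 0 < N) {C D : ℤ} (hC : (N : ℤ) ∣ C) (hcop : IsCoprime C D)
    (hD : D ≡ 1 [ZMOD (N : ℤ)]) : symZ Φ C D = 1 := by
  -- WLOG `D ≠ 0`
  wlog hD0 : D ≠ 0 generalizing D
  · rw [not_not] at hD0
    have hCD : IsCoprime C (D + C) := by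
      have := (IsCoprime.add_mul_left_right_iff (x := C) (y := D) (z := 1)).mpr hcop
      simpa using this
    have hmod : D + C ≡ D [ZMOD C] := by
      rw [Int.modEq_iff_dvd]; exact ⟨-1, by ring⟩
    have hC0 : C ≠ 0 := by
      rintro rfl
      rw [hD0] at hcop
      exact not_isCoprime_zero_zero hcop
    have hD' : D + C ≡ 1 [ZMOD (N : ℤ)] := by
      have : C ≡ 0 [ZMOD (N : ℤ)] := Int.modEq_zero_iff_dvd.mpr hC
      simpa using hD.add this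
    rw [← symZ_modEq_right hΦ hC hcop hmod]
    exact this hCD hD' (by rw [hD0, zero_add]; exact hC0)
  obtain ⟨x, rfl⟩ := hC
  have hxD : IsCoprime x ((D.natAbs : ℕ) : ℤ) := by
    have h1 : IsCoprime x D := hcop.of_mul_left_right
    rcases Int.natAbs_eq D with h | h
    · rw [← h]; exact h1
    · have : ((D.natAbs : ℕ) : ℤ) = -D := by omega
      rw [this]; exact h1.neg_right
  have hDabs : D.natAbs ≠ 0 := Int.natAbs_ne_zero.mpr hD0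
  have hcompat : x ≡ 1 [ZMOD ((Nat.gcd D.natAbs 1 : ℕ) : ℤ)] := by
    rw [Nat.gcd_one_right]; simpa using Int.modEq_one
  obtain ⟨l1, hl1B, hl1p, hl1x, -⟩ := exists_prime_gt_zmodEq_two (a₁ := x) (a₂ := 1) hDabs
    one_ne_zero hcompat hxD (by simpa using isCoprime_one_left)
    (max 2 (max N (D.natAbs ^ 2 + 1)))
  have hl1_2 : 2 < l1 := lt_of_le_of_lt (le_max_left _ _) hl1B
  have hl1_N : N < l1 := lt_of_le_of_lt ((le_max_left _ _).trans (le_max_right _ _)) hl1B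
  have hl1_D : D.natAbs ^ 2 + 1 < l1 :=
    lt_of_le_of_lt ((le_max_right _ _).trans (le_max_right _ _)) hl1B
  have hl1N : ¬ l1 ∣ N := fun h => absurd (Nat.le_of_dvd hN h) (not_le.mpr hl1_N)
  have hl1D' : ¬ (l1 : ℤ) ∣ D ^ 2 + 1 := by
    intro h
    have h1 : (l1 : ℤ) ≤ D ^ 2 + 1 := Int.le_of_dvd (by positivity) h
    have h3 : ((D.natAbs ^ 2 + 1 : ℕ) : ℤ) = D ^ 2 + 1 := by
      push_cast
      rw [sq_abs]
    have h4 : ((D.natAbs ^ 2 + 1 : ℕ) : ℤ) < (l1 : ℤ) := by exact_mod_cast hl1_D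
    rw [h3] at h4
    exact absurd h1 (not_le.mpr h4)
  -- (R2): `(N x, D) ↦ (N l1, D)`
  have hl1x' : (l1 : ℤ) ≡ x [ZMOD D] := hl1x.of_dvd (Int.dvd_natAbs.mpr dvd_rfl)
  have hmod : (N : ℤ) * l1 ≡ (N : ℤ) * x [ZMOD (N : ℤ) * D] := hl1x'.mul_left'
  have hCx : (N : ℤ) ∣ (N : ℤ) * x := Dvd.intro _ rfl
  have hcop1 : IsCoprime ((N : ℤ) * l1) D := isCoprime_of_modEq_left hcop hmod
  rw [← symZ_modEq_left hΦ hCx hcop hmod]
  exact symZ_prime_row hΦ h2 hSq hN hl1p (by omega) hl1N hcop1 hD hl1D'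

/-- the congruence subgroup property for `Φ` from Lemma 3 -/
theorem map_eq_one_of_sqRow (hΦ : KillsElem Φ) (hqN : ¬ q ∣ N) (hN : 0 < N)
    (h2 : ∀ a : A, a ^ 2 = 1 → a = 1) (hSq : SqRowStmt Φ)
    (x : ↥(DeltaQ N q)) (hx : (x : SLQ) 1 1 - 1 ∈ NZq q N) : Φ x = 1 :=
  IntRow.map_eq_one_of_int_sym hΦ hqN
    (fun _ _ _ hcop hd => symZ_eq_one_of_sqRow hΦ h2 hSq hN (Dvd.intro _ rfl) hcop
      (Int.modEq_iff_dvd.mpr hd).symm) x hx

/-- **`CSPStmt` from Lemma 3** for a commutative group without `2`-torsion. -/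
theorem cspStmt_of_sqRow (hqN : ¬ q ∣ N) (hN : 0 < N) (h2 : ∀ a : A, a ^ 2 = 1 → a = 1)
    (hSq : ∀ Φ : ↥(DeltaQ N q) →* A, KillsElem Φ → SqRowStmt Φ) :
    Fermat.Agent.GM.Ihara.CSPStmt N q A := by
  intro Φ hu hl h hh
  have hΦ : KillsElem Φ := ⟨hu, hl⟩
  exact map_eq_one_of_sqRow hΦ hqN hN h2 (hSq Φ hΦ) h hh

end Fermat.Agent.GM.CSP.FinalZ26
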