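import Fermat.Agent.GM.CSP.Symbol

/-!
# GATE-M / S41-(C2) CSP, LEMMA 2 (helper4) of helper25's elementary proof (board 3748)

`s(N m, l²) = 1` for an odd prime `l ∤ N m`, `l > φ(N |m|)`, `l² ≡ 1 mod N`, from the conductor
lemma (Lemma 1) at the prime `l`, taken here in BINDER form `CondHyp Φ l s`:
for `j ≥ s` the symbol `s(N x, l^j)` depends on the integer `x` (prime to `l`) only modulo `l^s`.

Proof (3748 Lemma 2 with the `φ(N m)` fix): `F(j) = s(N m, l^j)` has period `φ(N|m|)` in `j` (R1);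
choose (Dirichlet + CRT) a prime `l₂ ≡ m mod l^s`, `l₂ ≡ 3 mod 4`, `gcd(φ(N|m|), l₂ - 1) ∣ 2`; then
`G(j) = s(N l₂, l^j)` has period `l₂ - 1`, `F(j) = G(j)` for `j ≥ s` (Lemma 1), and there is
`j' ≥ s`, `j' ≡ 2 mod φ(N|m|)`, `j' ≡ 0 mod (l₂ - 1)`; so `F(2) = F(j') = G(j') = G(0) = s(N l₂, 1) = 1`.
-/

set_option autoImplicit false

namespace Fermat.Agent.GM.CSP.Lemma2

open Fermat.Agent.GM.Amalgam Fermat.Agent.GM.CSP.Symbol

/-! ### number theory -/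

theorem nat_gcd_mul_dvd (k m n : ℕ) : Nat.gcd k (m * n) ∣ Nat.gcd k m * Nat.gcd k n := by
  have := gcd_mul_dvd_mul_gcd k m n
  simpa only [gcd_eq_nat_gcd] using this

/-- gcd with `l2 - 1` when `l2 ≡ 3 mod 4` and `l2 ≡ 2 mod (odd part of E)` -/
theorem gcd_dvd_two {E P k l2 : ℕ} (hE : E = 2 ^ k * P) (h4 : l2 % 4 = 3)
    (hP2 : l2 ≡ 2 [MOD P]) : Nat.gcd E (l2 - 1) ∣ 2 := by
  have hl2 : 1 ≤ l2 := by omega
  have h1 : Nat.Coprime (l2 - 1) P := by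
    have : l2 - 1 ≡ 1 [MOD P] := by
      have h2 : l2 - 1 + 1 ≡ 1 + 1 [MOD P] := by
        rw [Nat.sub_add_cancel hl2]; exact hP2
      exact Nat.ModEq.add_right_cancel' 1 h2
    have := this.gcd_eq
    rw [Nat.Coprime, this, Nat.gcd_one_left]
  have h2 : Nat.gcd (l2 - 1) (2 ^ k) ∣ 2 := by
    obtain ⟨a, ha⟩ : ∃ a, l2 - 1 = 2 * (2 * a + 1) := ⟨l2 / 4, by omega⟩
    rw [ha]
    have hc : Nat.Coprime (2 * a + 1) (2 ^ k) := by
      apply Nat.Coprime.pow_right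
      rw [Nat.coprime_comm, Nat.coprime_two_left]
      exact ⟨a, rfl⟩
    have h3 := nat_gcd_mul_dvd (2 ^ k) 2 (2 * a + 1)
    rw [Nat.gcd_comm]
    refine h3.trans ?_
    rw [Nat.gcd_comm (2 ^ k) (2 * a + 1), hc.gcd_eq_one, mul_one]
    exact Nat.gcd_dvd_right _ _
  rw [hE, Nat.gcd_comm]
  refine (nat_gcd_mul_dvd (l2 - 1) (2 ^ k) P).trans ?_
  rw [h1.gcd_eq_one, mul_one]
  exact h2

/-- **the auxiliary prime `l₂`** of Lemma 2: `l₂ ≡ m mod l^s`, `l₂ ≡ 3 mod 4`,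
`gcd(E, l₂ - 1) ∣ 2`, `l₂` as large as we like. -/
theorem exists_aux_prime {l : ℕ} (hl : l.Prime) (hl2 : l ≠ 2) (s : ℕ) (m : ℤ)
    (hlm : ¬ (l : ℤ) ∣ m) {E : ℕ} (hE0 : E ≠ 0) (hEl : E < l) (B : ℕ) :
    ∃ l2 : ℕ, B < l2 ∧ l2.Prime ∧ (l : ℤ) ^ s ∣ (l2 : ℤ) - m ∧ l2 % 4 = 3 ∧
      Nat.gcd E (l2 - 1) ∣ 2 := by
  obtain ⟨k, P, hP, hE⟩ := Nat.exists_eq_two_pow_mul_odd hE0
  have hP0 : P ≠ 0 := by rintro rfl; simp at hP
  have hPl : P < l := by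
    have : P ≤ E := by
      rw [hE]; exact Nat.le_mul_of_pos_left _ (pow_pos (by norm_num) k)
    omega
  have hlodd : Odd l := hl.odd_of_ne_two hl2
  -- coprimalities
  have c4P : Nat.Coprime 4 P := by
    have : Nat.Coprime (2 ^ 2) P := Nat.Coprime.pow_left 2 (Nat.coprime_two_left.mpr hP)
    simpa using this
  have clP : Nat.Coprime l P := by
    rw [Nat.Prime.coprime_iff_not_dvd hl]
    intro h
    exact absurd (Nat.le_of_dvd (Nat.pos_of_ne_zero hP0) h) (by omega)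
  have cl4 : Nat.Coprime l 4 := by
    have : Nat.Coprime l (2 ^ 2) :=
      Nat.Coprime.pow_right 2 ((Nat.coprime_comm.mp (Nat.coprime_two_left.mpr hlodd)))
    simpa using this
  have cQ : Nat.Coprime (l ^ (s + 1)) (4 * P) :=
    Nat.Coprime.pow_left _ (Nat.Coprime.mul_right cl4 clP)
  -- residues
  set r : ℕ := (m % ((l : ℤ) ^ (s + 1))).toNat with hr
  have hlpos : (0 : ℤ) < (l : ℤ) ^ (s + 1) := pow_pos (by exact_mod_cast hl.pos) _
  have hr' : (r : ℤ) = m % ((l : ℤ) ^ (s + 1)) :=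
    Int.toNat_of_nonneg (Int.emod_nonneg _ hlpos.ne')
  obtain ⟨a1, ha14, ha1P⟩ := Nat.chineseRemainder c4P 3 2
  obtain ⟨a0, ha0l, ha0Q⟩ := Nat.chineseRemainder cQ r a1
  have ha04 : a0 ≡ 3 [MOD 4] := (ha0Q.of_mul_right P).trans ha14
  have ha0P : a0 ≡ 2 [MOD P] := (ha0Q.of_mul_left 4).trans ha1P
  -- `a0` is coprime to the modulus
  have hlr : ¬ l ∣ r := by
    intro h
    apply hlm
    have h1 : (l : ℤ) ∣ (r : ℤ) := by exact_mod_cast h
    rw [hr'] at h1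
    have h2 : (l : ℤ) ∣ (l : ℤ) ^ (s + 1) := dvd_pow_self _ (Nat.succ_ne_zero s)
    exact (EuclideanDomain.dvd_mod_iff h2).mp h1
  have cop : Nat.Coprime a0 (l ^ (s + 1) * (4 * P)) := by
    apply Nat.Coprime.mul_right
    · apply Nat.Coprime.pow_right
      rw [Nat.coprime_comm, Nat.Prime.coprime_iff_not_dvd hl]
      intro h
      apply hlr
      have h3 : a0 ≡ r [MOD l] := ha0l.of_dvd (dvd_pow_self _ (Nat.succ_ne_zero s))
      exact (h3.dvd_iff (dvd_refl l)).mp h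
    · apply Nat.Coprime.mul_right
      · rw [Nat.Coprime, ha04.gcd_eq]; rfl
      · rw [Nat.Coprime, ha0P.gcd_eq]
        exact Nat.coprime_two_left.mpr hP
  have hQ0 : l ^ (s + 1) * (4 * P) ≠ 0 := by
    have := hl.pos
    positivity
  obtain ⟨p, hpB, hpp, hpa⟩ := Nat.forall_exists_prime_gt_and_modEq B hQ0 cop
  have hpl : p ≡ r [MOD l ^ (s + 1)] := (hpa.of_mul_right _).trans ha0l
  have hp4 : p ≡ 3 [MOD 4] := ((hpa.of_mul_left _).of_mul_right P).trans ha04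
  have hpP : p ≡ 2 [MOD P] := ((hpa.of_mul_left _).of_mul_left 4).trans ha0P
  refine ⟨p, hpB, hpp, ?_, hp4, gcd_dvd_two hE hp4 hpP⟩
  -- `l^s ∣ p - m`
  have h1 : ((p : ℤ) ≡ (r : ℤ) [ZMOD ((l : ℤ) ^ (s + 1))]) := by
    have := (Int.natCast_modEq_iff (a := p) (b := r) (n := l ^ (s + 1))).mpr hpl
    simpa using this
  have h2 : (r : ℤ) ≡ m [ZMOD ((l : ℤ) ^ (s + 1))] := by
    rw [hr']; exact Int.mod_modEq _ _
  have h3 := (h1.trans h2).symm.dvd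
  exact (pow_dvd_pow _ (Nat.le_succ s)).trans h3

/-- exponents congruent mod `φ(n)` give congruent powers -/
theorem pow_modEq_of_totient {l n j : ℕ} (hc : Nat.Coprime l n) (hj : 2 ≤ j)
    (h : j ≡ 2 [MOD n.totient]) : l ^ j ≡ l ^ 2 [MOD n] := by
  obtain ⟨t, ht⟩ := (Nat.modEq_iff_dvd' hj).mp h.symm
  have hj' : j = 2 + n.totient * t := by omega
  rw [hj', pow_add, pow_mul]
  have h1 : (l ^ n.totient) ^ t ≡ 1 ^ t [MOD n] := (Nat.ModEq.pow_totient hc).pow t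
  rw [one_pow] at h1
  simpa using h1.mul_left (l ^ 2)

/-- `l^j ≡ 1 mod N l₂` when `(l₂ - 1) ∣ j`, `l₂ - 1` even, `l² ≡ 1 mod N` -/
theorem pow_modEq_one {l N l2 j : ℕ} (hl2 : l2.Prime) (hN : Nat.Coprime N l2)
    (hll2 : Nat.Coprime l l2) (hl1 : l ^ 2 ≡ 1 [MOD N]) (hev : 2 ∣ l2 - 1) (hj : l2 - 1 ∣ j) :
    l ^ j ≡ 1 [MOD N * l2] := by
  obtain ⟨t, rfl⟩ := hj
  obtain ⟨u, hu⟩ := hev
  have h1 : l ^ (l2 - 1) ≡ 1 [MOD l2] := by
    have := Nat.ModEq.pow_totient hll2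
    rwa [Nat.totient_prime hl2] at this
  have h2 : l ^ (l2 - 1) ≡ 1 [MOD N] := by
    rw [hu, pow_mul]
    have := hl1.pow u
    rwa [one_pow] at this
  have h3 : l ^ (l2 - 1) ≡ 1 [MOD N * l2] :=
    (Nat.modEq_and_modEq_iff_modEq_mul hN).mp ⟨h2, h1⟩
  rw [pow_mul]
  have := h3.pow t
  rwa [one_pow] at this

/-! ### integer rows -/

variable {N q : ℕ} [hq : Fact q.Prime]

/-- integer rows -/
theorem isRow_int {c d : ℤ} (hc : (N : ℤ) ∣ c) (h : IsCoprime c d) :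
    IsRow N q (c : ℚ) (d : ℚ) := by
  rw [isRow_iff]
  obtain ⟨u, v, huv⟩ := h
  refine ⟨mem_NZq_iff.mpr ⟨0, c, hc, by simp⟩, intCast_mem_Zq q d, (v : ℚ), intCast_mem_Zq q v,
    ((-u : ℤ) : ℚ), intCast_mem_Zq q (-u), ?_⟩
  have : ((u * c + v * d : ℤ) : ℚ) = 1 := by rw [huv]; simp
  push_cast at this ⊢
  linear_combination this

section Sym

variable {A : Type*} [CommGroup A] {Φ : ↥(DeltaQ N q) →* A}

/-- (R1) for integer rows -/
theorem sym_int_congr (hΦ : KillsElem Φ) {c d d' : ℤ} (hr : IsRow N q (c : ℚ) (d : ℚ))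
    (h : c ∣ d' - d) : sym Φ (c : ℚ) (d' : ℚ) = sym Φ (c : ℚ) (d : ℚ) := by
  obtain ⟨t, ht⟩ := h
  obtain ⟨-, e⟩ := sym_add_mul_right (Φ := Φ) hΦ hr (intCast_mem_Zq q t)
  have : (d' : ℚ) = (d : ℚ) + (t : ℚ) * (c : ℚ) := by
    have : d' = d + t * c := by linarith
    rw [this]; push_cast; ring
  rw [this, e]

/-- (B) for integer rows -/
theorem sym_int_one (hΦ : KillsElem Φ) {c : ℤ} (hc : (N : ℤ) ∣ c) :
    sym Φ (c : ℚ) 1 = 1 := by
  have hc' : (c : ℚ) ∈ NZq q N := mem_NZq_iff.mpr ⟨0, c, hc, by simp⟩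
  obtain ⟨-, e⟩ := sym_unit_col (Φ := Φ) hΦ hc' (isUnitZq_one (q := q))
  rw [e, chi_one hΦ]


/-- **Lemma 1 in binder form** (conductor lemma at the prime `l`, conductor exponent `s`):
for `j ≥ s` the symbol `s(N x, l^j)` depends on `x` (an integer prime to `l`) only mod `l^s`. -/
def CondHyp (Φ : ↥(DeltaQ N q) →* A) (l s : ℕ) : Prop :=
  ∀ (j : ℕ) (x x' : ℤ), s ≤ j → ¬ (l : ℤ) ∣ x → ¬ (l : ℤ) ∣ x' → (l : ℤ) ^ s ∣ x' - x →
    sym Φ ((N : ℚ) * x') ((l : ℚ) ^ j) = sym Φ ((N : ℚ) * x) ((l : ℚ) ^ j)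

/-- **Lemma 2 (SQ)**: `s(N m, l²) = 1`. -/
theorem sym_sq_of_cond (hΦ : KillsElem Φ) (hN : N ≠ 0) {l : ℕ} (hl : l.Prime) (hl2 : l ≠ 2)
    (hlN : ¬ l ∣ N) {s : ℕ} (hcond : CondHyp Φ l s) (m : ℤ) (hm : m ≠ 0)
    (hlm : ¬ (l : ℤ) ∣ m) (hphi : (N * m.natAbs).totient < l)
    (hl1 : (N : ℤ) ∣ (l : ℤ) ^ 2 - 1) :
    sym Φ ((N : ℚ) * m) ((l : ℚ) ^ 2) = 1 := by
  set n1 : ℕ := N * m.natAbs with hn1
  have hn10 : n1 ≠ 0 := Nat.mul_ne_zero hN (Int.natAbs_ne_zero.mpr hm)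
  have hE0 : n1.totient ≠ 0 := (Nat.totient_pos.mpr (Nat.pos_of_ne_zero hn10)).ne'
  -- the auxiliary prime
  obtain ⟨l2, hl2B, hl2p, hl2m, hl24, hgcd⟩ :=
    exists_aux_prime hl hl2 s m hlm hE0 hphi (N + l)
  have hl2N : Nat.Coprime N l2 := by
    rw [Nat.coprime_comm, Nat.Prime.coprime_iff_not_dvd hl2p]
    intro h
    exact absurd (Nat.le_of_dvd (Nat.pos_of_ne_zero hN) h) (by omega)
  have hll2 : Nat.Coprime l l2 := by
    rw [Nat.coprime_primes hl hl2p]; omega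
  -- coprimality of `l` with the two moduli
  have hlm' : ¬ l ∣ m.natAbs := by
    intro h
    exact hlm (Int.natCast_dvd.mpr h)
  have hln1 : Nat.Coprime l n1 := by
    rw [Nat.Prime.coprime_iff_not_dvd hl, hn1, Nat.Prime.dvd_mul hl]
    rintro (h | h)
    · exact hlN h
    · exact hlm' h
  -- the exponent `j'`
  have hmod : 2 ≡ 0 [MOD Nat.gcd n1.totient (l2 - 1)] :=
    (Nat.modEq_zero_iff_dvd.mpr hgcd)
  obtain ⟨k0, hk1, hk2⟩ := Nat.chineseRemainder' hmod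
  set j' : ℕ := k0 + (s + 2) * (n1.totient * (l2 - 1)) with hj'
  have hE2 : 1 ≤ l2 - 1 := by
    have := hl2p.two_le; have := hl.two_le; omega
  have hj1 : j' ≡ 2 [MOD n1.totient] := by
    have : j' ≡ k0 + 0 [MOD n1.totient] := by
      rw [hj']
      apply Nat.ModEq.add_left
      rw [Nat.modEq_zero_iff_dvd]
      exact dvd_mul_of_dvd_right (dvd_mul_right _ _) _
    simpa using this.trans hk1
  have hj2 : l2 - 1 ∣ j' := by
    rw [hj']
    apply Nat.dvd_add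
    · exact Nat.modEq_zero_iff_dvd.mp hk2
    · exact dvd_mul_of_dvd_right (dvd_mul_left _ _) _
  have hjs : s + 2 ≤ j' := by
    rw [hj']
    have h1 : 1 ≤ n1.totient * (l2 - 1) :=
      Nat.one_le_iff_ne_zero.mpr (Nat.mul_ne_zero hE0 (by omega))
    nlinarith
  -- rows
  have hrow1 : ∀ j : ℕ, IsRow N q ((((N : ℤ) * m : ℤ)) : ℚ) (((l : ℤ) ^ j : ℤ) : ℚ) := by
    intro j
    apply isRow_int (Dvd.intro _ rfl)
    apply IsCoprime.pow_right
    apply IsCoprime.symm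
    rw [Int.isCoprime_iff_gcd_eq_one]
    have hlp : Prime (l : ℤ) := Nat.prime_iff_prime_int.mp hl
    rw [← Int.isCoprime_iff_gcd_eq_one]
    rw [Prime.coprime_iff_not_dvd hlp]
    intro h
    rcases (Prime.dvd_mul hlp).mp h with h | h
    · exact hlN (by exact_mod_cast h)
    · exact hlm h
  have hrow2 : ∀ j : ℕ, IsRow N q ((((N : ℤ) * (l2 : ℤ) : ℤ)) : ℚ) (((l : ℤ) ^ j : ℤ) : ℚ) := by
    intro j
    apply isRow_int (Dvd.intro _ rfl)
    apply IsCoprime.pow_right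
    apply IsCoprime.symm
    have hlp : Prime (l : ℤ) := Nat.prime_iff_prime_int.mp hl
    rw [Prime.coprime_iff_not_dvd hlp]
    intro h
    rcases (Prime.dvd_mul hlp).mp h with h | h
    · exact hlN (by exact_mod_cast h)
    · have : l ∣ l2 := by exact_mod_cast h
      rw [Nat.prime_dvd_prime_iff_eq hl hl2p] at this
      omega
  -- Step 1 : `F(2) = F(j')`
  have step1 : sym Φ ((N : ℚ) * m) ((l : ℚ) ^ j') = sym Φ ((N : ℚ) * m) ((l : ℚ) ^ 2) := by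
    have h1 : l ^ j' ≡ l ^ 2 [MOD n1] := pow_modEq_of_totient hln1 (by omega) hj1
    have h2 : (n1 : ℤ) ∣ ((l : ℤ) ^ j' - (l : ℤ) ^ 2) := by
      have := (Nat.modEq_iff_dvd.mp h1.symm)
      push_cast at this
      exact this
    have h3 : (N : ℤ) * m ∣ (l : ℤ) ^ j' - (l : ℤ) ^ 2 := by
      refine Dvd.dvd.trans ?_ h2
      rw [hn1]
      push_cast
      exact mul_dvd_mul_left _ ((dvd_abs _ _).mpr dvd_rfl)
    have := sym_int_congr (Φ := Φ) hΦ (hrow1 2) h3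
    push_cast at this
    exact this
  -- Step 2 : `F(j') = G(j')`
  have step2 : sym Φ ((N : ℚ) * (l2 : ℤ)) ((l : ℚ) ^ j') = sym Φ ((N : ℚ) * m) ((l : ℚ) ^ j') := by
    apply hcond j' m l2 (by omega) hlm ?_ hl2m
    intro h
    have : l ∣ l2 := by exact_mod_cast h
    rw [Nat.prime_dvd_prime_iff_eq hl hl2p] at this
    omega
  -- Step 3 : `G(j') = G(0) = 1`
  have step3 : sym Φ ((N : ℚ) * (l2 : ℤ)) ((l : ℚ) ^ j') = 1 := by
    have hl1' : l ^ 2 ≡ 1 [MOD N] := by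
      rw [Nat.modEq_iff_dvd]
      have : (N : ℤ) ∣ -((l : ℤ) ^ 2 - 1) := (dvd_neg).mpr hl1
      push_cast
      convert this using 1
      ring
    have hev : 2 ∣ l2 - 1 := by omega
    have h1 : l ^ j' ≡ 1 [MOD N * l2] := pow_modEq_one hl2p hl2N hll2 hl1' hev hj2
    have h2 : ((N : ℤ) * (l2 : ℤ)) ∣ ((l : ℤ) ^ j' - ((l : ℤ) ^ 0)) := by
      have := (Nat.modEq_iff_dvd.mp h1.symm)
      push_cast at this
      simpa using this
    have h3 := sym_int_congr (Φ := Φ) hΦ (hrow2 0) h2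
    have h4 := sym_int_one (Φ := Φ) (q := q) hΦ (c := (N : ℤ) * (l2 : ℤ)) (Dvd.intro _ rfl)
    push_cast at h3 h4
    rw [Int.cast_natCast, h3, pow_zero]
    exact h4
  rw [← step1, ← step2, step3]

end Sym

end Fermat.Agent.GM.CSP.Lemma2
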