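/-
GATE-M / S41-(C2) CSP, (F0) in the two CONSUMER shapes (helper25):
* `exists_lift_dvd`   : `∃ s ≥ 1, ∀ j x, s ≤ j → l^s ∣ x - 1 → ∃ k, l^j ∣ x - (q^(2(l-1)))^k`
  (= `∃ s, 1 ≤ s ∧ LiftHyp q l s` of helper57 `Conductor.lean`, unfolded);
* `exists_lift_modEq` : the same with `Int.ModEq` (= (F0) of helper95's ruling 3776);
* `exists_lift_sq`    : `∃ s ≥ 1, ∀ j ≥ s, ∀ x x', l ∤ x → l^s ∣ x' - x →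
  ∃ k, l^j ∣ x' - x * (q^((l-1)k))^2` (what Lemma 1 really uses).
`l` an odd prime, `l ∤ q`, `2 ≤ q`.
-/
import Fermat.Agent.GM.CSP.LiftExp

set_option autoImplicit false

namespace Fermat.Agent.GM.CSP.LiftExp

theorem odd_of_prime_ne_two {l : ℕ} (hl : l.Prime) (hl2 : l ≠ 2) : Odd l :=
  hl.odd_of_ne_two hl2

/-- (F0), divisibility form -/
theorem exists_lift_dvd {l q : ℕ} (hl : l.Prime) (hl2 : l ≠ 2) (hq : 2 ≤ q) (hlq : ¬ l ∣ q) :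
    ∃ s : ℕ, 1 ≤ s ∧ ∀ (j : ℕ) (x : ℤ), s ≤ j → (l : ℤ) ^ s ∣ x - 1 →
      ∃ k : ℕ, (l : ℤ) ^ j ∣ x - ((q : ℤ) ^ (2 * (l - 1))) ^ k := by
  obtain ⟨s, hs1, hdvd, hndvd⟩ := exists_exponent hl hq hlq
  exact ⟨s, hs1, fun j x hj hx =>
    exists_pow_modEq hl (odd_of_prime_ne_two hl hl2) hs1 hdvd hndvd j hj x hx⟩

/-- (F0), `Int.ModEq` form -/
theorem exists_lift_modEq {l q : ℕ} (hl : l.Prime) (hl2 : l ≠ 2) (hq : 2 ≤ q) (hlq : ¬ l ∣ q) :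
    ∃ s : ℕ, 1 ≤ s ∧ ∀ j : ℕ, s ≤ j → ∀ x : ℤ, x ≡ 1 [ZMOD (l : ℤ) ^ s] →
      ∃ k : ℕ, x ≡ ((q : ℤ) ^ (2 * (l - 1))) ^ k [ZMOD (l : ℤ) ^ j] := by
  obtain ⟨s, hs1, h⟩ := exists_lift_dvd hl hl2 hq hlq
  refine ⟨s, hs1, fun j hj x hx => ?_⟩
  obtain ⟨k, hk⟩ := h j x hj (Int.modEq_iff_dvd.mp hx.symm)
  exact ⟨k, (Int.modEq_iff_dvd.mpr hk).symm⟩

/-- (F0), the form consumed by the conductor lemma -/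
theorem exists_lift_sq {l q : ℕ} (hl : l.Prime) (hl2 : l ≠ 2) (hq : 2 ≤ q) (hlq : ¬ l ∣ q) :
    ∃ s : ℕ, 1 ≤ s ∧ ∀ j : ℕ, s ≤ j → ∀ x x' : ℤ, ¬ (l : ℤ) ∣ x → (l : ℤ) ^ s ∣ x' - x →
      ∃ k : ℕ, (l : ℤ) ^ j ∣ x' - x * ((q : ℤ) ^ ((l - 1) * k)) ^ 2 := by
  obtain ⟨s, hs1, hdvd, hndvd⟩ := exists_exponent hl hq hlq
  exact ⟨s, hs1, fun j hj x x' hx hxx =>
    exists_unit_sq_modEq hl (odd_of_prime_ne_two hl hl2) hs1 hdvd hndvd hj hx hxx⟩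

end Fermat.Agent.GM.CSP.LiftExp
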