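/-
GATE-M / S41-(C2) CSP, helper25's proof (board 3748), LEMMA 3 in RATIONAL form (helper17):
**the symbol vanishes on rows `(c, D)` of `Γ0(N)[1/q]` with `D ≡ 1 mod N` and `D ≡ e² mod c`**,
unconditionally (Lemma 0 + Lemma 1 = helper67 `CondHedge.cond_of_killsElem`, Lemma 2 = `SqPrime`).

* `sym_sq_prime_all` : Lemma 2 without hypothesis (Lemma 1 plugged in);
* `sqPrimeStmt_all` : helper95's `Stmts.SqPrimeStmt Φ`;  `sqPrime_int` : the integer-cast shape;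
* `sym_sq_semi` : the row `(N m, D)`, `m ∈ ℤ ∖ 0`, `D = e² + t (N m)` with `e, t ∈ ℤ[1/q]`;
* **`sqVanish`** : `∀ c D e t : ℚ, IsRow N q c D → D - 1 ∈ NZq q N → e ∈ Zq q → t ∈ Zq q →
  D = e ^ 2 + t * c → sym Φ c D = 1`  (helper55's pinned `SqVanish`);
* `sqVanish_ex` : the same with `∃ t ∈ Zq q` (helper42's pinned `SqVanish`);
* `sqRowStmt_all` : helper95's `Stmts.SqRowStmt Φ`.
-/
import Mathlib
import Fermat.Agent.GM.CSP.Symbol
import Fermat.Agent.GM.CSP.SqPrime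
import Fermat.Agent.GM.CSP.CondHedge
import Fermat.Agent.GM.CSP.IntRow
import Fermat.Agent.GM.CSP.Stmts

set_option autoImplicit false

namespace Fermat.Agent.GM.CSP.SquareB

open Matrix Matrix.SpecialLinearGroup
open scoped MatrixGroups
open Fermat.Agent.GM.Amalgam Fermat.Agent.GM.CSP.Symbol

variable {N q : ℕ} [hq : Fact q.Prime]
variable {A : Type*} [CommGroup A] {Φ : ↥(DeltaQ N q) →* A}

/-! ### Lemma 2, unconditional -/

/-- Lemma 1 holds (helper67) -/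
theorem cond_all (hΦ : KillsElem Φ) : SqPrime.Cond N q Φ := CondHedge.cond_of_killsElem hΦ

/-- **Lemma 2**, no hypothesis left -/
theorem sym_sq_prime_all (hΦ : KillsElem Φ) (hN : N ≠ 0) (m : ℤ) (hm : m ≠ 0)
    (l : ℕ) (hl : l.Prime) (hl2 : l ≠ 2) (hlNq : ¬ l ∣ N * q) (hlm : ¬ (l : ℤ) ∣ m)
    (hlφ : ¬ l ∣ Nat.totient (N * m.natAbs)) (hlN : (N : ℤ) ∣ (l : ℤ) ^ 2 - 1) :
    sym Φ ((N : ℚ) * m) ((l : ℚ) ^ 2) = 1 :=
  SqPrime.sym_sq_prime hΦ hN (cond_all hΦ) m hm l hl hl2 hlNq hlm hlφ hlN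

/-- Lemma 2 in the integer-cast shape (helper33 / helper72) -/
theorem sqPrime_int (hΦ : KillsElem Φ) (hN : N ≠ 0) :
    ∀ (m : ℤ), m ≠ 0 → ∀ (l : ℕ), l.Prime → l ≠ 2 → l ≠ q → ¬ (l : ℤ) ∣ (N : ℤ) * m →
      ¬ l ∣ Nat.totient (N * m.natAbs) → (N : ℤ) ∣ (l : ℤ) ^ 2 - 1 →
      sym Φ (((N : ℤ) * m : ℤ) : ℚ) ((((l : ℤ) ^ 2 : ℤ)) : ℚ) = 1 := by
  intro m hm l hl hl2 hlq hlNm hφ hN1
  have hlN : ¬ l ∣ N := fun h => hlNm (Dvd.dvd.mul_right (Int.natCast_dvd_natCast.2 h) m)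
  have hlm : ¬ (l : ℤ) ∣ m := fun h => hlNm (Dvd.dvd.mul_left h _)
  have hlNq : ¬ l ∣ N * q := by
    intro h
    rcases (Nat.Prime.dvd_mul hl).1 h with h | h
    · exact hlN h
    · exact hlq ((Nat.prime_dvd_prime_iff_eq hl hq.out).1 h)
  have := sym_sq_prime_all (Φ := Φ) hΦ hN m hm l hl hl2 hlNq hlm hφ hN1
  push_cast
  exact this

/-- Lemma 2 in helper95's shape -/
theorem sqPrimeStmt_all (hΦ : KillsElem Φ) (hN : N ≠ 0) : Stmts.SqPrimeStmt Φ := by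
  intro m l hm hl hl2 hlq hlNm hφ hN1
  have hφ' : ¬ l ∣ Nat.totient (N * m.natAbs) := fun h => by
    have h1 : l ∣ Nat.gcd l (Nat.totient (N * m.natAbs)) := Nat.dvd_gcd dvd_rfl h
    rw [hφ] at h1
    exact hl.one_lt.ne' (Nat.dvd_one.1 h1)
  have hN1' : (N : ℤ) ∣ (l : ℤ) ^ 2 - 1 := by
    have := (Nat.modEq_iff_dvd.1 hN1.symm)
    push_cast at this
    exact this
  have := sqPrime_int (Φ := Φ) hΦ hN m hm l hl hl2 hlq hlNm hφ' hN1'
  rw [Stmts.symZ_def]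
  exact this

/-! ### Lemma 3 -/

/-- the row `(N m, D)` with `D ≡ 1 mod N`, `D ≡ e² mod N m` (`e ∈ ℤ[1/q]`) -/
theorem sym_sq_semi (hΦ : KillsElem Φ) (hN : N ≠ 0) (hqN : ¬ q ∣ N) {m : ℤ} (hm : m ≠ 0)
    {D e t : ℚ} (hr : IsRow N q ((N : ℚ) * m) D) (hD1 : D - 1 ∈ NZq q N) (he : e ∈ Zq q)
    (ht : t ∈ Zq q) (hD : D = e ^ 2 + t * ((N : ℚ) * m)) : sym Φ ((N : ℚ) * m) D = 1 := by
  have hq0 : (q : ℚ) ≠ 0 := Nat.cast_ne_zero.2 hq.out.ne_zero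
  have hNz : (N : ℤ) ≠ 0 := by exact_mod_cast hN
  have hC0 : (N : ℤ) * m ≠ 0 := mul_ne_zero hNz hm
  obtain ⟨v, C', hCC', hC'q⟩ := IntRow.exists_qpart (q := q) hC0
  have hC'0 : C' ≠ 0 := by
    rintro rfl
    rw [mul_zero] at hCC'
    exact hC0 hCC'
  have hqv : (q : ℚ) ^ v ≠ 0 := pow_ne_zero _ hq0
  have hCQ : (N : ℚ) * m = (q : ℚ) ^ v * C' := by
    have := congrArg (fun z : ℤ => (z : ℚ)) hCC'
    push_cast at this
    exact this
  -- an integer `E ≡ e mod C'`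
  obtain ⟨E, s, hs, hes⟩ := IntRow.exists_int_congr he hC'q
  have hqvinv : ((q : ℚ) ^ v)⁻¹ ∈ Zq q := ((isUnitZq_q (q := q)).pow v).2.1
  set t' : ℚ := t + s * (2 * E + s * C') * ((q : ℚ) ^ v)⁻¹ with ht'def
  have ht' : t' ∈ Zq q := by
    refine (Zq q).add_mem ht ((Zq q).mul_mem ((Zq q).mul_mem hs ?_) hqvinv)
    refine (Zq q).add_mem ((Zq q).mul_mem ?_ (intCast_mem_Zq q E))
      ((Zq q).mul_mem hs (intCast_mem_Zq q C'))
    exact (Zq q).add_mem (Zq q).one_mem (Zq q).one_mem |> fun h => by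
      have e2 : (2 : ℚ) = 1 + 1 := by norm_num
      rw [e2]; exact h
  have hD' : D = (E : ℚ) ^ 2 + t' * ((N : ℚ) * m) := by
    rw [hD, hes, ht'def, hCQ]
    field_simp
    ring
  -- `E` is prime to `C'`
  have hcop : IsCoprime E C' := by
    obtain ⟨-, -, a, ha, b, hb, hab⟩ := isRow_iff.1 hr
    have hC'N : (C' : ℚ) ∈ NZq q N := by
      refine ⟨(m : ℚ) * ((q : ℚ) ^ v)⁻¹, (Zq q).mul_mem (intCast_mem_Zq q m) hqvinv, ?_⟩
      have : (C' : ℚ) = ((N : ℚ) * m) * ((q : ℚ) ^ v)⁻¹ := by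
        rw [hCQ]; field_simp
      rw [this]; ring
    have hrow : IsRow N q ((C' : ℤ) : ℚ) ((E ^ 2 : ℤ) : ℚ) := by
      refine isRow_iff.2 ⟨hC'N, intCast_mem_Zq q _, a, ha,
        (b - a * t') * (q : ℚ) ^ v, ?_, ?_⟩
      · refine (Zq q).mul_mem ((Zq q).sub_mem hb ((Zq q).mul_mem ha ht')) ?_
        exact ((isUnitZq_q (q := q)).pow v).1
      · push_cast
        rw [hD', hCQ] at hab
        linear_combination hab
    have h1 : IsCoprime C' (E ^ 2) := IntRow.isCoprime_of_isRow_int hrow hC'q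
    exact ((IsCoprime.pow_right_iff (by norm_num : 0 < 2)).1 h1).symm
  -- Dirichlet: a large prime `l ≡ E mod C'`
  have hcop' : IsCoprime E ((C'.natAbs : ℕ) : ℤ) := by
    rcases Int.natAbs_eq C' with h | h
    · rw [← h]; exact hcop
    · have : ((C'.natAbs : ℕ) : ℤ) = -C' := by omega
      rw [this]; exact hcop.neg_right
  obtain ⟨l, hlB, hl, hlE⟩ := Nat.forall_exists_prime_gt_and_zmodEq
    (N + q + m.natAbs + Nat.totient (N * m.natAbs) + 2) (q := C'.natAbs) (a := E)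
    (Int.natAbs_ne_zero.2 hC'0) hcop'
  have hdv : C' ∣ E - (l : ℤ) := Int.natAbs_dvd.1 hlE.dvd
  obtain ⟨w, hw⟩ := hdv
  have hwQ : (E : ℚ) - (l : ℚ) = (C' : ℚ) * w := by exact_mod_cast congrArg (fun z : ℤ => (z : ℚ)) hw
  -- `l² = D + s2 (N m)`
  set s2 : ℚ := -t' - (w : ℚ) * ((l : ℚ) + E) * ((q : ℚ) ^ v)⁻¹ with hs2def
  have hs2 : s2 ∈ Zq q := by
    refine (Zq q).sub_mem ((Zq q).neg_mem ht') ((Zq q).mul_mem ((Zq q).mul_mem
      (intCast_mem_Zq q w) ((Zq q).add_mem ?_ (intCast_mem_Zq q E))) hqvinv)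
    exact_mod_cast intCast_mem_Zq q (l : ℤ)
  have hl2D : D + s2 * ((N : ℚ) * m) = (l : ℚ) ^ 2 := by
    have hE : (E : ℚ) = (l : ℚ) + (C' : ℚ) * w := by linear_combination hwQ
    rw [hD', hs2def, hCQ, hE]
    field_simp
    ring
  obtain ⟨r1, e1⟩ := sym_add_mul_right (Φ := Φ) hΦ hr hs2
  rw [hl2D] at r1 e1
  rw [← e1]
  -- side conditions
  have hNmem : (N : ℚ) * m ∈ NZq q N := ⟨(m : ℚ), intCast_mem_Zq q m, rfl⟩
  have hlN1 : (N : ℤ) ∣ (l : ℤ) ^ 2 - 1 := by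
    apply IntRow.int_dvd_of_mem_NZq (q := q) hqN
    have : (((l : ℤ) ^ 2 - 1 : ℤ) : ℚ) = (D - 1) + s2 * ((N : ℚ) * m) := by
      push_cast
      linear_combination -hl2D
    rw [this]
    exact (NZq q N).add_mem hD1 (mul_mem_NZq_left hs2 hNmem)
  have hlNq : ¬ l ∣ N * q := by
    intro h
    rcases (Nat.Prime.dvd_mul hl).1 h with h | h
    · have := Nat.le_of_dvd (Nat.pos_of_ne_zero hN) h; omega
    · have := Nat.le_of_dvd hq.out.pos h; omega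
  have hlm : ¬ (l : ℤ) ∣ m := by
    intro h
    have h1 : l ∣ m.natAbs := Int.natCast_dvd.1 h
    have := Nat.le_of_dvd (Int.natAbs_pos.2 hm) h1
    omega
  have hlφ : ¬ l ∣ Nat.totient (N * m.natAbs) := by
    intro h
    have hpos : 0 < Nat.totient (N * m.natAbs) :=
      Nat.totient_pos.2 (Nat.mul_pos (Nat.pos_of_ne_zero hN) (Int.natAbs_pos.2 hm))
    have := Nat.le_of_dvd hpos h
    omega
  exact sym_sq_prime_all hΦ hN m hm l hl (by omega) hlNq hlm hlφ hlN1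

/-- **Lemma 3**, rational form (helper55's `SqVanish`) -/
theorem sqVanish (hΦ : KillsElem Φ) (hN : N ≠ 0) (hqN : ¬ q ∣ N) :
    ∀ c D e t : ℚ, IsRow N q c D → D - 1 ∈ NZq q N → e ∈ Zq q → t ∈ Zq q →
      D = e ^ 2 + t * c → sym Φ c D = 1 := by
  intro c D e t hr hD1 he ht hD
  have hq0 : (q : ℚ) ≠ 0 := Nat.cast_ne_zero.2 hq.out.ne_zero
  by_cases hc0 : c = 0
  · subst hc0
    obtain ⟨-, hDz, a, ha, b, -, hab⟩ := isRow_iff.1 hr
    have haD : a * D = 1 := by linear_combination hab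
    have hD0 : D ≠ 0 := by
      rintro rfl
      simp at haD
    have hu : IsUnitZq q D := by
      refine ⟨hDz, ?_, hD0⟩
      have : D⁻¹ = a := by
        field_simp
        linear_combination -haD
      rw [this]; exact ha
    exact chi_eq_one hΦ hu hD1
  · obtain ⟨hcN, -, -⟩ := isRow_iff.1 hr
    obtain ⟨k, n, ⟨n', rfl⟩, hcn⟩ := mem_NZq_iff.1 hcN
    have hqk : (q : ℚ) ^ k ≠ 0 := pow_ne_zero _ hq0
    have hu : IsUnitZq q ((q : ℚ) ^ k) := (isUnitZq_q (q := q)).pow k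
    obtain ⟨r1, e1⟩ := sym_sq (Φ := Φ) hΦ hr hu
    have a1 : ((q : ℚ) ^ k) ^ 2 * c = (N : ℚ) * (((q : ℤ) ^ k * n' : ℤ) : ℚ) := by
      rw [hcn]
      push_cast
      field_simp
    rw [a1] at r1 e1
    rw [← e1]
    have hm : (q : ℤ) ^ k * n' ≠ 0 := by
      refine mul_ne_zero (pow_ne_zero _ (by exact_mod_cast hq.out.ne_zero)) ?_
      rintro rfl
      apply hc0
      rw [hcn]; simp
    have ht' : t * (((q : ℚ) ^ k)⁻¹) ^ 2 ∈ Zq q := (Zq q).mul_mem ht ((Zq q).pow_mem hu.2.1 2)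
    refine sym_sq_semi hΦ hN hqN hm r1 hD1 he ht' ?_
    rw [← a1, hD]
    field_simp

/-- **Lemma 3**, rational form with `∃ t` (helper42's `SqVanish`) -/
theorem sqVanish_ex (hΦ : KillsElem Φ) (hN : N ≠ 0) (hqN : ¬ q ∣ N) :
    ∀ c D e : ℚ, IsRow N q c D → D - 1 ∈ NZq q N → e ∈ Zq q →
      (∃ t ∈ Zq q, D = e ^ 2 + t * c) → sym Φ c D = 1 := by
  rintro c D e hr hD1 he ⟨t, ht, hD⟩
  exact sqVanish hΦ hN hqN c D e t hr hD1 he ht hD

/-- **Lemma 3** in helper95's integer shape -/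
theorem sqRowStmt_all (hΦ : KillsElem Φ) (hN : N ≠ 0) (hqN : ¬ q ∣ N) : Stmts.SqRowStmt Φ := by
  intro m D e hm hcop hD1 hDe
  rw [Stmts.symZ_def]
  obtain ⟨w, hw⟩ := hDe.symm.dvd
  have hNdvd : (N : ℤ) ∣ (N : ℤ) * m := Dvd.intro _ rfl
  refine sqVanish hΦ hN hqN _ _ (e : ℚ) (w : ℚ) (Stmts.isRowZ hNdvd hcop) ?_
    (intCast_mem_Zq q e) (intCast_mem_Zq q w) ?_
  · have h1 : (N : ℤ) ∣ D - 1 := hD1.symm.dvd
    have := Stmts.intCast_mem_NZq (q := q) h1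
    push_cast at this
    exact this
  · have : D = e ^ 2 + w * ((N : ℤ) * m) := by linear_combination hw
    exact_mod_cast congrArg (fun z : ℤ => (z : ℚ)) this

end Fermat.Agent.GM.CSP.SquareB
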