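/-
GATE-M / S41-(C2): **the congruence subgroup property `CSPStmt N q A`** for every commutative group
`A` without 2-torsion (`N ≠ 0`, `q ∤ N`), in particular `A = Multiplicative (ZMod p)`, `p` odd:
ASSEMBLY (helper17) of helper25's elementary proof (board 3748) from the landed links

* Lemma 0 + Lemma 1 : helper67 `CondHedge.cond_of_killsElem`;
* Lemma 2 : helper17 `SqPrime.sym_sq_prime`;
* Lemma 3 : helper17 `SquareB.sqRowStmt_all`;
* Theorem (integer rows) : helper95 `FinalZ.symZ_eq_one_of_sqRow`;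
* normalisation : helper33 `IntRow.map_eq_one_of_int_sym`.
-/
import Mathlib
import Fermat.Agent.GM.CSP.SquareB
import Fermat.Agent.GM.CSP.FinalZ
import Fermat.Agent.GM.Ihara.IharaAsm

set_option autoImplicit false

namespace Fermat.Agent.GM.CSP.MainB

open Matrix Matrix.SpecialLinearGroup
open scoped MatrixGroups
open Fermat.Agent.GM.Amalgam Fermat.Agent.GM.CSP.Symbol

variable {N q : ℕ} [hq : Fact q.Prime]

/-- the symbol is trivial on every row `(c, d)` with `d ≡ 1 mod N` -/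
theorem map_eq_one {A : Type*} [CommGroup A] {Φ : ↥(DeltaQ N q) →* A} (hΦ : KillsElem Φ)
    (hN : N ≠ 0) (hqN : ¬ q ∣ N) (h2 : ∀ a : A, a ^ 2 = 1 → a = 1)
    (x : ↥(DeltaQ N q)) (hx : (x : SLQ) 1 1 - 1 ∈ NZq q N) : Φ x = 1 := by
  refine IntRow.map_eq_one_of_int_sym hΦ hqN (fun l d _ hcop hd1 => ?_) x hx
  have h3 : Stmts.SqRowStmt Φ := SquareB.sqRowStmt_all hΦ hN hqN
  have hD1 : d ≡ 1 [ZMOD (N : ℤ)] := (Int.modEq_iff_dvd.2 hd1).symm
  have := FinalZ.symZ_eq_one_of_sqRow hΦ (Nat.pos_of_ne_zero hN) h3 h2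
    (C := (N : ℤ) * l) (D := d) (Dvd.intro _ rfl) hcop hD1
  rw [Stmts.symZ_def] at this
  exact this

/-- **CSP** for a commutative group without 2-torsion -/
theorem cspStmt_of_no_two_torsion (hN : N ≠ 0) (hqN : ¬ q ∣ N) {A : Type*} [CommGroup A]
    (h2 : ∀ a : A, a ^ 2 = 1 → a = 1) : Fermat.Agent.GM.Ihara.CSPStmt N q A := by
  intro Φ hU hL x hx
  exact map_eq_one (Φ := Φ) ⟨hU, hL⟩ hN hqN h2 x hx

/-- no 2-torsion in `ZMod p`, `p` odd -/
theorem no_two_torsion_zmod {p : ℕ} (hp : p.Prime) (hp2 : p ≠ 2) :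
    ∀ a : Multiplicative (ZMod p), a ^ 2 = 1 → a = 1 := by
  intro a ha
  have : Fact p.Prime := ⟨hp⟩
  have h : (2 : ℕ) • Multiplicative.toAdd a = 0 := by
    have := congrArg Multiplicative.toAdd ha
    simpa using this
  have h2 : ((2 : ℕ) : ZMod p) ≠ 0 := by
    intro h0
    have := (ZMod.natCast_eq_zero_iff 2 p).1 h0
    exact hp2 ((Nat.prime_dvd_prime_iff_eq hp Nat.prime_two).1 this)
  have h3 : ((2 : ℕ) : ZMod p) * Multiplicative.toAdd a = 0 := by
    rw [← nsmul_eq_mul]; exact h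
  have h4 : Multiplicative.toAdd a = 0 := (mul_eq_zero.1 h3).resolve_left h2
  exact Multiplicative.toAdd.injective h4

/-- **(C2)**: the `hcsp` binder of `GM/End/Plug.S41_of_remaining_leaves` -/
theorem cspStmt {p : ℕ} (hp : p.Prime) (hp2 : p ≠ 2) (hN : N ≠ 0) (hqN : ¬ q ∣ N) :
    Fermat.Agent.GM.Ihara.CSPStmt N q (Multiplicative (ZMod p)) :=
  cspStmt_of_no_two_torsion hN hqN (no_two_torsion_zmod hp hp2)

end Fermat.Agent.GM.CSP.MainB
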