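import Fermat.Agent.GM.CSP.DirichletCRT

/-!
# GATE-M / S41-C2, Lemma 2 of helper25's proof of `CSPStmt`: the pure number theory

Per the split of ruling 3776 (file F2): the three arithmetic inputs of Lemma 2 (`SqPrimeStmt`),
free of the symbol.

* (a) `exists_aux_prime` : for an odd prime `l`, `l ∤ m`, `l ∤ P`, `0 < P`, there are arbitrarily
  large primes `l2 ≡ m mod l ^ s` with `l2 ≡ -1 mod 4 P`; hence `l2 % 4 = 3` and
  `gcd (l2 - 1) P ∣ 2` (ONE Dirichlet + CRT with the coprime moduli `4 P` and `l ^ s`);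
* (b) `exists_exponent` : `gcd o1 o2 ∣ 2 → ∃ j ≥ s, 2 ≤ j ∧ j ≡ 2 [MOD o1] ∧ o2 ∣ j`;
* (c) `orderOf_dvd_pred` : `orderOf (l : ZMod (N * l2)) ∣ l2 - 1` when `l ^ 2 ≡ 1 mod N` and `l2`
  is an odd prime not dividing `N l`; `orderOf_dvd_totient`;
* the ONE-CALL form `exists_aux_prime_exponent` : the auxiliary prime `l2` together with the
  exponent `j ≥ s`, `2 ≤ j`, `l ^ j ≡ l ^ 2 mod N m` and `l ^ j ≡ 1 mod N l2`.
-/

set_option autoImplicit false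

namespace Fermat.Agent.GM.CSP.SqPrimeNT

open Nat Fermat.Agent.GM.CSP.DirichletCRT

/-! ### (a) the auxiliary prime -/

/-- (a), strong form: `l2 ≡ -1 mod 4 P` and `l2 ≡ m mod l ^ s`. -/
theorem exists_aux_prime_neg_one {l : ℕ} (hl : l.Prime) (hl2 : l ≠ 2) (s : ℕ) {m : ℤ}
    (hlm : ¬ (l : ℤ) ∣ m) {P : ℕ} (hP : 0 < P) (hlP : ¬ l ∣ P) (B : ℕ) :
    ∃ l2 : ℕ, B < l2 ∧ l2.Prime ∧ (l2 : ℤ) ≡ m [ZMOD (l : ℤ) ^ s] ∧
      (l2 : ℤ) ≡ -1 [ZMOD ((4 * P : ℕ) : ℤ)] := by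
  have h4P : 4 * P ≠ 0 := by omega
  have hls : l ^ s ≠ 0 := pow_ne_zero _ hl.ne_zero
  have hl4 : ¬ l ∣ 4 := by
    intro h
    have h' : l ∣ 2 ^ 2 := by simpa using h
    have := (Nat.prime_dvd_prime_iff_eq hl Nat.prime_two).mp (hl.dvd_of_dvd_pow h')
    exact hl2 this
  have hcop : (4 * P).Coprime (l ^ s) := by
    apply Nat.Coprime.pow_right
    apply Nat.Coprime.symm
    rw [hl.coprime_iff_not_dvd]
    intro h
    rcases (hl.dvd_mul).mp h with h | h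
    · exact hl4 h
    · exact hlP h
  have hcompat : (-1 : ℤ) ≡ m [ZMOD ((Nat.gcd (4 * P) (l ^ s) : ℕ) : ℤ)] := by
    rw [Nat.coprime_iff_gcd_eq_one.mp hcop]
    simpa using Int.modEq_one
  have ha₁ : IsCoprime (-1 : ℤ) ((4 * P : ℕ) : ℤ) := isCoprime_one_left.neg_left
  have ha₂ : IsCoprime m ((l ^ s : ℕ) : ℤ) := by
    rw [Nat.cast_pow]
    apply IsCoprime.pow_right
    apply IsCoprime.symm
    rw [Prime.coprime_iff_not_dvd (Nat.prime_iff_prime_int.mp hl)]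
    exact hlm
  obtain ⟨p, hpB, hpp, hp₁, hp₂⟩ := exists_prime_gt_zmodEq_two h4P hls hcompat ha₁ ha₂ B
  refine ⟨p, hpB, hpp, ?_, hp₁⟩
  simpa [Nat.cast_pow] using hp₂

/-- arithmetic consequences of `l2 ≡ -1 mod 4 P`. -/
theorem mod_four_of_modEq_neg_one {l2 P : ℕ} (h : (l2 : ℤ) ≡ -1 [ZMOD ((4 * P : ℕ) : ℤ)]) :
    l2 % 4 = 3 := by
  have h4 : (l2 : ℤ) ≡ -1 [ZMOD 4] := by
    apply h.of_dvd
    push_cast
    exact dvd_mul_right 4 (P : ℤ)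
  unfold Int.ModEq at h4
  omega

theorem gcd_pred_dvd_two_of_modEq_neg_one {l2 P : ℕ} (hl2 : 0 < l2)
    (h : (l2 : ℤ) ≡ -1 [ZMOD ((4 * P : ℕ) : ℤ)]) : Nat.gcd (l2 - 1) P ∣ 2 := by
  have h1 : Nat.gcd (l2 - 1) P ∣ l2 - 1 := Nat.gcd_dvd_left _ _
  have h2 : Nat.gcd (l2 - 1) P ∣ l2 + 1 := by
    have hP : (P : ℤ) ∣ (l2 : ℤ) + 1 := by
      have h' : (l2 : ℤ) ≡ -1 [ZMOD (P : ℤ)] := by
        apply h.of_dvd
        push_cast
        exact dvd_mul_left (P : ℤ) 4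
      have := h'.symm.dvd
      simpa [sub_neg_eq_add] using this
    have hP' : P ∣ l2 + 1 := by exact_mod_cast hP
    exact (Nat.gcd_dvd_right _ _).trans hP'
  have h3 : (l2 + 1) - (l2 - 1) = 2 := by omega
  rw [← h3]
  exact Nat.dvd_sub h2 h1

/-- **(a)** of ruling 3776: the auxiliary prime of Lemma 2. -/
theorem exists_aux_prime {l : ℕ} (hl : l.Prime) (hl2 : l ≠ 2) (s : ℕ) {m : ℤ}
    (hlm : ¬ (l : ℤ) ∣ m) {P : ℕ} (hP : 0 < P) (hlP : ¬ l ∣ P) (B : ℕ) :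
    ∃ l2 : ℕ, B < l2 ∧ l2.Prime ∧ (l2 : ℤ) ≡ m [ZMOD (l : ℤ) ^ s] ∧ l2 % 4 = 3 ∧
      Nat.gcd (l2 - 1) P ∣ 2 := by
  obtain ⟨l2, hB, hp, h1, h2⟩ := exists_aux_prime_neg_one hl hl2 s hlm hP hlP B
  exact ⟨l2, hB, hp, h1, mod_four_of_modEq_neg_one h2,
    gcd_pred_dvd_two_of_modEq_neg_one hp.pos h2⟩

/-! ### (b) the exponent -/

/-- **(b)** of ruling 3776: a common exponent. -/
theorem exists_exponent {o1 o2 : ℕ} (h1 : 0 < o1) (h2 : 0 < o2) (hg : Nat.gcd o1 o2 ∣ 2)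
    (s : ℕ) : ∃ j, s ≤ j ∧ 2 ≤ j ∧ j ≡ 2 [MOD o1] ∧ o2 ∣ j := by
  have hcompat : 2 ≡ 0 [MOD Nat.gcd o1 o2] := (Nat.modEq_zero_iff_dvd).mpr hg
  obtain ⟨k, hk1, hk2⟩ := Nat.chineseRemainder' hcompat
  have ho : 1 ≤ o1 * o2 := Nat.mul_pos h1 h2
  refine ⟨k + (s + 2) * (o1 * o2), ?_, ?_, ?_, ?_⟩
  · nlinarith
  · nlinarith
  · have : k + (s + 2) * (o1 * o2) ≡ k + 0 [MOD o1] := by
      apply Nat.ModEq.add_left
      apply (Nat.modEq_zero_iff_dvd).mpr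
      exact Dvd.dvd.mul_left (Dvd.intro _ rfl) _
    simpa using this.trans (by simpa using hk1)
  · have hk2' : o2 ∣ k := (Nat.modEq_zero_iff_dvd).mp hk2
    exact Nat.dvd_add hk2' (Dvd.dvd.mul_left (Dvd.intro_left _ rfl) _)

/-! ### (c) the two orders -/

/-- `l ^ (l2 - 1) ≡ 1 mod N l2`. -/
theorem pow_pred_modEq_one {N l l2 : ℕ} (hp : l2.Prime) (hodd : l2 ≠ 2) (hN : ¬ l2 ∣ N)
    (hl : ¬ l2 ∣ l) (hsq : l ^ 2 ≡ 1 [MOD N]) : l ^ (l2 - 1) ≡ 1 [MOD N * l2] := by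
  have hcop : N.Coprime l2 := ((hp.coprime_iff_not_dvd).mpr hN).symm
  rw [← Nat.modEq_and_modEq_iff_modEq_mul hcop]
  constructor
  · obtain ⟨k, hk⟩ : ∃ k, l2 - 1 = 2 * k := by
      rcases hp.eq_two_or_odd with h | h
      · exact absurd h hodd
      · exact ⟨l2 / 2, by omega⟩
    rw [hk, pow_mul]
    simpa using hsq.pow k
  · have hc : l.Coprime l2 := ((hp.coprime_iff_not_dvd).mpr hl).symm
    have := Nat.ModEq.pow_totient hc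
    rwa [Nat.totient_prime hp] at this

/-- **(c)** of ruling 3776. -/
theorem orderOf_dvd_pred {N l l2 : ℕ} (hp : l2.Prime) (hodd : l2 ≠ 2) (hN : ¬ l2 ∣ N)
    (hl : ¬ l2 ∣ l) (hsq : l ^ 2 ≡ 1 [MOD N]) :
    orderOf ((l : ℕ) : ZMod (N * l2)) ∣ l2 - 1 := by
  apply orderOf_dvd_of_pow_eq_one
  have h := (ZMod.natCast_eq_natCast_iff _ _ _).mpr (pow_pred_modEq_one hp hodd hN hl hsq)
  simpa using h

/-- the order of a unit class divides `φ n`. -/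
theorem orderOf_dvd_totient {n l : ℕ} (h : l.Coprime n) : orderOf ((l : ℕ) : ZMod n) ∣ φ n := by
  apply orderOf_dvd_of_pow_eq_one
  have h' := (ZMod.natCast_eq_natCast_iff _ _ _).mpr (Nat.ModEq.pow_totient h)
  simpa using h'

/-- powers of `l` modulo `n` only depend on the exponent modulo the order. -/
theorem pow_modEq_of_modEq_orderOf {n l i j : ℕ} (h : i ≡ j [MOD orderOf ((l : ℕ) : ZMod n)]) :
    l ^ i ≡ l ^ j [MOD n] := by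
  have h' : ((l : ℕ) : ZMod n) ^ i = ((l : ℕ) : ZMod n) ^ j := by
    rw [← pow_mod_orderOf _ i, ← pow_mod_orderOf _ j]
    exact congrArg _ h
  rw [← ZMod.natCast_eq_natCast_iff, Nat.cast_pow, Nat.cast_pow]
  exact h'

/-! ### the one-call form -/

/-- **The number theory of Lemma 2 in one call**: for `l` an odd prime with `l ∤ N m`,
`gcd (l, φ (N |m|)) = 1` and `l ^ 2 ≡ 1 mod N`, and any `s`, `B`: a prime `l2 > B`,
`l2 ≡ 3 mod 4`, `l2 ≡ m mod l ^ s`, and an exponent `j ≥ s`, `2 ≤ j`, with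
`l ^ j ≡ l ^ 2 mod N m` and `l ^ j ≡ 1 mod N l2`. -/
theorem exists_aux_prime_exponent {N l : ℕ} {m : ℤ} (hN : 0 < N) (hm : m ≠ 0) (hl : l.Prime)
    (hl2 : l ≠ 2) (hlNm : ¬ (l : ℤ) ∣ (N : ℤ) * m) (hlP : l.Coprime (φ (N * m.natAbs)))
    (hsq : l ^ 2 ≡ 1 [MOD N]) (s B : ℕ) :
    ∃ l2 : ℕ, B < l2 ∧ l2.Prime ∧ l2 % 4 = 3 ∧ (l2 : ℤ) ≡ m [ZMOD (l : ℤ) ^ s] ∧
      ∃ j, s ≤ j ∧ 2 ≤ j ∧ (l : ℤ) ^ j ≡ (l : ℤ) ^ 2 [ZMOD (N : ℤ) * m] ∧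
        (l : ℤ) ^ j ≡ 1 [ZMOD (N : ℤ) * (l2 : ℤ)] := by
  set n : ℕ := N * m.natAbs with hn
  have hn0 : 0 < n := Nat.mul_pos hN (Int.natAbs_pos.mpr hm)
  have hP : 0 < φ n := Nat.totient_pos.mpr hn0
  have hlm : ¬ (l : ℤ) ∣ m := fun h => hlNm (Dvd.dvd.mul_left h _)
  have hlN : ¬ l ∣ N := by
    intro h
    apply hlNm
    exact Dvd.dvd.mul_right (by exact_mod_cast h) _
  have hln : l.Coprime n := by
    rw [hl.coprime_iff_not_dvd]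
    intro h
    rcases (hl.dvd_mul).mp h with h | h
    · exact hlN h
    · exact hlm (Int.natCast_dvd.mpr h)
  have hlP' : ¬ l ∣ φ n := (hl.coprime_iff_not_dvd).mp hlP
  obtain ⟨l2, hB, hp, h1, h2⟩ :=
    exists_aux_prime_neg_one hl hl2 s hlm hP hlP' (max B (max l N))
  have hl2B : B < l2 := lt_of_le_of_lt (le_max_left _ _) hB
  have hl2l : l < l2 := lt_of_le_of_lt ((le_max_left _ _).trans (le_max_right _ _)) hB
  have hl2N : N < l2 := lt_of_le_of_lt ((le_max_right _ _).trans (le_max_right _ _)) hB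
  have h4 : l2 % 4 = 3 := mod_four_of_modEq_neg_one h2
  have hodd : l2 ≠ 2 := by intro h; rw [h] at h4; omega
  have hl2N' : ¬ l2 ∣ N := fun h => absurd (Nat.le_of_dvd hN h) (not_le.mpr hl2N)
  have hl2l' : ¬ l2 ∣ l := fun h => absurd (Nat.le_of_dvd hl.pos h) (not_le.mpr hl2l)
  have ho1 : orderOf ((l : ℕ) : ZMod n) ∣ φ n := orderOf_dvd_totient hln
  have ho2 : orderOf ((l : ℕ) : ZMod (N * l2)) ∣ l2 - 1 :=
    orderOf_dvd_pred hp hodd hl2N' hl2l' hsq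
  have ho1pos : 0 < orderOf ((l : ℕ) : ZMod n) :=
    Nat.pos_of_dvd_of_pos ho1 hP
  have ho2pos : 0 < orderOf ((l : ℕ) : ZMod (N * l2)) :=
    Nat.pos_of_dvd_of_pos ho2 (by have := hp.two_le; omega)
  have hg : Nat.gcd (orderOf ((l : ℕ) : ZMod n)) (orderOf ((l : ℕ) : ZMod (N * l2))) ∣ 2 :=
    (Nat.dvd_gcd ((Nat.gcd_dvd_right _ _).trans ho2) ((Nat.gcd_dvd_left _ _).trans ho1)).trans
      (gcd_pred_dvd_two_of_modEq_neg_one hp.pos h2)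
  obtain ⟨j, hsj, h2j, hj1, hj2⟩ := exists_exponent ho1pos ho2pos hg s
  refine ⟨l2, hl2B, hp, h4, h1, j, hsj, h2j, ?_, ?_⟩
  · have e1 : l ^ j ≡ l ^ 2 [MOD n] := pow_modEq_of_modEq_orderOf hj1
    have e2 : ((l ^ j : ℕ) : ℤ) ≡ ((l ^ 2 : ℕ) : ℤ) [ZMOD (n : ℤ)] :=
      (Int.natCast_modEq_iff).mpr e1
    have hdvd : (N : ℤ) * m ∣ (n : ℤ) := by
      rw [hn, Nat.cast_mul]
      exact mul_dvd_mul_left _ (Int.dvd_natAbs.mpr dvd_rfl)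
    have e3 := e2.of_dvd hdvd
    simpa using e3
  · have e1 : l ^ j ≡ l ^ 0 [MOD N * l2] :=
      pow_modEq_of_modEq_orderOf ((Nat.modEq_zero_iff_dvd).mpr hj2)
    have e2 : ((l ^ j : ℕ) : ℤ) ≡ ((l ^ 0 : ℕ) : ℤ) [ZMOD ((N * l2 : ℕ) : ℤ)] :=
      (Int.natCast_modEq_iff).mpr e1
    simpa using e2

end Fermat.Agent.GM.CSP.SqPrimeNT
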