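import Fermat.Agent.GM.CSP.Stmts
import Fermat.Agent.GM.CSP.DirichletCRT

/-!
# GATE-M / S41-(C2) CSP, F3 in the frozen `Stmts` shape (helper21, twin): Lemma 3 of helper25's
proof (board 3748)

`sqRow_of_sqPrime : KillsElem Φ → 0 < N → SqPrimeStmt Φ → SqRowStmt Φ`.

If `D ≡ 1 mod N` and `D ≡ e² mod N m`, choose (Dirichlet) a prime `l ≡ e mod N |m|`,
`l > φ(N|m|) + q + 2`; then `s(N m, D) = s(N m, l²)` by (R1), `l² ≡ e² ≡ D ≡ 1 mod N`, `l` is prime to
`φ(N |m|)`, and Lemma 2 applies.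
-/

set_option autoImplicit false

namespace Fermat.Agent.GM.CSP.SqRowZ

open Fermat.Agent.GM.Amalgam Fermat.Agent.GM.CSP.Symbol Fermat.Agent.GM.CSP.Stmts
open Fermat.Agent.GM.CSP.DirichletCRT

variable {N q : ℕ} [hq : Fact q.Prime] {A : Type*} [CommGroup A] {Φ : ↥(DeltaQ N q) →* A}

/-- congruences modulo `N * |m|` (a natural number) and modulo `N * m` agree -/
theorem modEq_mul_iff_natAbs {N : ℕ} {m a b : ℤ} :
    a ≡ b [ZMOD ((N * m.natAbs : ℕ) : ℤ)] ↔ a ≡ b [ZMOD (N : ℤ) * m] := by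
  rw [Int.modEq_iff_dvd, Int.modEq_iff_dvd]
  have e : ((N * m.natAbs : ℕ) : ℤ) = (N : ℤ) * |m| := by
    push_cast; rfl
  rw [e]
  rcases abs_choice m with hm | hm
  · rw [hm]
  · rw [hm]
    constructor
    · intro h
      exact Dvd.dvd.trans (⟨-1, by ring⟩ : (N : ℤ) * m ∣ (N : ℤ) * -m) h
    · intro h
      exact Dvd.dvd.trans (⟨-1, by ring⟩ : (N : ℤ) * -m ∣ (N : ℤ) * m) h

/-- coprimality transfers along a congruence modulo the other argument -/
theorem isCoprime_of_modEq {C x y : ℤ} (h : IsCoprime C x) (hxy : y ≡ x [ZMOD C]) :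
    IsCoprime C y := by
  obtain ⟨t, ht⟩ := Int.modEq_iff_dvd.1 hxy.symm
  have : y = x + t * C := by linarith
  rw [this]
  exact (IsCoprime.add_mul_right_right_iff).2 h

/-- **Lemma 3 (SQ')** in the frozen shape. -/
theorem sqRow_of_sqPrime (hΦ : KillsElem Φ) (hN : 0 < N) (hsq : SqPrimeStmt Φ) :
    SqRowStmt Φ := by
  intro m D e hm hcop hD1 hDe
  set n : ℕ := N * m.natAbs with hn
  have hmabs : m.natAbs ≠ 0 := Int.natAbs_ne_zero.2 hm
  have hn0 : n ≠ 0 := Nat.mul_ne_zero hN.ne' hmabs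
  have hP0 : 0 < Nat.totient n := Nat.totient_pos.2 (Nat.pos_of_ne_zero hn0)
  -- `e²` and hence `e` is prime to `N m`
  have hcop_e2 : IsCoprime ((N : ℤ) * m) (e ^ 2) := isCoprime_of_modEq hcop hDe.symm
  have hcop_e : IsCoprime ((N : ℤ) * m) e := by
    rw [pow_two] at hcop_e2
    exact hcop_e2.of_mul_right_left
  -- coprimality with the natural modulus `n`
  have hcop_en : IsCoprime e ((n : ℕ) : ℤ) := by
    have e1 : ((n : ℕ) : ℤ) = (N : ℤ) * |m| := by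
      rw [hn]; push_cast; rfl
    rw [e1]
    rcases abs_choice m with h | h
    · rw [h]; exact hcop_e.symm
    · rw [h]
      have : (N : ℤ) * -m = -((N : ℤ) * m) := by ring
      rw [this]
      exact hcop_e.symm.neg_right
  -- Dirichlet
  obtain ⟨l, hlbig, hl, hle, -⟩ := exists_prime_gt_zmodEq_two
    (m₁ := n) (m₂ := 1) (a₁ := e) (a₂ := 0) hn0 one_ne_zero
    (by simp [Int.modEq_one]) hcop_en isCoprime_one_right (Nat.totient n + q + 2)
  have hl2 : l ≠ 2 := by omega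
  have hlq : l ≠ q := by omega
  -- `l ≡ e mod N m`
  have hle' : (l : ℤ) ≡ e [ZMOD (N : ℤ) * m] := modEq_mul_iff_natAbs.1 hle
  -- `l` is prime to `N m`
  have hcop_l : IsCoprime ((N : ℤ) * m) (l : ℤ) := isCoprime_of_modEq hcop_e hle'
  have hlNm : ¬ (l : ℤ) ∣ (N : ℤ) * m := by
    intro h
    have hp : Prime (l : ℤ) := Nat.prime_iff_prime_int.mp hl
    have := hcop_l.symm.isUnit_of_dvd' (dvd_refl _) h
    exact hp.not_isUnit this
  -- `l` is prime to `φ(n)`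
  have hlP : Nat.Coprime l (Nat.totient n) := by
    rw [Nat.Prime.coprime_iff_not_dvd hl]
    intro h
    have := Nat.le_of_dvd hP0 h
    omega
  -- `D ≡ l² mod N m`
  have hDl : D ≡ (l : ℤ) ^ 2 [ZMOD (N : ℤ) * m] := hDe.trans (hle'.pow 2).symm
  -- `l² ≡ 1 mod N`
  have hl1 : l ^ 2 ≡ 1 [MOD N] := by
    rw [← Int.natCast_modEq_iff]
    push_cast
    have h1 : (l : ℤ) ^ 2 ≡ D [ZMOD (N : ℤ)] := (hDl.of_dvd (Dvd.intro _ rfl)).symm
    exact h1.trans hD1
  have hNdvd : (N : ℤ) ∣ (N : ℤ) * m := Dvd.intro _ rfl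
  have hcop_l2 : IsCoprime ((N : ℤ) * m) ((l : ℤ) ^ 2) := hcop_l.pow_right
  rw [symZ_modEq_right hΦ hNdvd hcop_l2 hDl]
  exact hsq m l hm hl hl2 hlq hlNm hlP hl1

end Fermat.Agent.GM.CSP.SqRowZ
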