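import Fermat.Agent.GM.CSP.Symbol
import Mathlib.NumberTheory.LSeries.PrimesInAP

/-!
# GATE-M / S41-(C2) CSP, part SQUARE (helper72): Lemma 3 of helper25's proof (board 3748)

Setting of `GM/CSP/Symbol.lean` (helper33): `Φ : Γ0(N)[1/q] →* A` kills the elementary matrices of
level `N`, `sym Φ c d` is its bottom-row symbol.

* `SqPrime Φ` : the statement of **Lemma 2** (`s(N m, l²) = 1` for an odd prime `l ∤ N m q φ(N|m|)`
  with `l² ≡ 1 mod N`), in the integer shape of helper33 (board 3773);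
* `sym_eq_one_of_sq` : **Lemma 3** (`s(N m, D) = 1` whenever `D ≡ 1 mod N` is a square mod `N m`),
  from `SqPrime Φ`: Dirichlet gives a large prime `l ≡ e mod N|m|`, (R1) moves `D` to `l²`.

Self-contained on `Symbol.lean`; the integer forms `isRow_int'`, `sym_congr_right'` are local copies
(primed names) of the API announced for `GM/CSP/IntRow.lean`.
-/

set_option autoImplicit false

namespace Fermat.Agent.GM.CSP.Square

open Fermat.Agent.GM.Amalgam Fermat.Agent.GM.CSP.Symbol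

variable {N q : ℕ} [hq : Fact q.Prime] {A : Type*} [CommGroup A] {Φ : ↥(DeltaQ N q) →* A}

/-- integer multiples of `N` lie in `N ℤ[1/q]` -/
theorem intCast_mem_NZq' {c : ℤ} (hc : (N : ℤ) ∣ c) : (c : ℚ) ∈ NZq q N := by
  obtain ⟨c₁, rfl⟩ := hc
  exact ⟨(c₁ : ℚ), intCast_mem_Zq q c₁, by push_cast; ring⟩

/-- a coprime integer row `(c, d)` with `N ∣ c` is a bottom row of `Γ0(N)[1/q]` -/
theorem isRow_int' {c d : ℤ} (hc : (N : ℤ) ∣ c) (h : IsCoprime c d) :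
    IsRow N q (c : ℚ) (d : ℚ) := by
  rw [isRow_iff]
  obtain ⟨u, v, huv⟩ := h
  refine ⟨intCast_mem_NZq' hc, intCast_mem_Zq q d, (v : ℚ), intCast_mem_Zq q v,
    ((-u : ℤ) : ℚ), intCast_mem_Zq q (-u), ?_⟩
  have h1 : ((u * c + v * d : ℤ) : ℚ) = 1 := by rw [huv]; simp
  push_cast at h1 ⊢
  linarith

/-- (R1) over `ℤ`: `s(c, d') = s(c, d)` if `d' ≡ d mod c` -/
theorem sym_congr_right' (hΦ : KillsElem Φ) {c d d' : ℤ} (hr : IsRow N q (c : ℚ) (d : ℚ))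
    (h : c ∣ d' - d) :
    IsRow N q (c : ℚ) (d' : ℚ) ∧ sym Φ (c : ℚ) (d' : ℚ) = sym Φ (c : ℚ) (d : ℚ) := by
  obtain ⟨t, ht⟩ := h
  have key := sym_add_mul_right (Φ := Φ) hΦ hr (intCast_mem_Zq q t)
  have e : (d : ℚ) + (t : ℚ) * (c : ℚ) = (d' : ℚ) := by
    have h1 : ((d' - d : ℤ) : ℚ) = ((c * t : ℤ) : ℚ) := by rw [ht]
    push_cast at h1
    linarith
  rwa [e] at key

/-- **Lemma 2** of helper25's proof (statement): `s(N m, l²) = 1` for an odd prime `l ≠ q` with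
`l ∤ N m`, `l ∤ φ(N |m|)`, `l² ≡ 1 mod N`. -/
def SqPrime (Φ : ↥(DeltaQ N q) →* A) : Prop :=
  ∀ (m : ℤ), m ≠ 0 → ∀ (l : ℕ), l.Prime → l ≠ 2 → l ≠ q → ¬ (l : ℤ) ∣ (N : ℤ) * m →
    ¬ l ∣ Nat.totient (N * m.natAbs) → (N : ℤ) ∣ (l : ℤ) ^ 2 - 1 →
    sym Φ (((N : ℤ) * m : ℤ) : ℚ) ((((l : ℤ) ^ 2 : ℤ)) : ℚ) = 1

/-- **Lemma 3** of helper25's proof: `s(N m, D) = 1` whenever `D ≡ 1 mod N` and `D` is a square
modulo `N m`. -/
theorem sym_eq_one_of_sq (hΦ : KillsElem Φ) (hN : N ≠ 0) (h2 : SqPrime Φ) {m D e : ℤ}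
    (hm : m ≠ 0) (hcop : IsCoprime ((N : ℤ) * m) D) (hD1 : (N : ℤ) ∣ D - 1)
    (hsq : (N : ℤ) * m ∣ D - e ^ 2) :
    sym Φ (((N : ℤ) * m : ℤ) : ℚ) (D : ℚ) = 1 := by
  set M : ℕ := N * m.natAbs with hM
  have hM0 : M ≠ 0 := Nat.mul_ne_zero hN (Int.natAbs_ne_zero.mpr hm)
  have hMabs : (M : ℤ) = |(N : ℤ) * m| := by
    rw [hM, abs_mul, Nat.abs_cast, Nat.cast_mul, Int.natCast_natAbs]
  -- `e` is prime to `N m`
  have hecop : IsCoprime e (M : ℤ) := by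
    obtain ⟨k, hk⟩ := hsq
    have h1 : IsCoprime ((N : ℤ) * m) (D + (N : ℤ) * m * (-k)) := hcop.add_mul_left_right (-k)
    have h3 : D + (N : ℤ) * m * (-k) = e ^ 2 := by linarith
    rw [h3] at h1
    have h4 : IsCoprime ((N : ℤ) * m) e := (IsCoprime.pow_right_iff (by norm_num : 0 < 2)).mp h1
    rw [hMabs]
    rcases abs_choice ((N : ℤ) * m) with h | h
    · rw [h]; exact h4.symm
    · rw [h]; exact h4.symm.neg_right
  -- Dirichlet
  obtain ⟨l, hlB, hl, hle⟩ := Nat.forall_exists_prime_gt_and_zmodEq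
    (max (max 2 q) (max M M.totient)) hM0 hecop
  have hl2 : 2 < l := lt_of_le_of_lt (le_trans (le_max_left 2 q) (le_max_left _ _)) hlB
  have hlq : q < l := lt_of_le_of_lt (le_trans (le_max_right 2 q) (le_max_left _ _)) hlB
  have hlM : M < l := lt_of_le_of_lt (le_trans (le_max_left M M.totient) (le_max_right _ _)) hlB
  have hlφ : M.totient < l :=
    lt_of_le_of_lt (le_trans (le_max_right M M.totient) (le_max_right _ _)) hlB
  -- side conditions of Lemma 2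
  have c1 : ¬ (l : ℤ) ∣ (N : ℤ) * m := by
    intro h
    have h' : (l : ℤ) ∣ (M : ℤ) := by rw [hMabs]; exact (dvd_abs _ _).mpr h
    have h'' : l ∣ M := Int.natCast_dvd_natCast.mp h'
    exact absurd (Nat.le_of_dvd (Nat.pos_of_ne_zero hM0) h'') (not_le.mpr hlM)
  have c2 : ¬ l ∣ Nat.totient (N * m.natAbs) := by
    intro h
    exact absurd (Nat.le_of_dvd (Nat.totient_pos.mpr (Nat.pos_of_ne_zero hM0)) h) (not_le.mpr hlφ)
  -- `N m ∣ D - l²`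
  have hdvd1 : (N : ℤ) * m ∣ e - (l : ℤ) := by
    have h := hle.dvd
    rw [hMabs] at h
    exact (abs_dvd _ _).mp h
  have hdvd2 : (N : ℤ) * m ∣ D - (l : ℤ) ^ 2 := by
    have h : D - (l : ℤ) ^ 2 = (D - e ^ 2) + (e - (l : ℤ)) * (e + (l : ℤ)) := by ring
    rw [h]
    exact dvd_add hsq (Dvd.dvd.mul_right hdvd1 _)
  have c3 : (N : ℤ) ∣ (l : ℤ) ^ 2 - 1 := by
    have h : (l : ℤ) ^ 2 - 1 = (D - 1) - (D - (l : ℤ) ^ 2) := by ring
    rw [h]
    exact dvd_sub hD1 (dvd_trans (Dvd.intro _ rfl) hdvd2)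
  -- (R1): move `D` to `l²`
  have hr : IsRow N q ((((N : ℤ) * m : ℤ)) : ℚ) (D : ℚ) := isRow_int' (Dvd.intro _ rfl) hcop
  have hdvd3 : (N : ℤ) * m ∣ (l : ℤ) ^ 2 - D := by
    have h : (l : ℤ) ^ 2 - D = -(D - (l : ℤ) ^ 2) := by ring
    rw [h]
    exact (dvd_neg).mpr hdvd2
  obtain ⟨-, e1⟩ := sym_congr_right' (Φ := Φ) hΦ hr hdvd3
  rw [← e1]
  exact h2 m hm l hl (ne_of_gt hl2) (ne_of_gt hlq) c1 c2 c3

end Fermat.Agent.GM.CSP.Square
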